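import Mathlib

set_option autoImplicit false

/-!
# S24 : the norm as a product over a full family of embeddings
-/

namespace Fermat.Agent.S24

open IntermediateField

namespace Count

variable {K F M : Type*} [Field K] [Field F] [Algebra K F] [Field M]

/-- two ring homs agreeing on `K` and `u` agree on `K⟮u⟯`. -/
lemma eq_on_adjoin (u : F) (σ τ : F →+* M)
    (hK : ∀ c : K, σ (algebraMap K F c) = τ (algebraMap K F c)) (hu : σ u = τ u)
    (y : K⟮u⟯) : σ (algebraMap K⟮u⟯ F y) = τ (algebraMap K⟮u⟯ F y) := by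
  let L : IntermediateField K F := (RingHom.eqLocusField σ τ).toIntermediateField hK
  have hle : K⟮u⟯ ≤ L := by
    rw [adjoin_le_iff]
    rintro _ rfl
    exact hu
  exact hle y.2

/-- If `σ i`, `i : X`, are `[F : K(u)]` distinct embeddings of `F` in a field `M` agreeing on
`K(u)`, then the norm is the product of the conjugates. -/
theorem norm_eq_prod [CharZero K] (u : F) [FiniteDimensional K⟮u⟯ F]
    {X : Type*} [Fintype X] (σ : X → (F →+* M)) (hinj : Function.Injective σ)
    (hK : ∀ i i' (c : K), σ i (algebraMap K F c) = σ i' (algebraMap K F c))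
    (hu : ∀ i i', σ i u = σ i' u)
    (hcard : Fintype.card X = Module.finrank K⟮u⟯ F) (i₀ : X) (f : F) :
    σ i₀ (algebraMap K⟮u⟯ F (Algebra.norm K⟮u⟯ f)) = ∏ i, σ i f := by
  classical
  let E := AlgebraicClosure M
  letI : Algebra K⟮u⟯ M := ((σ i₀).comp (algebraMap K⟮u⟯ F)).toAlgebra
  letI : Algebra K⟮u⟯ E := ((algebraMap M E).comp (algebraMap K⟮u⟯ M)).toAlgebra
  haveI : CharZero K⟮u⟯ := charZero_of_injective_algebraMap (algebraMap K K⟮u⟯).injective
  let τ : X → (F →ₐ[K⟮u⟯] E) := fun i =>
    { ((algebraMap M E).comp (σ i)) with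
      commutes' := fun y => by
        change algebraMap M E (σ i (algebraMap K⟮u⟯ F y)) = algebraMap M E (σ i₀ (algebraMap K⟮u⟯ F y))
        rw [eq_on_adjoin u (σ i) (σ i₀) (hK i i₀) (hu i i₀)] }
  have hτ : Function.Injective τ := by
    intro i i' h
    apply hinj
    ext f
    have := congrArg (fun φ : F →ₐ[K⟮u⟯] E => φ f) h
    exact (algebraMap M E).injective this
  have hbij : Function.Bijective τ := by
    rw [Fintype.bijective_iff_injective_and_card]
    exact ⟨hτ, by rw [hcard, AlgHom.card]⟩
  have h1 := Algebra.norm_eq_prod_embeddings K⟮u⟯ E f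
  rw [← (Equiv.ofBijective τ hbij).prod_comp] at h1
  apply (algebraMap M E).injective
  rw [map_prod]
  exact h1

end Count

end Fermat.Agent.S24
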