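import Fermat.Agent.S21.PartA2
import Fermat.Agent.S21.PartB

/-!
# S24: the analytic `j`-function
-/

set_option autoImplicit false

namespace Fermat.Agent.S24

open UpperHalfPlane ModularForm Filter CongruenceSubgroup Fermat.Agent.S21
open scoped MatrixGroups Manifold Topology

/-- the analytic `j`-invariant -/
noncomputable def jfun (τ : ℍ) : ℂ := E₄ τ ^ 3 / discriminant τ

lemma jfun_def (τ : ℍ) : jfun τ = E₄ τ ^ 3 / discriminant τ := rfl

/-- transformation law of a level one form at the level of values -/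
lemma IsMF.apply_smul {k : ℤ} {f : ℍ → ℂ} (hf : IsMF ⊤ k f) (γ : SL(2, ℤ)) (τ : ℍ) :
    f (γ • τ) = denom γ τ ^ k * f τ := by
  have h := congrFun (hf.inv γ trivial) τ
  rw [SL_slash_apply] at h
  have hd : denom γ τ ≠ 0 := denom_ne_zero γ τ
  rw [← h, mul_comm (f (γ • τ)), ← mul_assoc, ← zpow_add₀ hd]
  simp

lemma jfun_smul (γ : SL(2, ℤ)) (τ : ℍ) : jfun (γ • τ) = jfun τ := by
  unfold jfun
  rw [IsMF.apply_smul isMF_E4 γ τ, IsMF.apply_smul isCF_Delta.isMF γ τ]
  have hd : denom γ τ ≠ 0 := denom_ne_zero γ τ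
  have hΔ := discriminant_ne_zero τ
  have e1 : denom γ τ ^ (4 : ℤ) = denom γ τ ^ 4 := by norm_cast
  have e2 : denom γ τ ^ (12 : ℤ) = denom γ τ ^ 12 := by norm_cast
  rw [e1, e2]
  field_simp

lemma jfun_sub_1728 (τ : ℍ) : jfun τ - 1728 = E₆ τ ^ 2 / discriminant τ := by
  unfold jfun
  have hΔ := discriminant_ne_zero τ
  have h := discriminant_eq_E₄_cube_sub_E₆_sq τ
  field_simp
  rw [h]
  ring

lemma jfun_mdiff : MDiff jfun := by
  have h1 : MDiff (fun τ : ℍ => E₄ τ ^ 3) := isMF_E4.holo.pow 3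
  have h2 : MDiff (discriminant : ℍ → ℂ) := isCF_Delta.holo
  exact h1.div h2 discriminant_ne_zero

/-- a level one form which tends to a nonzero limit at `i∞` and has positive weight has a zero -/
lemma exists_zero_of_isMF {k : ℤ} (hk : 0 < k) {f : ℍ → ℂ} (hf : IsMF ⊤ k f) {c : ℂ} (hc : c ≠ 0)
    (hlim : Tendsto f atImInfty (𝓝 c)) : ∃ τ, f τ = 0 := by
  by_contra hne
  push Not at hne
  have hg : IsMF ⊤ (-k) (fun τ => (f τ)⁻¹) := by
    refine ⟨?_, ?_, ?_⟩
    · have h1 : MDiff (fun _ : ℍ => (1 : ℂ)) := mdifferentiable_const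
      have := h1.div hf.holo hne
      have e : ((fun _ : ℍ => (1 : ℂ)) / f) = fun τ => (f τ)⁻¹ := by
        funext τ
        simp
      rwa [e] at this
    · intro γ _
      funext τ
      rw [SL_slash_apply, IsMF.apply_smul hf γ τ]
      have hd : denom γ τ ≠ 0 := denom_ne_zero γ τ
      rw [neg_neg, mul_inv, mul_comm, ← mul_assoc, mul_inv_cancel₀ (zpow_ne_zero _ hd), one_mul]
    · have key : ∀ g : SL(2, ℤ), (fun τ => (f τ)⁻¹) ∣[-k] g = fun τ => (f τ)⁻¹ := by
        intro γ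
        funext τ
        rw [SL_slash_apply, IsMF.apply_smul hf γ τ]
        have hd : denom γ τ ≠ 0 := denom_ne_zero γ τ
        rw [neg_neg, mul_inv, mul_comm, ← mul_assoc, mul_inv_cancel₀ (zpow_ne_zero _ hd), one_mul]
      intro g
      rw [key g]
      exact (hlim.inv₀ hc).isBigO_one ℝ
  have h0 := isMF_eq_zero_of_neg (by omega) hg
  have := congrFun h0 UpperHalfPlane.I
  exact inv_ne_zero (hne _) this

lemma tendsto_discriminant : Tendsto (discriminant : ℍ → ℂ) atImInfty (𝓝 0) :=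
  discriminant_isZeroAtImInfty

theorem jfun_surjective : Function.Surjective jfun := by
  intro c
  have hf : IsMF ⊤ 12 ((E₄ : ℍ → ℂ) ^ 3 - c • (discriminant : ℍ → ℂ)) :=
    ((PartA2.IsMF.pow isMF_E4 3).congr_wt (by norm_num)).sub (isCF_Delta.isMF.smul c)
  have hlim : Tendsto ((E₄ : ℍ → ℂ) ^ 3 - c • (discriminant : ℍ → ℂ)) atImInfty (𝓝 1) := by
    have h1 := (PartA2.tendsto_E4.pow 3).sub (tendsto_discriminant.const_mul c)
    have e : ((E₄ : ℍ → ℂ) ^ 3 - c • (discriminant : ℍ → ℂ)) =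
        fun x => E₄ x ^ 3 - c * discriminant x := by
      funext τ
      simp
    rw [e]
    simpa using h1
  obtain ⟨τ, hτ⟩ := exists_zero_of_isMF (by norm_num) hf one_ne_zero hlim
  refine ⟨τ, ?_⟩
  have hΔ := discriminant_ne_zero τ
  simp only [Pi.sub_apply, Pi.pow_apply, Pi.smul_apply, smul_eq_mul] at hτ
  unfold jfun
  rw [div_eq_iff hΔ]
  linear_combination hτ

end Fermat.Agent.S24
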