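import Fermat.Agent.S21.PartA0
import Fermat.Agent.S24.JFun

/-!
# S24 : more than `[SL₂(ℤ) : Γ₀(N)]` modular forms of the same weight are linearly dependent over
`ℂ[j]` (dimension count)
-/

set_option autoImplicit false
set_option linter.unusedSectionVars false

namespace Fermat.Agent.S24

open UpperHalfPlane ModularForm Filter CongruenceSubgroup Fermat.Agent.S21
open scoped MatrixGroups Manifold Topology

namespace DegCount

variable (N : ℕ) [NeZero N]

lemma isMF_term (w T k : ℕ) (hk : k ≤ T) {g : ℍ → ℂ} (hg : IsMF (Gamma0 N) w g) :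
    IsMF (Gamma0 N) ((w : ℤ) + 12 * T)
      ((E₄ : ℍ → ℂ) ^ (3 * k) * discriminant ^ (T - k) * g) := by
  have h1 := (PartA2.IsMF.pow isMF_E4 (3 * k)).mul (PartA2.IsMF.pow isCF_Delta.isMF (T - k))
  refine ((h1.of_top (Γ := Gamma0 N)).mul hg).congr_wt ?_
  have : ((T - k : ℕ) : ℤ) = T - k := by omega
  rw [this]
  push_cast
  ring

/-- **Dimension count.** -/
theorem exists_relation {ι : Type*} [Fintype ι] (hι : (Gamma0 N).index < Fintype.card ι) (w : ℕ)
    (g : ι → ℍ → ℂ) (hg : ∀ i, IsMF (Gamma0 N) w (g i)) :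
    ∃ (T : ℕ) (a : ι × Fin (T + 1) → ℂ), a ≠ 0 ∧
      ∀ τ, ∑ m, a m * jfun τ ^ (m.2 : ℕ) * g m.1 τ = 0 := by
  classical
  set n := (Gamma0 N).index with hn
  set T := w * n with hT
  refine ⟨T, ?_⟩
  let v : ι × Fin (T + 1) → MF (Gamma0 N) ((w : ℤ) + 12 * T) := fun m =>
    ⟨_, isMF_term N w T m.2 (Nat.lt_succ_iff.mp m.2.2) (hg m.1)⟩
  let Φ := Fintype.linearCombination ℂ v
  have := finiteDimensional_MF N ((w : ℤ) + 12 * T)
  have hdim : Module.finrank ℂ (MF (Gamma0 N) ((w : ℤ) + 12 * T))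
      < Module.finrank ℂ (ι × Fin (T + 1) → ℂ) := by
    have h1 := finrank_MF_le N ((w : ℤ) + 12 * T)
    rw [← hn] at h1
    have h2 : (((w : ℤ) + 12 * T) * n).toNat = w * n + 12 * (T * n) := by
      have : ((w : ℤ) + 12 * T) * n = ((w * n + 12 * (T * n) : ℕ) : ℤ) := by push_cast; ring
      rw [this, Int.toNat_natCast]
    rw [h2] at h1
    rw [Module.finrank_fintype_fun_eq_card, Fintype.card_prod, Fintype.card_fin]
    have h3 : (n + 1) * (T + 1) ≤ Fintype.card ι * (T + 1) := Nat.mul_le_mul_right _ hι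
    have h4 : (w * n + 12 * (T * n)) / 12 = w * n / 12 + T * n := by omega
    rw [h4] at h1
    have h5 : (n + 1) * (T + 1) = T * n + n + T + 1 := by ring
    have h6 : w * n / 12 ≤ T := by rw [hT]; omega
    have h7 : 0 < n := Nat.pos_of_ne_zero (Subgroup.FiniteIndex.index_ne_zero)
    omega
  have hker := LinearMap.ker_ne_bot_of_finrank_lt (f := Φ) hdim
  obtain ⟨a, ha, ha0⟩ := (Submodule.ne_bot_iff _).mp hker
  refine ⟨a, ha0, fun τ => ?_⟩
  have h1 : Φ a = 0 := ha
  have h2 := congrFun (congrArg Subtype.val h1) τ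
  simp only [Φ, Fintype.linearCombination_apply, Submodule.coe_sum, Submodule.coe_smul,
    Finset.sum_apply, Pi.smul_apply, smul_eq_mul, v, Pi.mul_apply, Pi.pow_apply,
    ZeroMemClass.coe_zero, Pi.zero_apply] at h2
  have hΔ := discriminant_ne_zero τ
  have h3 : ∑ m : ι × Fin (T + 1), a m * jfun τ ^ (m.2 : ℕ) * g m.1 τ
      = (∑ m : ι × Fin (T + 1), a m * (E₄ τ ^ (3 * (m.2 : ℕ)) * discriminant τ ^ (T - (m.2 : ℕ))
          * g m.1 τ)) / discriminant τ ^ T := by
    rw [Finset.sum_div]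
    refine Finset.sum_congr rfl fun m _ => ?_
    have hk : (m.2 : ℕ) ≤ T := Nat.lt_succ_iff.mp m.2.2
    have e : discriminant τ ^ T = discriminant τ ^ (T - (m.2 : ℕ)) * discriminant τ ^ (m.2 : ℕ) := by
      rw [← pow_add]; congr 1; omega
    rw [e, jfun, div_pow, ← pow_mul]
    field_simp
  rw [h3, h2, zero_div]

end DegCount

end Fermat.Agent.S24
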