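import Mathlib
import Fermat.Prelude.Def_ModularCurve_LaurentCoeff

/-!
# S24 : descent of linear relations between Laurent series from a big coefficient field to a
small one
-/

set_option autoImplicit false

namespace Fermat.Agent.S24

open ModularCurve

namespace Descent

variable {K L : Type*} [Field K] [Field L] (φ : K →+* L)

/-- A nontrivial `L`-linear relation between Laurent series with coefficients in `K ⊆ L` gives a
nontrivial `K`-linear relation. -/
theorem exists_relation {M : Type*} [Fintype M] (y : M → LaurentSeries K) (a : M → L)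
    (m₀ : M) (ha : a m₀ ≠ 0)
    (h : ∑ m, HahnSeries.C (a m) * coeffMap φ (y m) = 0) :
    ∃ b : M → K, b m₀ ≠ 0 ∧ ∑ m, HahnSeries.C (b m) * y m = 0 := by
  let _ : Algebra K L := φ.toAlgebra
  obtain ⟨lam, hlam⟩ : ∃ lam : Module.Dual K L, lam (a m₀) ≠ 0 := by
    by_contra hcon
    push Not at hcon
    exact ha ((Module.forall_dual_apply_eq_zero_iff K (a m₀)).mp hcon)
  refine ⟨fun m => lam (a m), hlam, ?_⟩
  ext k
  have hk := congrArg (fun s : LaurentSeries L => lam (s.coeff k)) h
  simp only [HahnSeries.coeff_sum, HahnSeries.C_mul_eq_smul, HahnSeries.coeff_smul,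
    coeffMap_coeff, HahnSeries.coeff_zero, map_zero, map_sum, smul_eq_mul] at hk ⊢
  rw [← hk]
  refine Finset.sum_congr rfl fun m _ => ?_
  have : a m * φ ((y m).coeff k) = ((y m).coeff k) • a m := by
    rw [Algebra.smul_def, mul_comm]; rfl
  rw [this, map_smul, smul_eq_mul, mul_comm]

end Descent

end Fermat.Agent.S24
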