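import Fermat.Agent.S21.Defs
import Fermat.Agent.S23.Primitive

/-!
# S24 : `τ ↦ f(dτ)` is a modular form on `Γ₀(N)` for `f` of level one and `d ∣ N`
-/

set_option autoImplicit false

namespace Fermat.Agent.S24

open UpperHalfPlane ModularForm CongruenceSubgroup Fermat.Agent.S21
open scoped MatrixGroups Manifold

namespace DegMF

open Fermat.Agent.S23.Prim Matrix.SpecialLinearGroup

variable (d : ℕ) [NeZero d] {k : ℤ}

/-- `F ∣[k] diag(d,1)` as a modular form on `Γ₀(d)`. -/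
noncomputable def V0 (F : ModularForm 𝒮ℒ k) : ModularForm (Gamma0 d) k where
  toFun := ⇑F ∣[k] Dm d
  slash_action_eq' g hg := by
    obtain ⟨γ, hγ, rfl⟩ := hg
    obtain ⟨γ', hγ'⟩ := Dm_mul_of_mem_Gamma0 d γ hγ
    rw [← SlashAction.slash_mul, hγ', SlashAction.slash_mul]
    congr 1
    exact F.slash_action_eq' _ ⟨γ', rfl⟩
  holo' := (ModularFormClass.holo F).slash k (Dm d)
  bdd_at_cusps' {c} hc := by
    have h := (ModularForm.translate F (Dm d)).bdd_at_cusps' (c := c)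
    refine h (hc.mono ?_)
    rintro g ⟨γ, hγ, rfl⟩
    obtain ⟨γ', hγ'⟩ := Dm_mul_of_mem_Gamma0 d γ hγ
    rw [Subgroup.mem_pointwise_smul_iff_inv_smul_mem]
    refine ⟨γ', ?_⟩
    simp only [map_inv, inv_inv, ConjAct.smul_def, ConjAct.ofConjAct_toConjAct]
    rw [hγ']
    group

lemma slash_Dm_apply' (f : ℍ → ℂ) (τ : ℍ) :
    (f ∣[k] Dm d) τ = f (Dm d • τ) * (d : ℂ) ^ (k - 1) := by
  rw [Dm, slash_ut_apply _ _ (N_mul_one_pos d)]
  simp

end DegMF

open DegMF Fermat.Agent.S23.Prim in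
theorem isMF_comp_Dm (N d : ℕ) [NeZero N] [NeZero d] (hd : d ∣ N) {k : ℤ} {f : ℍ → ℂ}
    (hf : IsMF ⊤ k f) : IsMF (Gamma0 N) k (fun τ => f (Dm d • τ)) := by
  have h1 : IsMF (Gamma0 d) k (f ∣[k] Dm d) := isMF_coe (V0 d hf.toLevelOne)
  have hle : Gamma0 N ≤ Gamma0 d := by
    intro γ hγ
    rw [Gamma0_mem, ZMod.intCast_zmod_eq_zero_iff_dvd] at hγ ⊢
    exact (Int.natCast_dvd_natCast.mpr hd).trans hγ
  have h2 := (h1.mono hle).smul (((d : ℂ) ^ (k - 1))⁻¹)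
  have hd0 : (d : ℂ) ≠ 0 := by exact_mod_cast NeZero.ne d
  have e : (((d : ℂ) ^ (k - 1))⁻¹ • (f ∣[k] Dm d)) = fun τ => f (Dm d • τ) := by
    funext τ
    rw [Pi.smul_apply, slash_Dm_apply', smul_eq_mul]
    have := zpow_ne_zero (k - 1) hd0
    field_simp
  rwa [e] at h2

end Fermat.Agent.S24
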