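import Fermat.Agent.S24.Sigma
import Fermat.Agent.S24.DegCount
import Fermat.Agent.S24.DegDescent
import Fermat.Agent.S24.Count2
import Fermat.Agent.S21.PartA1
import Fermat.Agent.S24.DegMF

/-!
# S24 : the degree `[FF N : ℚ̄(j)] = [SL₂(ℤ) : Γ₀(N)]`
-/

set_option autoImplicit false
set_option linter.unusedSectionVars false

namespace Fermat.Agent.S24

open UpperHalfPlane ModularForm Filter CongruenceSubgroup Fermat.Agent.S21 ModularCurve
open IntermediateField
open scoped MatrixGroups Manifold Topology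

namespace Degree

open Fermat.Agent.S23.Prim

lemma toMer_mul (a b : Hol) : toMer (a * b) = toMer a * toMer b := map_mul _ _ _
lemma toMer_add (a b : Hol) : toMer (a + b) = toMer a + toMer b := map_add _ _ _
lemma toMer_neg (a : Hol) : toMer (-a) = -toMer a := map_neg _ _
lemma toMer_zero : toMer 0 = 0 := map_zero _
lemma toMer_one : toMer 1 = 1 := map_one _
lemma toMer_pow (a : Hol) (n : ℕ) : toMer (a ^ n) = toMer a ^ n := map_pow _ _ _
lemma toMer_ne_zero {a : Hol} (ha : a ≠ 0) : toMer a ≠ 0 := fun h =>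
  ha (toMer_injective (h.trans toMer_zero.symm))

/-- `x ∈ Mer` is a quotient of two modular forms of the same weight on `Γ₀(N)`. -/
def IsRatio (N : ℕ) (x : Mer) : Prop :=
  ∃ (w : ℕ) (f g : Hol), IsMF (Gamma0 N) w f.1 ∧ IsMF (Gamma0 N) w g.1 ∧ g ≠ 0 ∧
    x * toMer g = toMer f

variable {N : ℕ}

lemma IsRatio.add {x y : Mer} (hx : IsRatio N x) (hy : IsRatio N y) : IsRatio N (x + y) := by
  obtain ⟨w₁, f₁, g₁, hf₁, hg₁, h₁, e₁⟩ := hx
  obtain ⟨w₂, f₂, g₂, hf₂, hg₂, h₂, e₂⟩ := hy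
  refine ⟨w₁ + w₂, f₁ * g₂ + f₂ * g₁, g₁ * g₂, ?_, ?_, mul_ne_zero h₁ h₂, ?_⟩
  · exact ((hf₁.mul hg₂).congr_wt (by push_cast; ring)).add
      ((hf₂.mul hg₁).congr_wt (by push_cast; ring))
  · exact (hg₁.mul hg₂).congr_wt (by push_cast; ring)
  · rw [toMer_add, toMer_mul, toMer_mul, toMer_mul, ← e₁, ← e₂]
    ring

lemma IsRatio.neg {x : Mer} (hx : IsRatio N x) : IsRatio N (-x) := by
  obtain ⟨w₁, f₁, g₁, hf₁, hg₁, h₁, e₁⟩ := hx
  exact ⟨w₁, -f₁, g₁, hf₁.neg, hg₁, h₁, by rw [toMer_neg, ← e₁]; ring⟩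

lemma IsRatio.mul {x y : Mer} (hx : IsRatio N x) (hy : IsRatio N y) : IsRatio N (x * y) := by
  obtain ⟨w₁, f₁, g₁, hf₁, hg₁, h₁, e₁⟩ := hx
  obtain ⟨w₂, f₂, g₂, hf₂, hg₂, h₂, e₂⟩ := hy
  refine ⟨w₁ + w₂, f₁ * f₂, g₁ * g₂, ?_, ?_, mul_ne_zero h₁ h₂, ?_⟩
  · exact (hf₁.mul hf₂).congr_wt (by push_cast; ring)
  · exact (hg₁.mul hg₂).congr_wt (by push_cast; ring)
  · rw [toMer_mul, toMer_mul, ← e₁, ← e₂]
    ring

lemma IsRatio.inv {x : Mer} (hx : IsRatio N x) : IsRatio N x⁻¹ := by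
  obtain ⟨w₁, f₁, g₁, hf₁, hg₁, h₁, e₁⟩ := hx
  by_cases hf : f₁ = 0
  · have hx0 : x = 0 := by
      rw [hf, toMer_zero] at e₁
      exact (mul_eq_zero.mp e₁).resolve_right (toMer_ne_zero h₁)
    exact ⟨w₁, 0, g₁, isMF_zero, hg₁, h₁, by rw [hx0, inv_zero, zero_mul, toMer_zero]⟩
  · refine ⟨w₁, g₁, f₁, hg₁, hf₁, hf, ?_⟩
    have hx0 : x ≠ 0 := by
      rintro rfl
      rw [zero_mul] at e₁
      exact toMer_ne_zero hf e₁.symm
    rw [← e₁, ← mul_assoc, inv_mul_cancel₀ hx0, one_mul]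

lemma isRatio_const (c : ℂ) : IsRatio N (toMer (algebraMap ℂ Hol c)) :=
  ⟨0, algebraMap ℂ Hol c, 1, PartA1.isMF_const c, PartA2.isMF_one, one_ne_zero, by
    rw [toMer_one, mul_one]⟩

/-- common denominators -/
lemma exists_common {ι : Type*} (s : Finset ι) (x : ι → Mer) (hx : ∀ i, IsRatio N (x i)) :
    ∃ (w : ℕ) (g : Hol), IsMF (Gamma0 N) w g.1 ∧ g ≠ 0 ∧
      ∀ i ∈ s, ∃ f : Hol, IsMF (Gamma0 N) w f.1 ∧ x i * toMer g = toMer f := by
  classical
  induction s using Finset.induction_on with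
  | empty => exact ⟨0, 1, PartA2.isMF_one, one_ne_zero, by simp⟩
  | insert i₀ s _ ih =>
    obtain ⟨w, g, hg, hg0, h⟩ := ih
    obtain ⟨w₀, f₀, g₀, hf₀, hg₀, h₀, e₀⟩ := hx i₀
    refine ⟨w + w₀, g * g₀, (hg.mul hg₀).congr_wt (by push_cast; ring), mul_ne_zero hg0 h₀, ?_⟩
    intro i hi
    rcases Finset.mem_insert.mp hi with rfl | hi
    · exact ⟨g * f₀, (hg.mul hf₀).congr_wt (by push_cast; ring), by
        rw [toMer_mul, toMer_mul, ← e₀]; ring⟩
    · obtain ⟨f, hf, e⟩ := h i hi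
      exact ⟨f * g₀, (hf.mul hg₀).congr_wt (by push_cast; ring), by
        rw [toMer_mul, toMer_mul, ← e]; ring⟩

variable (N) [NeZero N]

section
variable (hE : ∀ (d : ℕ) [NeZero d], d ∣ N → IsMF (Gamma0 N) 4 (fun τ => E₄ (Dm d • τ)))
  (hD : ∀ (d : ℕ) [NeZero d], d ∣ N → IsMF (Gamma0 N) 12 (fun τ => discriminant (Dm d • τ)))

include hE hD

lemma isRatio_jd (d : ℕ) [NeZero d] (hd : d ∣ N) : IsRatio N (toMer (jdHol d)) := by
  refine ⟨12, ⟨fun τ => E₄ (Dm d • τ), (hE d hd).holo⟩ ^ 3,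
    ⟨fun τ => discriminant (Dm d • τ), (hD d hd).holo⟩, ?_, hD d hd, ?_, ?_⟩
  · exact (PartA2.IsMF.pow (hE d hd) 3).congr_wt (by norm_num)
  · intro h
    exact discriminant_ne_zero _ (congrFun (congrArg Subtype.val h) UpperHalfPlane.I)
  · rw [← toMer_mul]
    congr 1
    apply Subtype.ext
    funext τ
    simp only [Subalgebra.coe_mul, Subalgebra.coe_pow, Pi.mul_apply, Pi.pow_apply, jdHol_apply',
      jfun]
    rw [div_mul_cancel₀ _ (discriminant_ne_zero _)]

theorem isRatio_Psi (x : FF N) : IsRatio N (Psi N x) := by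
  induction x using FF_induction with
  | hc a => rw [Psi_const]; exact isRatio_const _
  | hj d hd => rw [Psi_jd]; exact isRatio_jd N hE hD d hd
  | hadd x y hx hy => rw [map_add]; exact hx.add hy
  | hneg x hx => rw [map_neg]; exact hx.neg
  | hmul x y hx hy => rw [map_mul]; exact hx.mul hy
  | hinv x hx => rw [map_inv₀]; exact hx.inv

omit hE hD in
lemma Psi_jF : Psi N (jF N) = toMer jHol := by rw [← sigma_one, sigma_jF]

/-- More than `index` elements of `FF N` are linearly dependent over `ℚ̄[j]`. -/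
theorem exists_relation {ι : Type*} [Fintype ι] (hι : (Gamma0 N).index < Fintype.card ι)
    (θ : ι → FF N) :
    ∃ (T : ℕ) (b : ι × Fin (T + 1) → Kb), b ≠ 0 ∧
      ∑ m, algebraMap Kb (FF N) (b m) * (jF N ^ (m.2 : ℕ) * θ m.1) = 0 := by
  classical
  obtain ⟨w, g, hg, hg0, h⟩ := exists_common (N := N) Finset.univ (fun i => Psi N (θ i))
    (fun i => isRatio_Psi N hE hD (θ i))
  choose f hf hfe using fun i => h i (Finset.mem_univ i)
  obtain ⟨T, a, ha, hrel⟩ := DegCount.exists_relation N hι w (fun i => (f i).1) hf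
  refine ⟨T, ?_⟩
  have h0 : (∑ m : ι × Fin (T + 1), algebraMap ℂ Hol (a m) * jHol ^ (m.2 : ℕ) * f m.1 : Hol) = 0 := by
    apply Subtype.ext
    funext τ
    have := hrel τ
    simpa [jHol, Finset.sum_apply] using this
  have h1 : ∑ m : ι × Fin (T + 1),
      toMer (algebraMap ℂ Hol (a m)) * toMer jHol ^ (m.2 : ℕ) * toMer (f m.1) = 0 := by
    have := congrArg toMer h0
    simpa only [toMer, map_sum, map_mul, map_pow, map_zero] using this
  have h2 : ∑ m : ι × Fin (T + 1),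
      toMer (algebraMap ℂ Hol (a m)) * Psi N (jF N ^ (m.2 : ℕ) * θ m.1) = 0 := by
    apply mul_right_cancel₀ (toMer_ne_zero hg0)
    rw [zero_mul, Finset.sum_mul, ← h1]
    refine Finset.sum_congr rfl fun m _ => ?_
    rw [map_mul, map_pow, Psi_jF, ← hfe]
    ring
  have h3 : ∑ m : ι × Fin (T + 1),
      toFr 1 (algebraMap ℂ (nice 1) (a m)) * Psi1 N (jF N ^ (m.2 : ℕ) * θ m.1) = 0 := by
    apply (niceToMer 1).injective
    rw [map_sum, map_zero, ← h2]
    refine Finset.sum_congr rfl fun m _ => ?_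
    rw [map_mul, toFr, niceToMer_algebraMap, AlgHom.commutes]
    rfl
  have h4 : ∑ m : ι × Fin (T + 1), HahnSeries.C (a m) *
      coeffMap iotaC ((jF N ^ (m.2 : ℕ) * θ m.1 : FF N) : LaurentSeries Kb) = 0 := by
    have := congrArg (niceToLaurent 1) h3
    rw [map_sum, map_zero] at this
    rw [← this]
    refine Finset.sum_congr rfl fun m _ => ?_
    rw [map_mul, niceToLaurent_const, niceToLaurent_Psi1, iotaL_apply]
  obtain ⟨m₀, hm₀⟩ := Function.ne_iff.mp ha
  obtain ⟨b, hb, hbrel⟩ := Descent.exists_relation iotaC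
    (fun m : ι × Fin (T + 1) => ((jF N ^ (m.2 : ℕ) * θ m.1 : FF N) : LaurentSeries Kb)) a m₀ hm₀ h4
  refine ⟨b, fun h => hb (by rw [h]; rfl), ?_⟩
  apply Subtype.ext
  rw [IntermediateField.coe_sum, ZeroMemClass.coe_zero, ← hbrel]
  refine Finset.sum_congr rfl fun m _ => ?_
  rw [IntermediateField.coe_mul]
  congr 1
  have : ((algebraMap Kb (FF N) (b m) : FF N) : LaurentSeries Kb)
      = algebraMap Kb (LaurentSeries Kb) (b m) := rfl
  rw [this, algebraMap_laurentSeries_eq_single]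
  rfl

theorem rank_le_index : Module.rank Kb⟮jF N⟯ (FF N) ≤ ((Gamma0 N).index : ℕ) := by
  classical
  apply rank_le
  intro s hs
  by_contra hcon
  push Not at hcon
  obtain ⟨T, b, hb, hrel⟩ := exists_relation N hE hD (ι := s) (by simpa using hcon)
    (fun i => (i : FF N))
  let c : s → Kb⟮jF N⟯ := fun i =>
    ∑ k : Fin (T + 1), algebraMap Kb Kb⟮jF N⟯ (b (i, k)) * (AdjoinSimple.gen Kb (jF N)) ^ (k : ℕ)
  have hcoe : ∀ i, algebraMap Kb⟮jF N⟯ (FF N) (c i)
      = ∑ k : Fin (T + 1), algebraMap Kb (FF N) (b (i, k)) * jF N ^ (k : ℕ) := by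
    intro i
    simp only [c, map_sum, map_mul, map_pow, AdjoinSimple.algebraMap_gen]
    rfl
  have hc : ∑ i, c i • (i : FF N) = 0 := by
    rw [← hrel, Fintype.sum_prod_type]
    refine Finset.sum_congr rfl fun i _ => ?_
    rw [Algebra.smul_def, hcoe, Finset.sum_mul]
    refine Finset.sum_congr rfl fun k _ => ?_
    ring
  have hall := Fintype.linearIndependent_iff.mp hs c hc
  obtain ⟨⟨i₀, k₀⟩, h0⟩ := Function.ne_iff.mp hb
  let P : Polynomial Kb := ∑ k : Fin (T + 1), Polynomial.C (b (i₀, k)) * Polynomial.X ^ (k : ℕ)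
  have hP : Polynomial.aeval (jF N) P = 0 := by
    have := hcoe i₀
    rw [hall i₀, map_zero] at this
    simp only [P, map_sum, map_mul, map_pow, Polynomial.aeval_C, Polynomial.aeval_X]
    exact this.symm
  have hP0 : P = 0 := by
    by_contra h
    exact transcendental_jF N ⟨P, h, hP⟩
  have hcoeff : P.coeff (k₀ : ℕ) = b (i₀, k₀) := by
    simp only [P, Polynomial.finsetSum_coeff, Polynomial.coeff_C_mul, Polynomial.coeff_X_pow]
    rw [Finset.sum_eq_single k₀]
    · simp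
    · intro k _ hk
      have : (k₀ : ℕ) ≠ (k : ℕ) := fun h => hk (Fin.ext h.symm)
      simp [this]
    · simp
  rw [hP0, Polynomial.coeff_zero] at hcoeff
  exact h0 hcoeff.symm

theorem finiteDimensional : FiniteDimensional Kb⟮jF N⟯ (FF N) := by
  rw [FiniteDimensional, ← Module.rank_lt_aleph0_iff]
  exact (rank_le_index N hE hD).trans_lt (Cardinal.natCast_lt_aleph0)

theorem finrank_le_index : Module.finrank Kb⟮jF N⟯ (FF N) ≤ (Gamma0 N).index :=
  Module.finrank_le_of_rank_le (rank_le_index N hE hD)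

end

/-- lower bound: the `sigmaQ N c` are distinct embeddings over `ℚ̄(j)`. -/
theorem index_le_finrank [FiniteDimensional Kb⟮jF N⟯ (FF N)] :
    (Gamma0 N).index ≤ Module.finrank Kb⟮jF N⟯ (FF N) := by
  classical
  let _ : Algebra Kb⟮jF N⟯ Mer := ((Psi N).comp (algebraMap Kb⟮jF N⟯ (FF N))).toAlgebra
  let τ : (SL(2, ℤ) ⧸ Gamma0 N) → (FF N →ₐ[Kb⟮jF N⟯] Mer) := fun c =>
    { sigmaQ N c with
      commutes' := fun y => by
        change sigmaQ N c (algebraMap Kb⟮jF N⟯ (FF N) y) = Psi N (algebraMap Kb⟮jF N⟯ (FF N) y)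
        apply Count.eq_on_adjoin
        · intro a
          rw [sigmaQ_const, Psi_const]
        · rw [sigmaQ_jF, Psi_jF] }
  have hτ : Function.Injective τ := by
    intro c c' h
    apply sigmaQ_injective N
    ext f
    exact congrArg (fun φ : FF N →ₐ[Kb⟮jF N⟯] Mer => φ f) h
  have h1 := Nat.card_le_card_of_injective τ hτ
  exact h1.trans (card_algHom_le_finrank _ _ _)

end Degree

variable (N : ℕ) [NeZero N]

/-- `FF N` is finite over `ℚ̄(j)`. -/
instance finiteDimensional_FF : FiniteDimensional Kb⟮jF N⟯ (FF N) :=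
  Degree.finiteDimensional N (fun d _ hd => isMF_comp_Dm N d hd isMF_E4)
    (fun d _ hd => isMF_comp_Dm N d hd isCF_Delta.isMF)

/-- **The degree of the modular function field over `ℚ̄(j)`.** -/
theorem finrank_FF : Module.finrank Kb⟮jF N⟯ (FF N) = (Gamma0 N).index :=
  le_antisymm
    (Degree.finrank_le_index N (fun d _ hd => isMF_comp_Dm N d hd isMF_E4)
      (fun d _ hd => isMF_comp_Dm N d hd isCF_Delta.isMF))
    (Degree.index_le_finrank N)

end Fermat.Agent.S24
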