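import Fermat.Agent.S24.JFun
import Fermat.Agent.S23.Nice
import Fermat.Prelude.Def_ModularCurve_X0

/-!
# S24: the `q`-expansions of `E₄`, `Δ` and `j` are the formal series of the Prelude
-/

set_option autoImplicit false

namespace Fermat.Agent.S24

open UpperHalfPlane ModularForm Filter CongruenceSubgroup Fermat.Agent.S21 Fermat.Agent.S23
open scoped MatrixGroups Manifold Topology

local notation "𝕢" => Function.Periodic.qParam

section poly

lemma iteratedDeriv_eval (p : Polynomial ℂ) (n : ℕ) :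
    iteratedDeriv n (fun x => p.eval x) = fun x => (Polynomial.derivative^[n] p).eval x := by
  induction n generalizing p with
  | zero => simp
  | succ n ih =>
    rw [iteratedDeriv_succ']
    have : deriv (fun x => p.eval x) = fun x => (Polynomial.derivative p).eval x := by
      funext x
      exact Polynomial.deriv p
    rw [this, ih, Function.iterate_succ_apply]

lemma iteratedDeriv_eval_zero (p : Polynomial ℂ) (n : ℕ) :
    iteratedDeriv n (fun x => p.eval x) 0 = n.factorial * p.coeff n := by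
  rw [iteratedDeriv_eval]
  show (Polynomial.derivative^[n] p).eval 0 = _
  rw [← Polynomial.coeff_zero_eq_eval_zero, Polynomial.coeff_iterate_derivative, zero_add,
    Nat.descFactorial_self, nsmul_eq_mul]

/-- locally uniform limits of polynomials: convergence of all Taylor coefficients -/
lemma tendsto_coeff_of_tendstoLocallyUniformlyOn {ι : Type*} {l : Filter ι} [l.NeBot]
    (P : ι → Polynomial ℂ) (G : ℂ → ℂ) {U : Set ℂ} (hU : IsOpen U) (h0 : (0 : ℂ) ∈ U)
    (h : TendstoLocallyUniformlyOn (fun s x => (P s).eval x) G l U) (n : ℕ) :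
    Tendsto (fun s => (P s).coeff n) l (𝓝 ((n.factorial : ℂ)⁻¹ * iteratedDeriv n G 0)) := by
  have key : ∀ n : ℕ, TendstoLocallyUniformlyOn (fun s => iteratedDeriv n (fun x => (P s).eval x))
      (iteratedDeriv n G) l U := by
    intro n
    induction n with
    | zero => simpa using h
    | succ n ih =>
      have := ih.deriv (.of_forall fun s => by
        rw [iteratedDeriv_eval]
        exact (Polynomial.differentiable _).differentiableOn) hU
      rw [iteratedDeriv_succ]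
      convert this using 1
      funext s
      rw [iteratedDeriv_succ]
      rfl
  have h1 := (key n).tendsto_at h0
  have h2 := h1.const_mul ((n.factorial : ℂ)⁻¹)
  refine h2.congr fun s => ?_
  rw [iteratedDeriv_eval_zero, ← mul_assoc, inv_mul_cancel₀ (by exact_mod_cast n.factorial_ne_zero),
    one_mul]

end poly

section eta

/-- the analytic Euler product -/
noncomputable def etaG (q : ℂ) : ℂ := ∏' n : ℕ, (1 - q ^ (n + 1))

/-- finite partial products -/
noncomputable def etaPoly (s : Finset ℕ) : Polynomial ℤ := ∏ i ∈ s, (1 - Polynomial.X ^ (i + 1))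

lemma eval_etaPoly (s : Finset ℕ) (x : ℂ) :
    ((etaPoly s).map (Int.castRingHom ℂ)).eval x = ∏ i ∈ s, (1 - x ^ (i + 1)) := by
  simp [etaPoly, Polynomial.map_prod, Polynomial.eval_prod]

lemma coe_etaPoly (s : Finset ℕ) :
    ((etaPoly s : Polynomial ℤ) : PowerSeries ℤ) = ∏ i ∈ s, (1 - PowerSeries.X ^ (i + 1)) := by
  unfold etaPoly
  rw [← Polynomial.coeToPowerSeries.ringHom_apply, map_prod]
  simp

open scoped PowerSeries.WithPiTopology in
lemma tendsto_coeff_etaPoly (n : ℕ) :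
    Tendsto (fun s => (((etaPoly s).coeff n : ℤ) : ℂ)) atTop
      (𝓝 ((ModularCurve.etaProd.coeff n : ℤ) : ℂ)) := by
  have h1 : HasProd (fun n : ℕ => (1 - PowerSeries.X ^ (n + 1) : PowerSeries ℤ))
      ModularCurve.etaProd := (PowerSeries.WithPiTopology.multipliable_one_sub_X_pow ℤ).hasProd
  have h2 := ((PowerSeries.WithPiTopology.continuous_coeff ℤ n).tendsto _).comp h1
  have h3 : Continuous (fun m : ℤ => (m : ℂ)) := continuous_of_discreteTopology
  have h4 := (h3.tendsto _).comp h2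
  refine h4.congr fun s => ?_
  simp only [Function.comp_apply]
  rw [← coe_etaPoly, Polynomial.coeff_coe]

lemma taylor_etaG (n : ℕ) :
    (n.factorial : ℂ)⁻¹ * iteratedDeriv n etaG 0 = ((ModularCurve.etaProd.coeff n : ℤ) : ℂ) := by
  have h0 := multipliableLocallyUniformlyOn_one_sub_pow.hasProdLocallyUniformlyOn
  rw [hasProdLocallyUniformlyOn_iff_tendstoLocallyUniformlyOn] at h0
  have h1 := tendsto_coeff_of_tendstoLocallyUniformlyOn
    (fun s => (etaPoly s).map (Int.castRingHom ℂ)) etaG Metric.isOpen_ball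
    (Metric.mem_ball_self one_pos) (by
      convert h0 using 2 with s x
      · funext x
        exact eval_etaPoly s x
      · rfl) n
  have h2 := tendsto_coeff_etaPoly n
  refine tendsto_nhds_unique h1 (h2.congr fun s => ?_)
  simp

lemma differentiableOn_etaG : DifferentiableOn ℂ etaG (Metric.ball 0 1) :=
  differentiableOn_tprod_one_sub_pow

lemma etaG_ne_zero {q : ℂ} (hq : ‖q‖ < 1) : etaG q ≠ 0 := by
  refine tprod_one_add_ne_zero_of_summable (f := fun n => -q ^ (n + 1)) ?_ ?_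
  · intro i h
    have h1 : q ^ (i + 1) = 1 := by linear_combination -h
    have h2 : ‖q‖ ^ (i + 1) = 1 := by rw [← norm_pow, h1, norm_one]
    have h3 : ‖q‖ ^ (i + 1) < 1 := pow_lt_one₀ (norm_nonneg _) hq (by omega)
    linarith
  · simpa using (summable_nat_add_iff 1).mpr (summable_geometric_of_lt_one (norm_nonneg _) hq)

end eta

section pullback

variable {G : ℂ → ℂ}

lemma norm_qParam_lt_one' (τ : ℍ) : ‖𝕢 1 (τ : ℂ)‖ < 1 :=
  Function.Periodic.norm_qParam_lt_one one_pos τ.im_pos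

lemma hasSum_comp_qParam (hG : DifferentiableOn ℂ G (Metric.ball 0 1)) (τ : ℍ) :
    HasSum (fun m : ℕ => ((m.factorial : ℂ)⁻¹ * iteratedDeriv m G 0) • 𝕢 1 (τ : ℂ) ^ m)
      (G (𝕢 1 τ)) := by
  have := Complex.hasSum_taylorSeries_on_ball hG (z := 𝕢 1 (τ : ℂ)) (by simpa using norm_qParam_lt_one' τ)
  refine this.congr_fun fun m => ?_
  rw [sub_zero, smul_eq_mul, smul_eq_mul, smul_eq_mul]
  ring

lemma mem_niceAlg_comp_qParam (hG : DifferentiableOn ℂ G (Metric.ball 0 1)) :
    (fun τ : ℍ => G (𝕢 1 τ)) ∈ niceAlg := by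
  refine ⟨?_, ?_, isBoundedAtImInfty_of_hasSum_qExpansion one_pos (hasSum_comp_qParam hG)⟩
  · intro w
    by_cases hw : 0 < w.im
    · have hw' : 0 < (w + 1).im := by simpa using hw
      simp only [Function.comp_apply, ofComplex_apply_of_im_pos hw, ofComplex_apply_of_im_pos hw']
      congr 1
      show 𝕢 1 (w + 1) = 𝕢 1 w
      simp only [Function.Periodic.qParam, Complex.ofReal_one, div_one, mul_add, mul_one]
      exact Complex.exp_periodic _
    · have hw' : (w + 1).im ≤ 0 := by simpa using not_lt.mp hw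
      simp only [Function.comp_apply, ofComplex_apply_of_im_nonpos (not_lt.mp hw),
        ofComplex_apply_of_im_nonpos hw']
  · rw [UpperHalfPlane.mdifferentiable_iff]
    have h1 : DifferentiableOn ℂ (G ∘ 𝕢 1) upperHalfPlaneSet := by
      refine hG.comp (Function.Periodic.differentiable_qParam.differentiableOn) ?_
      intro z hz
      simpa using Function.Periodic.norm_qParam_lt_one one_pos hz
    refine h1.congr fun z hz => ?_
    simp [ofComplex_apply_of_im_pos hz]

/-- `UpperHalfPlane.qExpansion_coeff_unique` for plain functions -/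
lemma qExpansion_coeff_unique' {f : ℍ → ℂ} {c : ℕ → ℂ}
    (hfanalytic : AnalyticAt ℂ (cuspFunction 1 f) 0)
    (hf : ∀ τ : ℍ, HasSum (fun m ↦ c m • 𝕢 1 (τ : ℂ) ^ m) (f τ)) (m : ℕ) :
    c m = (qExpansion 1 f).coeff m := by
  let _ : FunLike (ℍ → ℂ) ℍ ℂ := ⟨id, fun _ _ h => h⟩
  exact qExpansion_coeff_unique f one_pos hfanalytic hf m

lemma qExpansion_comp_qParam_coeff (hG : DifferentiableOn ℂ G (Metric.ball 0 1)) (n : ℕ) :
    (qExpansion 1 (fun τ : ℍ => G (𝕢 1 τ))).coeff n = (n.factorial : ℂ)⁻¹ * iteratedDeriv n G 0 :=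
  (qExpansion_coeff_unique' (analyticAt_of_mem_niceAlg (mem_niceAlg_comp_qParam hG))
    (hasSum_comp_qParam hG) n).symm

lemma tendsto_of_mem_niceAlg {g : ℍ → ℂ} (hg : g ∈ niceAlg) :
    Tendsto g atImInfty (𝓝 ((qExpansion 1 g).coeff 0)) := by
  have h1 := (analyticAt_of_mem_niceAlg hg).continuousAt.tendsto.comp
    (qParam_tendsto_atImInfty one_pos)
  have h2 : (qExpansion 1 g).coeff 0 = cuspFunction 1 g 0 := by simp [qExpansion_coeff]
  rw [h2]
  refine h1.congr fun τ => ?_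
  exact eq_cuspFunction τ one_ne_zero hg.1

end pullback

section main

/-- coefficientwise cast `ℤ⟦X⟧ → ℂ⟦X⟧` -/
local notation "ι" => PowerSeries.map (Int.castRingHom ℂ)

/-- (Q1) -/
theorem qExpansion_E4 : qExpansion 1 E₄ = ι ModularCurve.eisenstein4 := by
  ext m
  rw [EisensteinSeries.E_qExpansion_coeff _ ⟨2, rfl⟩, PowerSeries.coeff_map,
    ModularCurve.eisenstein4, PowerSeries.coeff_mk, show bernoulli 4 = -1 / 30 by decide +kernel]
  split_ifs with h
  · simp
  · simp only [ArithmeticFunction.sigma_apply]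
    push_cast
    norm_num

/-- the function `τ ↦ q` -/
noncomputable def qFun (τ : ℍ) : ℂ := 𝕢 1 τ

/-- the function `τ ↦ ∏ (1 - qⁿ)` -/
noncomputable def etaFun (τ : ℍ) : ℂ := etaG (𝕢 1 τ)

lemma qFun_mem : qFun ∈ niceAlg :=
  mem_niceAlg_comp_qParam (G := fun q => q) differentiableOn_id

lemma etaFun_mem : etaFun ∈ niceAlg := mem_niceAlg_comp_qParam differentiableOn_etaG

lemma qExpansion_qFun : qExpansion 1 qFun = PowerSeries.X := by
  ext m
  have h : ∀ τ : ℍ, HasSum (fun m : ℕ => (if m = 1 then (1 : ℂ) else 0) • 𝕢 1 (τ : ℂ) ^ m)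
      (qFun τ) := by
    intro τ
    show HasSum _ (𝕢 1 (τ : ℂ))
    convert hasSum_ite_eq (1 : ℕ) (𝕢 1 (τ : ℂ)) using 2 with m
    split_ifs with h
    · simp [h]
    · simp
  rw [← qExpansion_coeff_unique' (analyticAt_of_mem_niceAlg qFun_mem) h m, PowerSeries.coeff_X]

lemma qExpansion_etaFun : qExpansion 1 etaFun = ι ModularCurve.etaProd := by
  ext m
  rw [PowerSeries.coeff_map]
  exact (qExpansion_comp_qParam_coeff differentiableOn_etaG m).trans (taylor_etaG m)

lemma discriminant_eq_qFun_mul (τ : ℍ) : discriminant τ = qFun τ * etaFun τ ^ 24 := by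
  rw [discriminant_eq_q_prod, qFun, etaFun, etaG,
    (multipliable_one_sub_pow (norm_qParam_lt_one' τ)).tprod_pow]

lemma E4_mem : (⇑E₄ : ℍ → ℂ) ∈ niceAlg := mem_niceAlg one_mem_strictPeriods_SL E₄

lemma discriminant_mem : (discriminant : ℍ → ℂ) ∈ niceAlg := by
  have : (discriminant : ℍ → ℂ) = qFun * etaFun ^ 24 := funext discriminant_eq_qFun_mul
  rw [this]
  exact mul_mem qFun_mem (pow_mem etaFun_mem 24)

/-- (Q2) -/
theorem qExpansion_discriminant :
    qExpansion 1 discriminant = PowerSeries.X * ι ModularCurve.dedekindEtaUnit := by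
  have h0 : (discriminant : ℍ → ℂ) = qFun * etaFun ^ 24 := funext discriminant_eq_qFun_mul
  have h1 : qHom (⟨qFun, qFun_mem⟩ * ⟨etaFun, etaFun_mem⟩ ^ 24) =
      PowerSeries.X * ι ModularCurve.dedekindEtaUnit := by
    rw [map_mul, map_pow, qHom_apply, qHom_apply, qExpansion_qFun, qExpansion_etaFun,
      ModularCurve.dedekindEtaUnit, map_pow]
  rw [h0, ← h1]
  rfl

/-- (b) of helper14 -/
theorem X_mul_qExpansion_E4_cube :
    PowerSeries.X * (qExpansion 1 E₄) ^ 3 = ι ModularCurve.jNum * qExpansion 1 discriminant := by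
  have h := congrArg ι ModularCurve.dedekindEtaUnit_mul_inv
  rw [map_mul, map_one] at h
  rw [qExpansion_E4, qExpansion_discriminant, ModularCurve.jNum, map_mul, map_pow]
  linear_combination (-PowerSeries.X * (ι ModularCurve.eisenstein4) ^ 3) * h

/-- the function `τ ↦ 1 / ∏ (1 - qⁿ)` -/
noncomputable def etaInvFun (τ : ℍ) : ℂ := (etaG (𝕢 1 τ))⁻¹

lemma etaInvFun_mem : etaInvFun ∈ niceAlg :=
  mem_niceAlg_comp_qParam (G := fun q => (etaG q)⁻¹)
    (differentiableOn_etaG.inv fun q hq => etaG_ne_zero (by simpa using hq))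

lemma etaFun_mul_etaInvFun (τ : ℍ) : etaFun τ * etaInvFun τ = 1 :=
  mul_inv_cancel₀ (etaG_ne_zero (norm_qParam_lt_one' τ))

lemma qExpansion_etaInvFun_pow :
    qExpansion 1 (etaInvFun ^ 24) = ι ModularCurve.dedekindEtaUnitInv := by
  have h := congrArg ι ModularCurve.dedekindEtaUnit_mul_inv
  rw [map_mul, map_one] at h
  have h1 : (⟨etaFun, etaFun_mem⟩ : niceAlg) ^ 24 * ⟨etaInvFun, etaInvFun_mem⟩ ^ 24 = 1 := by
    rw [← mul_pow]
    have : (⟨etaFun, etaFun_mem⟩ : niceAlg) * ⟨etaInvFun, etaInvFun_mem⟩ = 1 :=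
      Subtype.ext (funext etaFun_mul_etaInvFun)
    rw [this, one_pow]
  have h2 := congrArg qHom h1
  rw [map_mul, map_pow, map_one, qHom_apply, qExpansion_etaFun, ← map_pow] at h2
  change ι ModularCurve.dedekindEtaUnit * qExpansion 1 (etaInvFun ^ 24) = 1 at h2
  calc qExpansion 1 (etaInvFun ^ 24)
      = (ι ModularCurve.dedekindEtaUnit * ι ModularCurve.dedekindEtaUnitInv) *
          qExpansion 1 (etaInvFun ^ 24) := by rw [h, one_mul]
    _ = ι ModularCurve.dedekindEtaUnitInv *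
          (ι ModularCurve.dedekindEtaUnit * qExpansion 1 (etaInvFun ^ 24)) := by ring
    _ = _ := by rw [h2, mul_one]

/-- the function `τ ↦ q j(τ)` -/
lemma qFun_mul_jfun (τ : ℍ) : qFun τ * jfun τ = E₄ τ ^ 3 * etaInvFun τ ^ 24 := by
  have h1 : qFun τ ≠ 0 := Function.Periodic.qParam_ne_zero _
  have h2 : etaG (𝕢 1 τ) ≠ 0 := etaG_ne_zero (norm_qParam_lt_one' τ)
  rw [jfun, discriminant_eq_qFun_mul, etaFun, etaInvFun]
  field_simp

lemma qFun_mul_jfun_mem : qFun * jfun ∈ niceAlg := by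
  have : qFun * jfun = (⇑E₄ : ℍ → ℂ) ^ 3 * etaInvFun ^ 24 := funext qFun_mul_jfun
  rw [this]
  exact mul_mem (pow_mem E4_mem 3) (pow_mem etaInvFun_mem 24)

theorem qExpansion_qFun_mul_jfun : qExpansion 1 (qFun * jfun) = ι ModularCurve.jNum := by
  have h0 : qFun * jfun = (⇑E₄ : ℍ → ℂ) ^ 3 * etaInvFun ^ 24 := funext qFun_mul_jfun
  have h1 : qHom (⟨⇑E₄, E4_mem⟩ ^ 3 * ⟨etaInvFun ^ 24, pow_mem etaInvFun_mem 24⟩) =
      ι ModularCurve.jNum := by
    rw [map_mul, map_pow, qHom_apply, qHom_apply, qExpansion_E4, qExpansion_etaInvFun_pow,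
      ModularCurve.jNum, map_mul, map_pow]
  rw [h0, ← h1]
  rfl

/-- (Q3), (a) of helper14 -/
theorem hasSum_jNum (τ : ℍ) :
    HasSum (fun n : ℕ => ((ModularCurve.jNum.coeff n : ℤ) : ℂ) * 𝕢 1 (τ : ℂ) ^ n)
      (𝕢 1 (τ : ℂ) * jfun τ) := by
  have h := hasSum_qExpansion one_pos qFun_mul_jfun_mem.1 qFun_mul_jfun_mem.2.1
    qFun_mul_jfun_mem.2.2 τ
  rw [qExpansion_qFun_mul_jfun] at h
  show HasSum _ (qFun τ * jfun τ)
  simpa using h

theorem hasSum_dedekindEtaUnit (τ : ℍ) :
    HasSum (fun n : ℕ => ((ModularCurve.dedekindEtaUnit.coeff n : ℤ) : ℂ) * 𝕢 1 (τ : ℂ) ^ n)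
      (discriminant τ / 𝕢 1 (τ : ℂ)) := by
  have hm : etaFun ^ 24 ∈ niceAlg := pow_mem etaFun_mem 24
  have h := hasSum_qExpansion one_pos hm.1 hm.2.1 hm.2.2 τ
  have h1 : qExpansion 1 (etaFun ^ 24) = ι ModularCurve.dedekindEtaUnit := by
    have : qHom (⟨etaFun, etaFun_mem⟩ ^ 24) = ι ModularCurve.dedekindEtaUnit := by
      rw [map_pow, qHom_apply, qExpansion_etaFun, ModularCurve.dedekindEtaUnit, map_pow]
    rw [← this]
    rfl
  rw [h1] at h
  have h2 : discriminant τ / 𝕢 1 (τ : ℂ) = (etaFun ^ 24) τ := by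
    have h1 : qFun τ ≠ 0 := Function.Periodic.qParam_ne_zero _
    rw [discriminant_eq_qFun_mul]
    show qFun τ * etaFun τ ^ 24 / qFun τ = etaFun τ ^ 24
    field_simp
  rw [h2]
  simpa using h

theorem hasSum_dedekindEtaUnitInv (τ : ℍ) :
    HasSum (fun n : ℕ => ((ModularCurve.dedekindEtaUnitInv.coeff n : ℤ) : ℂ) * 𝕢 1 (τ : ℂ) ^ n)
      (𝕢 1 (τ : ℂ) / discriminant τ) := by
  have hm : etaInvFun ^ 24 ∈ niceAlg := pow_mem etaInvFun_mem 24
  have h := hasSum_qExpansion one_pos hm.1 hm.2.1 hm.2.2 τ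
  rw [qExpansion_etaInvFun_pow] at h
  have h2 : 𝕢 1 (τ : ℂ) / discriminant τ = (etaInvFun ^ 24) τ := by
    have h1 : qFun τ ≠ 0 := Function.Periodic.qParam_ne_zero _
    have h2 : etaG (𝕢 1 τ) ≠ 0 := etaG_ne_zero (norm_qParam_lt_one' τ)
    rw [discriminant_eq_qFun_mul]
    show qFun τ / (qFun τ * etaFun τ ^ 24) = etaInvFun τ ^ 24
    rw [etaFun, etaInvFun]
    field_simp
  rw [h2]
  simpa using h

theorem hasSum_eisenstein4 (τ : ℍ) :
    HasSum (fun n : ℕ => ((ModularCurve.eisenstein4.coeff n : ℤ) : ℂ) * 𝕢 1 (τ : ℂ) ^ n)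
      (E₄ τ) := by
  have h := hasSum_qExpansion one_pos E4_mem.1 E4_mem.2.1 E4_mem.2.2 τ
  rw [qExpansion_E4] at h
  simpa using h

/-- `q j → 1` at `i∞` -/
theorem tendsto_qFun_mul_jfun : Tendsto (fun τ : ℍ => 𝕢 1 (τ : ℂ) * jfun τ) atImInfty (𝓝 1) := by
  have h := tendsto_of_mem_niceAlg qFun_mul_jfun_mem
  rw [qExpansion_qFun_mul_jfun, PowerSeries.coeff_map, PowerSeries.coeff_zero_eq_constantCoeff,
    ModularCurve.constantCoeff_jNum] at h
  have h' : Tendsto (qFun * jfun) atImInfty (𝓝 1) := by simpa using h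
  exact h'

/-- `j` has a pole at `i∞` -/
theorem tendsto_norm_jfun : Tendsto (fun τ : ℍ => ‖jfun τ‖) atImInfty atTop := by
  have h1 : Tendsto (fun τ : ℍ => ‖𝕢 1 (τ : ℂ) * jfun τ‖) atImInfty (𝓝 1) := by
    simpa using tendsto_qFun_mul_jfun.norm
  have h2 : Tendsto (fun τ : ℍ => ‖𝕢 1 (τ : ℂ)‖⁻¹) atImInfty atTop := by
    have h3 : Tendsto (fun τ : ℍ => ‖𝕢 1 (τ : ℂ)‖) atImInfty (𝓝[>] 0) := by
      rw [tendsto_nhdsWithin_iff]
      refine ⟨by simpa using (qParam_tendsto_atImInfty one_pos).norm, .of_forall fun τ => ?_⟩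
      exact norm_pos_iff.mpr (Function.Periodic.qParam_ne_zero _)
    exact tendsto_inv_nhdsGT_zero.comp h3
  have h4 := h2.atTop_mul_pos one_pos h1
  refine h4.congr fun τ => ?_
  have h5 : ‖𝕢 1 (τ : ℂ)‖ ≠ 0 := norm_ne_zero_iff.mpr (Function.Periodic.qParam_ne_zero _)
  rw [norm_mul]
  field_simp

end main

end Fermat.Agent.S24
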