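import Fermat.Agent.S24.Hol
import Fermat.Agent.S23.Primitive

/-!
# S24 : composition of periodic functions with upper triangular matrices
-/

set_option autoImplicit false

open UpperHalfPlane ModularForm Filter
open scoped MatrixGroups Manifold

namespace Fermat.Agent.S24

open Fermat.Agent.S23.Prim

lemma periodic_of_forall {g : ℍ → ℂ} {h : ℕ}
    (H : ∀ τ τ' : ℍ, (τ' : ℂ) = τ + h → g τ' = g τ) :
    Function.Periodic (g ∘ ofComplex) (h : ℂ) := by
  intro z
  by_cases hz : 0 < z.im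
  · have hz' : 0 < (z + h).im := by simpa using hz
    simp only [Function.comp_apply, ofComplex_apply_of_im_pos hz, ofComplex_apply_of_im_pos hz']
    exact H _ _ rfl
  · have hz' : (z + h).im ≤ 0 := by simpa using not_lt.mp hz
    simp only [Function.comp_apply]
    rw [ofComplex_apply_eq_of_im_nonpos hz' (not_lt.mp hz)]

lemma apply_eq_of_periodic {g : ℍ → ℂ} {h : ℕ} (hg : Function.Periodic (g ∘ ofComplex) (h : ℂ))
    (m : ℤ) {τ τ' : ℍ} (H : (τ' : ℂ) = τ + m * h) : g τ' = g τ := by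
  have := hg.int_mul m (τ : ℂ)
  simp only [Function.comp_apply] at this
  rw [← H, ofComplex_apply, ofComplex_apply] at this
  exact this

/-- The matrix `(a b; 0 d)` with integer entries, `a, d > 0`, in `GL₂(ℝ)`. -/
noncomputable def utZ (a b d : ℤ) (ha : 0 < a) (hd : 0 < d) : GL (Fin 2) ℝ :=
  upperTriangularGL (a : ℝ) (b : ℝ) (d : ℝ)
    (mul_pos (by exact_mod_cast ha) (by exact_mod_cast hd) : (0 : ℝ) < (a : ℝ) * (d : ℝ)).ne'

lemma det_utZ_pos (a b d : ℤ) (ha : 0 < a) (hd : 0 < d) : 0 < (utZ a b d ha hd).det.val := by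
  rw [utZ, det_ut]
  exact mul_pos (by exact_mod_cast ha) (by exact_mod_cast hd)

lemma coe_utZ_smul (a b d : ℤ) (ha : 0 < a) (hd : 0 < d) (τ : ℍ) :
    ((utZ a b d ha hd • τ : ℍ) : ℂ) = ((a : ℂ) * τ + b) / d := by
  rw [utZ, coe_ut_smul _ (mul_pos (by exact_mod_cast ha) (by exact_mod_cast hd))]
  push_cast
  rfl

lemma tendsto_utZ_smul (a b d : ℤ) (ha : 0 < a) (hd : 0 < d) :
    Tendsto (fun τ : ℍ => utZ a b d ha hd • τ) atImInfty atImInfty :=
  tendsto_ut_smul (by exact_mod_cast ha) (by exact_mod_cast hd)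

/-- `F ↦ F((aτ+b)/d)` maps `1`-periodic nice functions to `h`-periodic ones if `d ∣ a h`. -/
noncomputable def utNice (a b d : ℤ) (ha : 0 < a) (hd : 0 < d) (h : ℕ) (hdvd : d ∣ a * h) :
    nice 1 →ₐ[ℂ] nice h where
  toFun F := ⟨fun τ => F.1 (utZ a b d ha hd • τ), by
    refine ⟨periodic_of_forall ?_, F.2.2.1.comp (mdifferentiable_smul (det_utZ_pos a b d ha hd)),
      ?_⟩
    · intro τ τ' hτ
      obtain ⟨m, hm⟩ := hdvd
      refine apply_eq_of_periodic F.2.1 m ?_
      rw [coe_utZ_smul, coe_utZ_smul, hτ]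
      have hd' : (d : ℂ) ≠ 0 := by exact_mod_cast hd.ne'
      have hm' : (a : ℂ) * h = d * m := by exact_mod_cast hm
      field_simp
      linear_combination hm'
    · exact F.2.2.2.comp_tendsto (tendsto_utZ_smul a b d ha hd)⟩
  map_one' := rfl
  map_mul' _ _ := rfl
  map_zero' := rfl
  map_add' _ _ := rfl
  commutes' _ := rfl

@[simp] lemma utNice_apply (a b d : ℤ) (ha : 0 < a) (hd : 0 < d) (h : ℕ) (hdvd : d ∣ a * h)
    (F : nice 1) (τ : ℍ) :
    (utNice a b d ha hd h hdvd F : ℍ → ℂ) τ = (F : ℍ → ℂ) (utZ a b d ha hd • τ) := rfl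

/-- Uniqueness of `q`-expansion coefficients, for plain functions. -/
lemma qExpansion_coeff_uniqueUT {h : ℝ} (f : ℍ → ℂ) {c : ℕ → ℂ} (hh : 0 < h)
    (hfanalytic : AnalyticAt ℂ (cuspFunction h f) 0)
    (hf : ∀ τ : ℍ, HasSum (fun m ↦ c m • Function.Periodic.qParam h τ ^ m) (f τ)) (m : ℕ) :
    c m = (qExpansion h f).coeff m := by
  let _ : FunLike (ℍ → ℂ) ℍ ℂ := ⟨id, fun _ _ h => h⟩
  exact UpperHalfPlane.qExpansion_coeff_unique f hh hfanalytic hf m

lemma qParam_utZ (a b d : ℤ) (ha : 0 < a) (hd : 0 < d) (h : ℕ) [NeZero h] (k : ℕ)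
    (hk : a * h = d * k) (τ : ℍ) :
    Function.Periodic.qParam 1 ((utZ a b d ha hd • τ : ℍ) : ℂ)
      = Complex.exp (2 * Real.pi * Complex.I * b / d) * Function.Periodic.qParam h (τ : ℂ) ^ k := by
  rw [coe_utZ_smul, Function.Periodic.qParam, Function.Periodic.qParam, ← Complex.exp_nat_mul,
    ← Complex.exp_add]
  congr 1
  have hd' : (d : ℂ) ≠ 0 := by exact_mod_cast hd.ne'
  have hh' : (h : ℂ) ≠ 0 := by exact_mod_cast NeZero.ne h
  have hk' : (a : ℂ) * h = d * k := by exact_mod_cast hk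
  push_cast
  field_simp
  linear_combination (τ : ℂ) * hk'

/-- The `q_h`-expansion of `F((aτ+b)/d)`, where `a h = d k`. -/
theorem qHom_utNice_coeff (a b d : ℤ) (ha : 0 < a) (hd : 0 < d) (h : ℕ) [NeZero h] (k : ℕ)
    (hk : a * h = d * k) (F : nice 1) (n : ℕ) :
    (qHom h (utNice a b d ha hd h ⟨k, hk⟩ F)).coeff n
      = if k ∣ n then (qHom 1 F).coeff (n / k)
          * Complex.exp (2 * Real.pi * Complex.I * b / d) ^ (n / k) else 0 := by
  have hk0 : 0 < k := by
    rcases Nat.eq_zero_or_pos k with h0 | h0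
    · exfalso
      rw [h0] at hk
      have : 0 < a * h := mul_pos ha (by exact_mod_cast Nat.pos_of_ne_zero (NeZero.ne h))
      simp at hk
      rcases hk with h1 | h1
      · omega
      · exact NeZero.ne h h1
    · exact h0
  rw [qHom_apply]
  refine (qExpansion_coeff_uniqueUT (utNice a b d ha hd h ⟨k, hk⟩ F : ℍ → ℂ)
    (c := fun n => if k ∣ n then (qHom 1 F).coeff (n / k)
          * Complex.exp (2 * Real.pi * Complex.I * b / d) ^ (n / k) else 0) (h_pos h)
    (analyticAt_of_mem_nice h (utNice a b d ha hd h ⟨k, hk⟩ F).2) ?_ n).symm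
  intro τ
  have h1 := hasSum_qExpansion (f := (F : ℍ → ℂ)) one_pos (by simpa using F.2.1) F.2.2.1 F.2.2.2
    (utZ a b d ha hd • τ)
  rw [utNice_apply]
  have hinj : Function.Injective (fun m : ℕ => m * k) := fun x y hxy =>
    Nat.eq_of_mul_eq_mul_right hk0 hxy
  rw [← hinj.hasSum_iff]
  · convert h1 using 2 with m
    simp only [Function.comp_apply, dvd_mul_left, if_true, Nat.mul_div_cancel _ hk0, smul_eq_mul,
      qHom_apply, Nat.cast_one]
    rw [qParam_utZ a b d ha hd h k hk, mul_pow, ← pow_mul, mul_comm k m]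
    ring
  · intro x hx
    have : ¬ k ∣ x := by
      rintro ⟨y, rfl⟩
      exact hx ⟨y, mul_comm _ _⟩
    simp [this]

end Fermat.Agent.S24
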