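import Fermat.Agent.S24.Gen
import Fermat.Agent.S24.UT
import Fermat.Agent.S24.JFunQ
import Fermat.Agent.S24.JFun

/-!
# S24 : the embedding `Psi : FF N →+* Mer` of the modular function field into the field of
meromorphic functions on `ℍ`
-/

set_option autoImplicit false

open UpperHalfPlane ModularForm Filter ModularCurve
open scoped MatrixGroups Manifold

namespace Fermat.Agent.S24

/-- A fixed embedding `ℚ̄ → ℂ`. -/
noncomputable def iotaC : Kb →+* ℂ :=
  haveI : Algebra.IsAlgebraic ℚ (AlgebraicClosure ℚ) := AlgebraicClosure.isAlgebraic ℚ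
  ((IsAlgClosed.lift : AlgebraicClosure ℚ →ₐ[ℚ] ℂ) : AlgebraicClosure ℚ →+* ℂ)

/-- The coefficientwise embedding `FF N → ℂ((X))`. -/
noncomputable def iotaL (N : ℕ) : FF N →+* LaurentSeries ℂ :=
  (coeffMap iotaC).comp (algebraMap (FF N) (LaurentSeries Kb))

lemma iotaL_apply (N : ℕ) (x : FF N) : iotaL N x = coeffMap iotaC (x : LaurentSeries Kb) := rfl

lemma iotaL_const (N : ℕ) (a : Kb) :
    iotaL N (algebraMap Kb (FF N) a) = HahnSeries.C (iotaC a) := by
  rw [iotaL_apply]
  have : ((algebraMap Kb (FF N) a : FF N) : LaurentSeries Kb)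
      = algebraMap Kb (LaurentSeries Kb) a := rfl
  rw [this, algebraMap_laurentSeries_eq_single, coeffMap_single]
  rfl

lemma iotaL_jd (N d : ℕ) [NeZero d] (hd : d ∣ N) : iotaL N (jd N d hd) = jqNModC ℂ d := by
  rw [iotaL_apply, coe_jd, jdL_eq, coeffMap_jqNModC]

lemma mem_nice_one {Γ : Subgroup (GL (Fin 2) ℝ)} {k : ℤ} {F : Type*} [FunLike F ℍ ℂ]
    [ModularFormClass F Γ k] (h1 : (1 : ℝ) ∈ Γ.strictPeriods) (G : F) : ⇑G ∈ nice 1 := by
  have : Fact (IsCusp OnePoint.infty Γ) := ⟨Γ.isCusp_of_mem_strictPeriods one_pos h1⟩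
  exact ⟨by simpa using SlashInvariantFormClass.periodic_comp_ofComplex G h1,
    ModularFormClass.holo G, ModularFormClass.bdd_at_infty G⟩

/-- `E₄` as a nice function. -/
noncomputable def E4n : nice 1 := ⟨(E₄ : ℍ → ℂ), mem_nice_one one_mem_strictPeriods_SL E₄⟩

/-- `Δ` as a nice function. -/
noncomputable def Dn : nice 1 :=
  ⟨ModularForm.discriminant, mem_nice_one one_mem_strictPeriods_SL CuspForm.discriminant⟩

lemma Dn_ne_zero : Dn ≠ 0 := fun h =>
  discriminant_ne_zero UpperHalfPlane.I (congrFun (congrArg Subtype.val h) UpperHalfPlane.I)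

/-- `F ↦ F(dτ)` on nice functions. -/
noncomputable def scale (d : ℕ) [NeZero d] : nice 1 →ₐ[ℂ] nice 1 :=
  utNice d 0 1 (by exact_mod_cast Nat.pos_of_ne_zero (NeZero.ne d)) one_pos 1 (one_dvd _)

lemma scale_injective (d : ℕ) [NeZero d] : Function.Injective (scale d) := by
  intro F G h
  apply Subtype.ext
  funext τ
  have := congrFun (congrArg Subtype.val h)
    ((utZ d 0 1 (by exact_mod_cast Nat.pos_of_ne_zero (NeZero.ne d)) one_pos)⁻¹ • τ)
  simpa [scale] using this

lemma ofPowerSeries_qHom_scale (d : ℕ) [NeZero d] (F : nice 1) :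
    HahnSeries.ofPowerSeries ℤ ℂ (qHom 1 (scale d F))
      = qExpand ℂ d (HahnSeries.ofPowerSeries ℤ ℂ (qHom 1 F)) := by
  have hd0 : 0 < d := Nat.pos_of_ne_zero (NeZero.ne d)
  ext n
  rcases lt_or_ge n 0 with hn | hn
  · rw [ofPowerSeries_coeff_of_neg _ hn]
    by_cases hdn : (d : ℤ) ∣ n
    · obtain ⟨m, rfl⟩ := hdn
      rw [qExpand_coeff_mul, ofPowerSeries_coeff_of_neg]
      by_contra hm
      have : 0 ≤ (d : ℤ) * m := mul_nonneg (by positivity) (not_lt.mp hm)
      omega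
    · rw [qExpand_coeff_of_not_dvd _ _ hdn]
  · lift n to ℕ using hn
    rw [HahnSeries.ofPowerSeries_apply_coeff, scale,
      qHom_utNice_coeff d 0 1 _ _ 1 d (by simp)]
    by_cases hdn : d ∣ n
    · obtain ⟨m, rfl⟩ := hdn
      rw [if_pos (dvd_mul_right _ _), Nat.mul_div_cancel_left _ hd0]
      push_cast
      rw [qExpand_coeff_mul, HahnSeries.ofPowerSeries_apply_coeff]
      simp
    · rw [if_neg hdn, qExpand_coeff_of_not_dvd]
      exact_mod_cast hdn

/-- abbreviation: the class of a nice function in the fraction field. -/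
noncomputable def toFr (h : ℕ) (g : nice h) : FractionRing (nice h) :=
  algebraMap (nice h) (FractionRing (nice h)) g

/-- `j(dτ)` in `Frac (nice 1)`. -/
noncomputable def jdFrac (d : ℕ) [NeZero d] : FractionRing (nice 1) :=
  toFr 1 (scale d E4n) ^ 3 / toFr 1 (scale d Dn)

lemma jqModC_eq :
    jqModC ℂ = HahnSeries.ofPowerSeries ℤ ℂ (qHom 1 E4n) ^ 3
      / HahnSeries.ofPowerSeries ℤ ℂ (qHom 1 Dn) := by
  have hD : HahnSeries.ofPowerSeries ℤ ℂ (qHom 1 Dn) ≠ 0 := by
    intro h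
    have h2 : qHom 1 Dn = 0 := HahnSeries.ofPowerSeries_injective (by rw [h, map_zero])
    exact Dn_ne_zero (qHom_injective 1 (by rw [h2, map_zero]))
  rw [eq_div_iff hD, jqModC]
  have key := congrArg (HahnSeries.ofPowerSeries ℤ ℂ) X_mul_qExpansion_E4_cube
  rw [map_mul, map_mul, map_pow, HahnSeries.ofPowerSeries_X] at key
  have e1 : qHom 1 E4n = qExpansion 1 (E₄ : ℍ → ℂ) := by simp [E4n]
  have e2 : qHom 1 Dn = qExpansion 1 ModularForm.discriminant := by simp [Dn]
  rw [e1, e2, mul_assoc, ← key, ← mul_assoc, HahnSeries.single_mul_single]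
  simp

lemma niceToLaurent_jdFrac (d : ℕ) [NeZero d] : niceToLaurent 1 (jdFrac d) = jqNModC ℂ d := by
  rw [jdFrac, map_div₀, map_pow, toFr, toFr, niceToLaurent_algebraMap, niceToLaurent_algebraMap,
    ofPowerSeries_qHom_scale, ofPowerSeries_qHom_scale, jqNModC, jqModC_eq, map_div₀, map_pow]

lemma niceToLaurent_const (h : ℕ) [NeZero h] (c : ℂ) :
    niceToLaurent h (toFr h (algebraMap ℂ (nice h) c)) = HahnSeries.C c := by
  rw [toFr, niceToLaurent_algebraMap, AlgHom.commutes]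
  simp

lemma iotaL_mem_range (N : ℕ) (x : FF N) : iotaL N x ∈ (niceToLaurent 1).fieldRange := by
  refine FF_map_mem N (iotaL N) _ ?_ ?_ x
  · intro a
    exact ⟨_, (niceToLaurent_const 1 (iotaC a)).trans (iotaL_const N a).symm⟩
  · intro d _ hd
    exact ⟨_, (niceToLaurent_jdFrac d).trans (iotaL_jd N d hd).symm⟩

/-- The embedding of the modular function field in `Frac (nice 1)`, inverse to `q`-expansion. -/
noncomputable def Psi1 (N : ℕ) : FF N →+* FractionRing (nice 1) :=
  factorThrough (niceToLaurent 1) (iotaL N) (iotaL_mem_range N)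

lemma niceToLaurent_Psi1 (N : ℕ) (x : FF N) : niceToLaurent 1 (Psi1 N x) = iotaL N x :=
  factorThrough_spec _ _ _ _

lemma Psi1_const (N : ℕ) (a : Kb) :
    Psi1 N (algebraMap Kb (FF N) a) = toFr 1 (algebraMap ℂ (nice 1) (iotaC a)) :=
  (niceToLaurent 1).injective (by
    rw [niceToLaurent_Psi1, iotaL_const, niceToLaurent_const])

lemma Psi1_jd (N d : ℕ) [NeZero d] (hd : d ∣ N) : Psi1 N (jd N d hd) = jdFrac d :=
  (niceToLaurent 1).injective (by rw [niceToLaurent_Psi1, iotaL_jd, niceToLaurent_jdFrac])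

/-- The embedding of the modular function field into meromorphic functions on `ℍ`. -/
noncomputable def Psi (N : ℕ) : FF N →+* Mer := (niceToMer 1).comp (Psi1 N)

lemma Psi_apply (N : ℕ) (x : FF N) : Psi N x = niceToMer 1 (Psi1 N x) := rfl

lemma Psi_const (N : ℕ) (a : Kb) :
    Psi N (algebraMap Kb (FF N) a) = toMer (algebraMap ℂ Hol (iotaC a)) := by
  rw [Psi_apply, Psi1_const, toFr, niceToMer_algebraMap, AlgHom.commutes]

/-- The holomorphic function `τ ↦ j(dτ)`. -/
noncomputable def jdHol (d : ℕ) [NeZero d] : Hol :=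
  compHom (utZ d 0 1 (by exact_mod_cast Nat.pos_of_ne_zero (NeZero.ne d)) one_pos)
    (det_utZ_pos _ _ _ _ _) ⟨jfun, jfun_mdiff⟩

lemma jdHol_apply (d : ℕ) [NeZero d] (τ : ℍ) : (jdHol d : ℍ → ℂ) τ
    = jfun (utZ d 0 1 (by exact_mod_cast Nat.pos_of_ne_zero (NeZero.ne d)) one_pos • τ) := rfl

lemma Psi_jd (N d : ℕ) [NeZero d] (hd : d ∣ N) : Psi N (jd N d hd) = toMer (jdHol d) := by
  rw [Psi_apply, Psi1_jd, jdFrac, map_div₀, map_pow, toFr, toFr, niceToMer_algebraMap,
    niceToMer_algebraMap]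
  have hD : toMer (niceIncl 1 (scale d Dn)) ≠ 0 := by
    intro h
    have h2 : niceIncl 1 (scale d Dn) = 0 := toMer_injective (by rw [h]; exact (map_zero _).symm)
    have h3 : scale d Dn = 0 := niceIncl_injective 1 (by rw [h2, map_zero])
    exact Dn_ne_zero (scale_injective d (by rw [h3, map_zero]))
  rw [div_eq_iff hD]
  unfold toMer
  rw [← map_pow, ← map_mul]
  congr 1
  apply Subtype.ext
  funext τ
  simp only [Subalgebra.coe_pow, Subalgebra.coe_mul, Pi.pow_apply, Pi.mul_apply, coe_niceIncl,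
    jdHol_apply, scale, utNice_apply, E4n, Dn, jfun]
  rw [div_mul_cancel₀ _ (discriminant_ne_zero _)]

end Fermat.Agent.S24
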