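import Fermat.Agent.S24.Psi

/-!
# S24 : the conjugate embeddings `sigma g : FF N →+* Mer`, `g ∈ SL₂(ℤ)`
-/

set_option autoImplicit false

open UpperHalfPlane ModularForm Filter ModularCurve Topology
open scoped MatrixGroups Manifold

namespace Fermat.Agent.S24

open Fermat.Agent.S23.Prim Matrix.SpecialLinearGroup

/-- `sigma g f = (Psi f) ∘ g⁻¹`. -/
noncomputable def sigma (N : ℕ) (g : SL(2, ℤ)) : FF N →+* Mer := (act g).comp (Psi N)

lemma sigma_apply (N : ℕ) (g : SL(2, ℤ)) (x : FF N) : sigma N g x = act g (Psi N x) := rfl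

lemma sigma_one (N : ℕ) : sigma N 1 = Psi N := by
  rw [sigma, act_one, RingHom.id_comp]

lemma sigma_mul (N : ℕ) (g g' : SL(2, ℤ)) : sigma N (g * g') = (act g).comp (sigma N g') := by
  rw [sigma, act_mul, sigma, RingHom.comp_assoc]

lemma sigma_mul_apply (N : ℕ) (g g' : SL(2, ℤ)) (x : FF N) :
    sigma N (g * g') x = act g (sigma N g' x) := by
  rw [sigma_mul]; rfl

lemma sigma_const (N : ℕ) (g : SL(2, ℤ)) (a : Kb) :
    sigma N g (algebraMap Kb (FF N) a) = toMer (algebraMap ℂ Hol (iotaC a)) := by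
  rw [sigma_apply, Psi_const, act_toMer, AlgHom.commutes]

lemma sigma_jd (N : ℕ) (g : SL(2, ℤ)) (d : ℕ) [NeZero d] (hd : d ∣ N) :
    sigma N g (jd N d hd) = toMer (actHol g (jdHol d)) := by
  rw [sigma_apply, Psi_jd, act_toMer]

lemma utZ_eq_Dm (d : ℕ) [NeZero d] :
    utZ d 0 1 (by exact_mod_cast Nat.pos_of_ne_zero (NeZero.ne d)) one_pos = Dm d := by
  ext i j
  simp [utZ, Dm]

lemma jdHol_apply' (d : ℕ) [NeZero d] (τ : ℍ) : (jdHol d : ℍ → ℂ) τ = jfun (Dm d • τ) := by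
  rw [jdHol_apply, utZ_eq_Dm]

lemma jfun_mapGL_smul (γ : SL(2, ℤ)) (τ : ℍ) : jfun (mapGL ℝ γ • τ) = jfun τ := jfun_smul γ τ

/-- `j(dτ)` is invariant under `Γ₀(d)`. -/
lemma jdHol_smul (d : ℕ) [NeZero d] (γ : SL(2, ℤ)) (hγ : γ ∈ CongruenceSubgroup.Gamma0 d)
    (τ : ℍ) : (jdHol d : ℍ → ℂ) (γ • τ) = (jdHol d : ℍ → ℂ) τ := by
  obtain ⟨γ', hγ'⟩ := Dm_mul_of_mem_Gamma0 d γ hγ
  rw [jdHol_apply', jdHol_apply']
  have : Dm d • (γ • τ) = mapGL ℝ γ' • (Dm d • τ) := by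
    have h1 : Dm d • (γ • τ) = (Dm d * mapGL ℝ γ) • τ := by rw [mul_smul]; rfl
    rw [h1, hγ', mul_smul]
  rw [this, jfun_mapGL_smul]

lemma Gamma0_le_of_dvd {d N : ℕ} (hd : d ∣ N) :
    CongruenceSubgroup.Gamma0 N ≤ CongruenceSubgroup.Gamma0 d := by
  intro γ hγ
  rw [CongruenceSubgroup.Gamma0_mem, ZMod.intCast_zmod_eq_zero_iff_dvd] at hγ ⊢
  exact (Int.natCast_dvd_natCast.mpr hd).trans hγ

/-- `sigma` only depends on the coset `g Γ₀(N)`. -/
theorem sigma_mul_of_mem (N : ℕ) (g h : SL(2, ℤ)) (hh : h ∈ CongruenceSubgroup.Gamma0 N) :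
    sigma N (g * h) = sigma N g := by
  apply FF_ringHom_ext
  · intro a
    rw [sigma_const, sigma_const]
  · intro d _ hd
    rw [sigma_jd, sigma_jd]
    apply congrArg toMer
    apply Subtype.ext
    funext τ
    rw [actHol_apply, actHol_apply, mul_inv_rev, mul_smul]
    exact jdHol_smul d h⁻¹ (Gamma0_le_of_dvd hd (inv_mem hh)) _

/-- `j(τ) q → 1` at `i∞`. -/
lemma tendsto_jfun_mul_qParam :
    Tendsto (fun τ : ℍ => jfun τ * Function.Periodic.qParam 1 (τ : ℂ)) atImInfty (𝓝 1) := by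
  have h1 : Tendsto (fun τ : ℍ => (E₄ τ) ^ 3 / ∏' (n : ℕ), (1 - eta_q n τ) ^ 24) atImInfty
      (𝓝 (1 ^ 3 / 1)) :=
    (tendsto_E4.pow 3).div tendsto_atImInfty_tprod_one_sub_eta_q_pow one_ne_zero
  simp only [one_pow, div_one] at h1
  refine h1.congr fun τ => ?_
  have hq : Function.Periodic.qParam 1 (τ : ℂ) ≠ 0 := Function.Periodic.qParam_ne_zero _
  have hΔ := discriminant_eq_q_prod τ
  have hne := discriminant_ne_zero τ
  rw [hΔ] at hne
  rw [jfun, hΔ]
  field_simp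

lemma eq_zero_of_tendsto_exp {c : ℝ}
    (h : Tendsto (fun τ : ℍ => Real.exp (c * τ.im)) atImInfty (𝓝 1)) : c = 0 := by
  have h' : Tendsto (fun y : ℝ => Real.exp (c * y)) atTop (𝓝 1) := by
    have hr : Set.range UpperHalfPlane.im ∈ (atTop : Filter ℝ) := by
      refine mem_of_superset (Ioi_mem_atTop 0) ?_
      intro y hy
      exact ⟨⟨⟨0, y⟩, hy⟩, rfl⟩
    exact (tendsto_comap'_iff (m := fun y : ℝ => Real.exp (c * y)) hr).mp h
  rcases lt_trichotomy c 0 with hc | hc | hc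
  · have : Tendsto (fun y : ℝ => Real.exp (c * y)) atTop (𝓝 0) :=
      Real.tendsto_exp_atBot.comp (tendsto_id.const_mul_atTop_of_neg hc)
    exact absurd (tendsto_nhds_unique h' this) one_ne_zero
  · exact hc
  · have : Tendsto (fun y : ℝ => Real.exp (c * y)) atTop atTop :=
      Real.tendsto_exp_atTop.comp (tendsto_id.const_mul_atTop hc)
    exact absurd h' (not_tendsto_nhds_of_tendsto_atTop this 1)

lemma im_ut_smul {a b d : ℝ} (ha : 0 < a) (hd : 0 < d) (τ : ℍ) :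
    (upperTriangularGL a b d (mul_pos ha hd).ne' • τ).im = a / d * τ.im := by
  rw [← coe_im, coe_ut_smul _ (mul_pos ha hd)]
  have : ((a : ℂ) * τ + b) / d = (((a / d : ℝ) : ℂ) * τ + ((b / d : ℝ) : ℂ)) := by
    have hd' : (d : ℂ) ≠ 0 := by exact_mod_cast hd.ne'
    push_cast
    field_simp
  rw [this]
  simp

/-- If `j((aτ+b)/d) = j((a'τ+b')/d')` for all `τ` then `a/d = a'/d'`. -/
lemma ratio_eq_of_jfun_eq {a b d a' b' d' : ℝ} (ha : 0 < a) (hd : 0 < d) (ha' : 0 < a')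
    (hd' : 0 < d')
    (h : ∀ τ : ℍ, jfun (upperTriangularGL a b d (mul_pos ha hd).ne' • τ)
      = jfun (upperTriangularGL a' b' d' (mul_pos ha' hd').ne' • τ)) : a / d = a' / d' := by
  set β := upperTriangularGL a b d (mul_pos ha hd).ne' with hβ
  set β' := upperTriangularGL a' b' d' (mul_pos ha' hd').ne' with hβ'
  have hA : Tendsto (fun τ : ℍ => jfun (β • τ) * Function.Periodic.qParam 1 ((β • τ : ℍ) : ℂ))
      atImInfty (𝓝 1) := tendsto_jfun_mul_qParam.comp (tendsto_ut_smul ha hd)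
  have hB : Tendsto (fun τ : ℍ => jfun (β' • τ) * Function.Periodic.qParam 1 ((β' • τ : ℍ) : ℂ))
      atImInfty (𝓝 1) := tendsto_jfun_mul_qParam.comp (tendsto_ut_smul ha' hd')
  have hAB := (hA.div hB one_ne_zero).norm
  simp only [div_one, norm_one] at hAB
  have hBne : ∀ᶠ τ : ℍ in atImInfty,
      jfun (β' • τ) * Function.Periodic.qParam 1 ((β' • τ : ℍ) : ℂ) ≠ 0 :=
    hB.eventually_ne one_ne_zero
  have hc : 2 * Real.pi * (a' / d' - a / d) = 0 := by
    apply eq_zero_of_tendsto_exp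
    refine hAB.congr' ?_
    filter_upwards [hBne] with τ hτ
    have hj : jfun (β' • τ) ≠ 0 := left_ne_zero_of_mul hτ
    simp only [Pi.div_apply]
    rw [h τ, mul_div_mul_left _ _ hj, norm_div, Function.Periodic.norm_qParam,
      Function.Periodic.norm_qParam, ← Real.exp_sub, coe_im, coe_im, hβ, hβ', im_ut_smul ha hd,
      im_ut_smul ha' hd']
    congr 1
    ring
  have hpi : 2 * Real.pi ≠ 0 := by positivity
  have := (mul_eq_zero.mp hc).resolve_left hpi
  linarith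

/-- The stabiliser of `j(Nτ)` is contained in `Γ₀(N)`. -/
theorem mem_Gamma0_of_sigma_jd_eq (N : ℕ) [NeZero N] (γ : SL(2, ℤ))
    (h : sigma N γ (jd N N dvd_rfl) = Psi N (jd N N dvd_rfl)) :
    γ ∈ CongruenceSubgroup.Gamma0 N := by
  rw [sigma_jd, Psi_jd] at h
  have h1 : ∀ τ : ℍ, (jdHol N : ℍ → ℂ) (γ⁻¹ • τ) = (jdHol N : ℍ → ℂ) τ := fun τ =>
    congrFun (congrArg Subtype.val (toMer_injective h)) τ
  obtain ⟨δ, a, b, d, ha, hd, had, hdvd, hmat⟩ := exists_decomp N γ⁻¹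
  have hN : (0 : ℝ) < (N : ℝ) := by exact_mod_cast Nat.pos_of_ne_zero (NeZero.ne N)
  have h2 : ∀ τ : ℍ, jfun (upperTriangularGL (a : ℝ) b d (mul_pos ha hd).ne' • τ)
      = jfun (upperTriangularGL (N : ℝ) 0 1 (mul_pos hN one_pos).ne' • τ) := by
    intro τ
    have e1 := h1 τ
    rw [jdHol_apply', jdHol_apply'] at e1
    have e2 : Dm N • (γ⁻¹ • τ) = (Dm N * mapGL ℝ γ⁻¹) • τ := by rw [mul_smul]; rfl
    rw [e2, hmat, mul_smul, jfun_mapGL_smul] at e1
    exact e1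
  have h3 := ratio_eq_of_jfun_eq ha hd hN one_pos h2
  have hd1 : d = 1 := by
    have hd0 : (d : ℝ) ≠ 0 := hd.ne'
    have e : (a : ℝ) = N * d := by
      field_simp at h3
      linarith
    have e' : (a : ℝ) * d = N := by exact_mod_cast had
    rw [e] at e'
    have e3 : (d : ℝ) * d = 1 := by
      have : (N : ℝ) * ((d : ℝ) * d) = N * 1 := by linarith
      exact mul_left_cancel₀ hN.ne' this
    have e4 : d * d = 1 := by exact_mod_cast e3
    have hdpos : 0 < d := by exact_mod_cast hd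
    nlinarith
  have haN : a = N := by rw [hd1, mul_one] at had; exact had
  have : γ⁻¹ ∈ CongruenceSubgroup.Gamma0 N := by
    rw [CongruenceSubgroup.Gamma0_mem, ZMod.intCast_zmod_eq_zero_iff_dvd, ← haN]
    exact hdvd
  simpa using inv_mem this

/-- `sigma g = sigma g'` iff `g` and `g'` define the same coset of `Γ₀(N)`. -/
theorem sigma_eq_iff (N : ℕ) [NeZero N] (g g' : SL(2, ℤ)) :
    sigma N g = sigma N g' ↔ g⁻¹ * g' ∈ CongruenceSubgroup.Gamma0 N := by
  constructor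
  · intro h
    apply mem_Gamma0_of_sigma_jd_eq
    rw [sigma_mul_apply, ← h, ← sigma_mul_apply, inv_mul_cancel, sigma_one]
  · intro h
    have := sigma_mul_of_mem N g _ h
    rw [mul_inv_cancel_left] at this
    exact this.symm

/-- The conjugate embeddings indexed by the coset space. -/
noncomputable def sigmaQ (N : ℕ) (c : SL(2, ℤ) ⧸ CongruenceSubgroup.Gamma0 N) : FF N →+* Mer :=
  sigma N c.out

lemma sigmaQ_mk (N : ℕ) (g : SL(2, ℤ)) :
    sigmaQ N (g : SL(2, ℤ) ⧸ CongruenceSubgroup.Gamma0 N) = sigma N g := by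
  obtain ⟨h, hh⟩ := QuotientGroup.mk_out_eq_mul (CongruenceSubgroup.Gamma0 N) g
  rw [sigmaQ, hh]
  exact sigma_mul_of_mem N g h h.2

theorem sigmaQ_injective (N : ℕ) [NeZero N] : Function.Injective (sigmaQ N) := by
  intro c c' h
  induction c using QuotientGroup.induction_on with
  | H g =>
    induction c' using QuotientGroup.induction_on with
    | H g' =>
      rw [sigmaQ_mk, sigmaQ_mk, sigma_eq_iff] at h
      exact QuotientGroup.eq.mpr h

theorem sigmaQ_smul (N : ℕ) (s : SL(2, ℤ)) (c : SL(2, ℤ) ⧸ CongruenceSubgroup.Gamma0 N)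
    (x : FF N) : sigmaQ N (s • c) x = act s (sigmaQ N c x) := by
  induction c using QuotientGroup.induction_on with
  | H g =>
    rw [MulAction.Quotient.smul_coe, smul_eq_mul, sigmaQ_mk, sigmaQ_mk, sigma_mul_apply]

lemma sigmaQ_const (N : ℕ) (c : SL(2, ℤ) ⧸ CongruenceSubgroup.Gamma0 N) (a : Kb) :
    sigmaQ N c (algebraMap Kb (FF N) a) = toMer (algebraMap ℂ Hol (iotaC a)) :=
  sigma_const N _ a

/-- The holomorphic function `j`. -/
noncomputable def jHol : Hol := ⟨jfun, jfun_mdiff⟩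

lemma sigma_jF (N : ℕ) (g : SL(2, ℤ)) : sigma N g (jF N) = toMer jHol := by
  rw [jF, sigma_jd]
  apply congrArg toMer
  apply Subtype.ext
  funext τ
  rw [actHol_apply, jdHol_apply']
  have : Dm 1 • (g⁻¹ • τ) = g⁻¹ • τ := by
    apply UpperHalfPlane.ext
    rw [coe_Dm_smul]
    simp
  rw [this, jfun_smul]
  rfl

lemma sigmaQ_jF (N : ℕ) (c : SL(2, ℤ) ⧸ CongruenceSubgroup.Gamma0 N) :
    sigmaQ N c (jF N) = toMer jHol := sigma_jF N _

end Fermat.Agent.S24
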