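import Fermat.Agent.S24.FFBasic
import Fermat.Prelude.Def_ModularCurve_CanonicalDivisor

set_option autoImplicit false

/-!
# S24, package A0: basic API for places (names fixed by the S24 plan)
-/

namespace Fermat.Agent.S24

open AlgebraicCurve

variable {K F : Type*} [Field K] [Field F] [Algebra K F]

namespace Place

variable (v : AlgebraicCurve.Place K F)

theorem mem_iff_ord_nonneg {f : F} (hf : f ≠ 0) : f ∈ v.toValuationSubring ↔ 0 ≤ v.ord f :=
  FF.mem_iff_ord_nonneg v hf

theorem ord_nonneg_of_mem {f : F} (hf : f ∈ v.toValuationSubring) : 0 ≤ v.ord f :=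
  FF.ord_nonneg_of_mem v hf

theorem mem_maximalIdeal_iff {a : v.toValuationSubring} (ha : a ≠ 0) :
    a ∈ IsLocalRing.maximalIdeal v.toValuationSubring ↔ 0 < v.ord (a : F) :=
  FF.mem_maximalIdeal_iff v ha

theorem ord_add_ge {f g : F} (hfg : f + g ≠ 0) : min (v.ord f) (v.ord g) ≤ v.ord (f + g) :=
  FF.ord_add_ge v hfg

theorem ord_algebraMap (a : K) : v.ord (algebraMap K F a) = 0 := FF.ord_algebraMap v a

theorem ord_pow (f : F) (n : ℕ) : v.ord (f ^ n) = n * v.ord f := FF.ord_pow v f n

theorem ord_neg (f : F) : v.ord (-f) = v.ord f := FF.ord_neg v f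

theorem ord_sub_ge {f g : F} (hfg : f - g ≠ 0) : min (v.ord f) (v.ord g) ≤ v.ord (f - g) := by
  have := FF.ord_add_ge v (f := f) (g := -g) (by rwa [← sub_eq_add_neg])
  rwa [FF.ord_neg, ← sub_eq_add_neg] at this

/-- if the orders are different, the order of the sum is the minimum -/
theorem ord_add_eq_of_lt {f g : F} (hf : f ≠ 0) (h : v.ord f < v.ord g) :
    v.ord (f + g) = v.ord f := by
  rcases eq_or_ne g 0 with rfl | hg
  · simp
  have hfg : f + g ≠ 0 := by
    intro h0
    have : f = -g := eq_neg_of_add_eq_zero_left h0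
    rw [this, FF.ord_neg] at h
    exact lt_irrefl _ h
  apply le_antisymm
  · by_contra hlt
    push Not at hlt
    have h1 := ord_sub_ge v (f := f + g) (g := g) (by simpa using hf)
    rw [add_sub_cancel_right] at h1
    have := lt_min hlt h
    omega
  · have := FF.ord_add_ge v hfg
    rwa [min_eq_left h.le] at this

theorem exists_ord_eq_one : ∃ π : F, v.ord π = 1 := by
  obtain ⟨π, hπ⟩ := IsDiscreteValuationRing.exists_irreducible v.toValuationSubring
  exact ⟨π, v.ord_coe_irreducible hπ⟩

theorem eq_of_le {v w : AlgebraicCurve.Place K F}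
    (h : v.toValuationSubring ≤ w.toValuationSubring) : v = w := FF.eq_of_le h

theorem ext_of_ord {v w : AlgebraicCurve.Place K F}
    (h : ∀ f : F, f ≠ 0 → (0 ≤ v.ord f ↔ 0 ≤ w.ord f)) : v = w := by
  apply FF.eq_of_le
  intro f hf
  rcases eq_or_ne f 0 with rfl | h0
  · exact w.toValuationSubring.zero_mem
  · exact (FF.mem_iff_ord_nonneg w h0).mpr ((h f h0).mp ((FF.mem_iff_ord_nonneg v h0).mp hf))

/-- one implication suffices -/
theorem ext_of_ord_imp {v w : AlgebraicCurve.Place K F}
    (h : ∀ f : F, f ≠ 0 → 0 ≤ v.ord f → 0 ≤ w.ord f) : v = w := by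
  apply FF.eq_of_le
  intro f hf
  rcases eq_or_ne f 0 with rfl | h0
  · exact w.toValuationSubring.zero_mem
  · exact (FF.mem_iff_ord_nonneg w h0).mpr (h f h0 ((FF.mem_iff_ord_nonneg v h0).mp hf))

/-- access to the (private) uniformizer used by the Prelude in `dCoord` -/
theorem exists_dCoord : ∃ π : F, v.ord π = 1 ∧ v.dCoord = KaehlerDifferential.D K F π := by
  refine ⟨_, ?_, rfl⟩
  exact v.ord_coe_irreducible
    (IsDiscreteValuationRing.exists_irreducible v.toValuationSubring).choose_spec

end Place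

end Fermat.Agent.S24
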