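import Fermat.Agent.S24.FFDeg
import Fermat.Agent.S24.PlaceBasic

set_option autoImplicit false
set_option linter.unusedSectionVars false
set_option linter.style.haveILetI false

/-!
# S24, packages A1, A2, A3: residue degree, zeros and poles, principal divisors
-/

namespace Fermat.Agent.S24

open AlgebraicCurve Polynomial IntermediateField

variable {K F : Type*} [Field K] [IsAlgClosed K] [CharZero K] [Field F] [Algebra K F]

namespace FF

lemma adjoin_sub_const (x : F) (c : K) : K⟮x - algebraMap K F c⟯ = K⟮x⟯ := by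
  apply le_antisymm
  · rw [adjoin_simple_le_iff]
    exact sub_mem (mem_adjoin_simple_self K x) (IntermediateField.algebraMap_mem _ c)
  · rw [adjoin_simple_le_iff]
    have h1 : (x - algebraMap K F c) + algebraMap K F c ∈ K⟮x - algebraMap K F c⟯ :=
      add_mem (mem_adjoin_simple_self K _) (IntermediateField.algebraMap_mem _ c)
    rwa [sub_add_cancel] at h1

lemma adjoin_inv (x : F) : K⟮x⁻¹⟯ = K⟮x⟯ := by
  apply le_antisymm
  · rw [adjoin_simple_le_iff]
    exact inv_mem (mem_adjoin_simple_self K x)
  · rw [adjoin_simple_le_iff]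
    have h1 : (x⁻¹)⁻¹ ∈ K⟮x⁻¹⟯ := inv_mem (mem_adjoin_simple_self K _)
    rwa [inv_inv] at h1

omit [IsAlgClosed K] [CharZero K] in
lemma transcendental_sub_const {x : F} (hx : Transcendental K x) (c : K) :
    Transcendental K (x - algebraMap K F c) := by
  intro h
  apply hx
  have : x = (x - algebraMap K F c) + algebraMap K F c := by ring
  rw [this]
  exact h.add (isAlgebraic_algebraMap c)

omit [IsAlgClosed K] [CharZero K] in
lemma transcendental_inv {x : F} (hx : Transcendental K x) : Transcendental K x⁻¹ := by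
  intro h
  apply hx
  have := h.inv
  rwa [inv_inv] at this

omit [IsAlgClosed K] [CharZero K] in
lemma finrank_congr {E E' : IntermediateField K F} (h : E = E') :
    Module.finrank E F = Module.finrank E' F := by
  subst h; rfl

end FF

section

variable (x : F) (hx : Transcendental K x) [FiniteDimensional K⟮x⟯ F]

include hx

theorem isFF : FF.IsFF K F := ⟨x, hx, inferInstance⟩

/-- A1 -/
theorem Place.deg_eq_one (v : AlgebraicCurve.Place K F) : v.deg = 1 :=
  haveI := isFF x hx
  FF.deg_eq_one v

/-- A1 : the value of `x` at a place which is not a pole -/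
theorem exists_sub_ord_pos (v : AlgebraicCurve.Place K F) (h : 0 ≤ v.ord x) :
    ∃! c : K, 0 < v.ord (x - algebraMap K F c) := by
  haveI := isFF x hx
  have hx0 : x ≠ 0 := fun h0 => hx (h0 ▸ isAlgebraic_zero)
  have hmem : x ∈ v.toValuationSubring := (FF.mem_iff_ord_nonneg v hx0).mpr h
  obtain ⟨c, hc⟩ := (FF.algebraMap_residue_bijective v).2
    (IsLocalRing.residue v.toValuationSubring ⟨x, hmem⟩)
  have hne : ∀ c : K, x - algebraMap K F c ≠ 0 := fun c h0 =>
    FF.transcendental_sub_const hx c (h0 ▸ isAlgebraic_zero)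
  refine ⟨c, ?_, ?_⟩
  · have h1 : (⟨x, hmem⟩ - algebraMap K v.toValuationSubring c : v.toValuationSubring)
        ∈ IsLocalRing.maximalIdeal v.toValuationSubring := by
      rw [← IsLocalRing.residue_eq_zero_iff, map_sub, ← hc]
      exact sub_eq_zero.mpr rfl
    have h2 : (⟨x, hmem⟩ - algebraMap K v.toValuationSubring c : v.toValuationSubring) ≠ 0 := by
      intro h0
      exact hne c (congrArg Subtype.val h0)
    exact (FF.mem_maximalIdeal_iff v h2).mp h1
  · intro c' hc'
    have hc0 : 0 < v.ord (x - algebraMap K F c) := by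
      have h1 : (⟨x, hmem⟩ - algebraMap K v.toValuationSubring c : v.toValuationSubring)
          ∈ IsLocalRing.maximalIdeal v.toValuationSubring := by
        rw [← IsLocalRing.residue_eq_zero_iff, map_sub, ← hc]
        exact sub_eq_zero.mpr rfl
      have h2 : (⟨x, hmem⟩ - algebraMap K v.toValuationSubring c : v.toValuationSubring) ≠ 0 := by
        intro h0
        exact hne c (congrArg Subtype.val h0)
      exact (FF.mem_maximalIdeal_iff v h2).mp h1
    by_contra hcc
    have hd : (x - algebraMap K F c') - (x - algebraMap K F c) = algebraMap K F (c - c') := by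
      rw [map_sub]; ring
    have hd0 : (x - algebraMap K F c') - (x - algebraMap K F c) ≠ 0 := by
      rw [hd]
      intro h0
      apply hcc
      have := (algebraMap K F).injective (h0.trans (map_zero _).symm)
      exact (sub_eq_zero.mp this).symm
    have := Place.ord_sub_ge v hd0
    rw [hd, FF.ord_algebraMap] at this
    have := lt_min hc' hc0
    omega

/-- A2 -/
theorem exists_zeros_sub (c : K) : ∃ s : Finset (AlgebraicCurve.Place K F),
    (∀ v, v ∈ s ↔ 0 < v.ord (x - algebraMap K F c)) ∧
      ∑ v ∈ s, v.ord (x - algebraMap K F c) = (Module.finrank K⟮x⟯ F : ℤ) := by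
  haveI := isFF x hx
  haveI := FF.finiteDimensional_adjoin (FF.transcendental_sub_const hx c)
  have := FF.exists_zeros (FF.transcendental_sub_const hx c)
  rwa [FF.finrank_congr (FF.adjoin_sub_const x c)] at this

theorem exists_poles : ∃ s : Finset (AlgebraicCurve.Place K F),
    (∀ v, v ∈ s ↔ v.ord x < 0) ∧ ∑ v ∈ s, (- v.ord x) = (Module.finrank K⟮x⟯ F : ℤ) := by
  haveI := isFF x hx
  haveI := FF.finiteDimensional_adjoin (FF.transcendental_inv hx)
  have := FF.exists_zeros (FF.transcendental_inv hx)
  rw [FF.finrank_congr (FF.adjoin_inv x)] at this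
  simpa only [AlgebraicCurve.Place.ord_inv, Left.neg_pos_iff] using this

theorem finite_zeros (c : K) :
    {v : AlgebraicCurve.Place K F | 0 < v.ord (x - algebraMap K F c)}.Finite := by
  obtain ⟨s, hs, -⟩ := exists_zeros_sub x hx c
  exact s.finite_toSet.subset fun v hv => (hs v).mpr hv

theorem sum_zeros (c : K) :
    ∑ᶠ v ∈ {v : AlgebraicCurve.Place K F | 0 < v.ord (x - algebraMap K F c)},
      v.ord (x - algebraMap K F c) = (Module.finrank K⟮x⟯ F : ℤ) := by
  obtain ⟨s, hs, hsum⟩ := exists_zeros_sub x hx c
  rw [← hsum]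
  have : {v : AlgebraicCurve.Place K F | 0 < v.ord (x - algebraMap K F c)} = ↑s := by
    ext v; simp [hs]
  rw [this, finsum_mem_coe_finset]

theorem finite_poles' : {v : AlgebraicCurve.Place K F | v.ord x < 0}.Finite := by
  obtain ⟨s, hs, -⟩ := exists_poles x hx
  exact s.finite_toSet.subset fun v hv => (hs v).mpr hv

theorem sum_poles' :
    ∑ᶠ v ∈ {v : AlgebraicCurve.Place K F | v.ord x < 0}, (- v.ord x)
      = (Module.finrank K⟮x⟯ F : ℤ) := by
  obtain ⟨s, hs, hsum⟩ := exists_poles x hx
  rw [← hsum]
  have : {v : AlgebraicCurve.Place K F | v.ord x < 0} = ↑s := by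
    ext v; simp [hs]
  rw [this, finsum_mem_coe_finset]

theorem finite_poles : {v : AlgebraicCurve.Place K F | 0 < v.ord x⁻¹}.Finite := by
  have := finite_poles' x hx
  simpa only [AlgebraicCurve.Place.ord_inv, Left.neg_pos_iff] using this

theorem sum_poles :
    ∑ᶠ v ∈ {v : AlgebraicCurve.Place K F | 0 < v.ord x⁻¹}, v.ord x⁻¹
      = (Module.finrank K⟮x⟯ F : ℤ) := by
  have := sum_poles' x hx
  simpa only [AlgebraicCurve.Place.ord_inv, Left.neg_pos_iff] using this

theorem Place.exists_sub_ord_pos (v : AlgebraicCurve.Place K F) (hv : 0 ≤ v.ord x) :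
    ∃ c : K, 0 < v.ord (x - algebraMap K F c) :=
  (Fermat.Agent.S24.exists_sub_ord_pos x hx v hv).exists

/-- A3 : principal divisors have degree zero -/
theorem degree_eq_zero_of_principal (h : F) (h0 : h ≠ 0) (D : Divisor K F)
    (hD : ∀ v, D v = v.ord h) : Divisor.degree D = 0 := by
  classical
  haveI := isFF x hx
  have hdeg : Divisor.degree D = ∑ v ∈ D.support, v.ord h := by
    rw [Divisor.degree, Finsupp.liftAddHom_apply, Finsupp.sum]
    refine Finset.sum_congr rfl fun v _ => ?_
    simp [FF.deg_eq_one v, hD v]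
  rw [hdeg]
  by_cases halg : IsAlgebraic K h
  · obtain ⟨c, rfl⟩ := FF.exists_const_of_isAlgebraic halg
    exact Finset.sum_eq_zero fun v _ => FF.ord_algebraMap v c
  · have htr : Transcendental K h := halg
    haveI := FF.finiteDimensional_adjoin htr
    obtain ⟨s, hs, hsum⟩ := exists_zeros_sub h htr 0
    obtain ⟨t, ht, htsum⟩ := exists_poles h htr
    simp only [map_zero, sub_zero] at hs hsum
    have hsupp : D.support = s ∪ t := by
      ext v
      rw [Finsupp.mem_support_iff, hD v, Finset.mem_union, hs, ht]
      omega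
    have hdisj : Disjoint s t := by
      rw [Finset.disjoint_left]
      intro v h1 h2
      rw [hs] at h1
      rw [ht] at h2
      omega
    rw [hsupp, Finset.sum_union hdisj, hsum]
    rw [Finset.sum_neg_distrib] at htsum
    omega

/-- every nonzero function has a divisor, of degree zero -/
theorem hasPrincipalDivisors : HasPrincipalDivisors K F := by
  classical
  haveI := isFF x hx
  constructor
  intro f hf
  suffices h : ∃ D : Divisor K F, ∀ v, D v = v.ord f by
    obtain ⟨D, hD⟩ := h
    exact ⟨D, hD, degree_eq_zero_of_principal x hx f hf D hD⟩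
  by_cases halg : IsAlgebraic K f
  · obtain ⟨c, rfl⟩ := FF.exists_const_of_isAlgebraic halg
    exact ⟨0, fun v => by simp [FF.ord_algebraMap v c]⟩
  · have htr : Transcendental K f := halg
    haveI := FF.finiteDimensional_adjoin htr
    obtain ⟨s, hs, -⟩ := exists_zeros_sub f htr 0
    obtain ⟨t, ht, -⟩ := exists_poles f htr
    simp only [map_zero, sub_zero] at hs
    refine ⟨Finsupp.onFinset (s ∪ t) (fun v => v.ord f) ?_, fun v => rfl⟩
    intro v hv
    rw [Finset.mem_union, hs, ht]
    omega

end

end Fermat.Agent.S24
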