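import Fermat.Agent.S24.JFun

/-!
# S24: Ramanujan's identities and the local orders of the `j`-function
-/

set_option autoImplicit false

namespace Fermat.Agent.S24

open UpperHalfPlane ModularForm Filter CongruenceSubgroup Fermat.Agent.S21 Derivative
open scoped MatrixGroups Manifold Topology

/-- Cauchy estimate: the derivative of a holomorphic function tending to `0` at `i∞` tends to `0`
at `i∞`. -/
lemma isZeroAtImInfty_normalizedDeriv {h : ℍ → ℂ} (hh : MDiff h)
    (hb : IsZeroAtImInfty h) : IsZeroAtImInfty (normalizedDerivOfComplex h) := by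
  rw [UpperHalfPlane.isZeroAtImInfty_iff] at hb ⊢
  intro ε hε
  have hc : 0 < ‖(2 * Real.pi * Complex.I : ℂ)⁻¹‖ := by
    rw [norm_pos_iff]
    exact inv_ne_zero Complex.two_pi_I_ne_zero
  obtain ⟨A, hMA⟩ := hb (ε / ‖(2 * Real.pi * Complex.I : ℂ)⁻¹‖) (by positivity)
  set M := ε / ‖(2 * Real.pi * Complex.I : ℂ)⁻¹‖ with hM
  refine ⟨max A 1 + 1, fun z hz => ?_⟩
  have hsub : ∀ w ∈ Metric.closedBall (z : ℂ) 1, max A 1 ≤ w.im := by
    intro w hw
    have h1 : |(w - z).im| ≤ ‖w - z‖ := Complex.abs_im_le_norm _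
    have h2 : ‖w - z‖ ≤ 1 := by simpa [dist_eq_norm] using hw
    have h3 := abs_le.mp (h1.trans h2)
    have h4 : (w - z).im = w.im - z.im := by simp
    have h5 : max A 1 + 1 ≤ z.im := hz
    linarith [h3.1]
  have hpos : ∀ w ∈ Metric.closedBall (z : ℂ) 1, w ∈ upperHalfPlaneSet := by
    intro w hw
    have := hsub w hw
    have h1 : (1 : ℝ) ≤ max A 1 := le_max_right _ _
    show 0 < w.im
    linarith
  have hd : DiffContOnCl ℂ (h ∘ ofComplex) (Metric.ball (z : ℂ) 1) := by
    apply DifferentiableOn.diffContOnCl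
    refine (UpperHalfPlane.mdifferentiable_iff.mp hh).mono ?_
    intro w hw
    exact hpos w (Metric.closure_ball_subset_closedBall hw)
  have hC : ∀ w ∈ Metric.sphere (z : ℂ) 1, ‖(h ∘ ofComplex) w‖ ≤ M := by
    intro w hw
    have hw' := Metric.sphere_subset_closedBall hw
    have := hMA (ofComplex w) (by
      rw [ofComplex_apply_of_im_pos (hpos w hw')]
      exact (le_max_left _ _).trans (hsub w hw'))
    simpa using this
  have := Complex.norm_deriv_le_of_forall_mem_sphere_norm_le one_pos hd hC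
  unfold normalizedDerivOfComplex
  rw [norm_mul]
  calc ‖(2 * Real.pi * Complex.I : ℂ)⁻¹‖ * ‖deriv (h ∘ ofComplex) z‖
      ≤ ‖(2 * Real.pi * Complex.I : ℂ)⁻¹‖ * M := by
        gcongr
        simpa using this
    _ = ε := by rw [hM]; field_simp

/-- the derivative of a holomorphic function with a limit at `i∞` tends to `0`. -/
lemma tendsto_normalizedDeriv {h : ℍ → ℂ} (hh : MDiff h) {c : ℂ}
    (hb : Tendsto h atImInfty (𝓝 c)) : Tendsto (normalizedDerivOfComplex h) atImInfty (𝓝 0) := by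
  have h1 : IsZeroAtImInfty (h - fun _ => c) := by
    have := hb.sub (tendsto_const_nhds (x := c))
    rw [sub_self] at this
    exact this
  have h2 := isZeroAtImInfty_normalizedDeriv (hh.sub mdifferentiable_const) h1
  rw [normalizedDerivOfComplex_sub _ _ hh mdifferentiable_const,
    normalizedDerivOfComplex_const, sub_zero] at h2
  exact h2

lemma periodic_E2 : Function.Periodic (EisensteinSeries.E2 ∘ ofComplex) 1 := by
  intro w
  by_cases hw : 0 < w.im
  · have hw' : 0 < (w + 1).im := by simpa using hw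
    simp only [Function.comp_apply, ofComplex_apply_of_im_pos hw, ofComplex_apply_of_im_pos hw']
    refine (EisensteinSeries.hasSum_qExpansion_E2 (z := ⟨w + 1, hw'⟩)).unique ?_
    convert EisensteinSeries.hasSum_qExpansion_E2 (z := ⟨w, hw⟩) using 4
    show Complex.exp (2 * ↑Real.pi * Complex.I * (w + 1)) =
      Complex.exp (2 * ↑Real.pi * Complex.I * w)
    rw [mul_add, mul_one, Complex.exp_add, Complex.exp_two_pi_mul_I, mul_one]
  · have hw' : ¬ 0 < (w + 1).im := by simpa using hw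
    simp only [Function.comp_apply, ofComplex_apply_of_im_nonpos (not_lt.mp hw),
      ofComplex_apply_of_im_nonpos (not_lt.mp hw')]

lemma tendsto_E2 : Tendsto EisensteinSeries.E2 atImInfty (𝓝 1) := by
  have hana := analyticAt_cuspFunction_zero one_pos periodic_E2
    E2_mdifferentiable EisensteinSeries.isBoundedAtImInfty_E2
  have hps := hasFPowerSeriesOnBall_cuspFunction
    (c := fun m : ℕ => (if m = 0 then 1 else -24 * ArithmeticFunction.sigma 1 m : ℂ)) one_pos hana
    (fun τ => by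
      simpa only [Function.Periodic.qParam, Complex.ofReal_one, div_one] using
        EisensteinSeries.hasSum_qExpansion_E2 (z := τ))
  have h0 : cuspFunction 1 EisensteinSeries.E2 0 = 1 := by
    have := hps.coeff_zero (fun _ => 0)
    simpa using this.symm
  have h1 : (cuspFunction 1 EisensteinSeries.E2 ∘ fun τ : ℍ => Function.Periodic.qParam 1 τ)
      = EisensteinSeries.E2 := by
    funext τ
    simpa using eq_cuspFunction τ one_ne_zero periodic_E2
  have h2 := hana.continuousAt.tendsto.comp (qParam_tendsto_atImInfty one_pos)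
  rw [h1, h0] at h2
  exact h2

/-- two level one forms of weight `< 12` with the same limit at `i∞` are equal. -/
lemma eq_of_tendsto_of_lt {k : ℤ} (hk : k < 12) {f g : ℍ → ℂ} (hf : IsMF ⊤ k f) (hg : IsMF ⊤ k g)
    {c : ℂ} (hfc : Tendsto f atImInfty (𝓝 c)) (hgc : Tendsto g atImInfty (𝓝 c)) : f = g := by
  have h0 : Tendsto (f - g) atImInfty (𝓝 0) := by
    have := hfc.sub hgc
    rwa [sub_self] at this
  obtain ⟨b, hb, hfb⟩ := PartA2.exists_eq_discriminant_mul (hf.sub hg) h0
  have hb0 := isMF_eq_zero_of_neg (by omega) hb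
  rw [hb0, mul_zero] at hfb
  exact sub_eq_zero.mp hfb

lemma tendsto_serreDerivative {k : ℤ} {f : ℍ → ℂ} (hf : MDiff f) {c : ℂ}
    (hfc : Tendsto f atImInfty (𝓝 c)) :
    Tendsto (serreDerivative k f) atImInfty (𝓝 (-(k * 12⁻¹ * c))) := by
  have h1 := tendsto_normalizedDeriv hf hfc
  have h2 := h1.sub (((tendsto_const_nhds (x := (k : ℂ) * 12⁻¹)).mul tendsto_E2).mul hfc)
  rw [serreDerivative_eq]
  simpa using h2

theorem serreDerivative_E4 : serreDerivative (4 : ℤ) (E₄ : ℍ → ℂ) = (-(1 / 3) : ℂ) • (E₆ : ℍ → ℂ) := by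
  refine eq_of_tendsto_of_lt (k := 6) (by norm_num) (PartB.isMF_serreDerivative isMF_E4)
    (isMF_E6.smul _) (tendsto_serreDerivative isMF_E4.holo PartA2.tendsto_E4) ?_
  have := PartA2.tendsto_E6.const_mul (-(1 / 3) : ℂ)
  convert this using 2 <;> (push_cast; norm_num)

theorem serreDerivative_E6 :
    serreDerivative (6 : ℤ) (E₆ : ℍ → ℂ) = (-(1 / 2) : ℂ) • ((E₄ : ℍ → ℂ) ^ 2) := by
  refine eq_of_tendsto_of_lt (k := 8) (by norm_num) (PartB.isMF_serreDerivative isMF_E6)
    (((PartA2.IsMF.pow isMF_E4 2).congr_wt (by norm_num)).smul _)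
    (tendsto_serreDerivative isMF_E6.holo PartA2.tendsto_E6) ?_
  have := (PartA2.tendsto_E4.pow 2).const_mul (-(1 / 2) : ℂ)
  convert this using 2 <;> (push_cast; norm_num)

theorem serreDerivative_discriminant : serreDerivative (12 : ℤ) (discriminant : ℍ → ℂ) = 0 := by
  have h1 : IsMF ⊤ 14 (serreDerivative (12 : ℤ) (discriminant : ℍ → ℂ)) :=
    PartB.isMF_serreDerivative isCF_Delta.isMF
  have h2 := tendsto_serreDerivative (k := 12) isCF_Delta.holo tendsto_discriminant
  rw [mul_zero, neg_zero] at h2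
  obtain ⟨b, hb, hfb⟩ := PartA2.exists_eq_discriminant_mul h1 h2
  have hb0 := isMF_top_two_eq_zero (hb.congr_wt (by norm_num))
  rw [hfb, hb0, mul_zero]

theorem D_E4 (τ : ℍ) :
    normalizedDerivOfComplex (E₄ : ℍ → ℂ) τ = (EisensteinSeries.E2 τ * E₄ τ - E₆ τ) / 3 := by
  have h := congrFun serreDerivative_E4 τ
  rw [serreDerivative_apply] at h
  simp only [Pi.smul_apply, smul_eq_mul] at h
  push_cast at h
  linear_combination h

theorem D_E6 (τ : ℍ) :
    normalizedDerivOfComplex (E₆ : ℍ → ℂ) τ = (EisensteinSeries.E2 τ * E₆ τ - E₄ τ ^ 2) / 2 := by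
  have h := congrFun serreDerivative_E6 τ
  rw [serreDerivative_apply] at h
  simp only [Pi.smul_apply, smul_eq_mul, Pi.pow_apply] at h
  push_cast at h
  linear_combination h

theorem D_discriminant (τ : ℍ) :
    normalizedDerivOfComplex (discriminant : ℍ → ℂ) τ = EisensteinSeries.E2 τ * discriminant τ := by
  have h := congrFun serreDerivative_discriminant τ
  rw [serreDerivative_apply] at h
  simp only [Pi.zero_apply] at h
  push_cast at h
  linear_combination h

theorem D_jfun (τ : ℍ) :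
    normalizedDerivOfComplex jfun τ = - (E₄ τ ^ 2 * E₆ τ) / discriminant τ := by
  have hΔ := discriminant_ne_zero τ
  have e : (E₄ : ℍ → ℂ) ^ 3 = jfun * (discriminant : ℍ → ℂ) := by
    funext z
    have := discriminant_ne_zero z
    simp only [Pi.pow_apply, Pi.mul_apply, jfun]
    field_simp
  have h1 := congrFun (normalizedDerivOfComplex_pow (E₄ : ℍ → ℂ) 3 isMF_E4.holo) τ
  have h2 := congrFun (normalizedDerivOfComplex_mul jfun _ jfun_mdiff isCF_Delta.holo) τ
  rw [e] at h1
  rw [h1] at h2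
  simp only [Pi.mul_apply, Pi.pow_apply, Pi.add_apply, D_E4, D_discriminant] at h2
  have h3 : jfun τ * discriminant τ = E₄ τ ^ 3 := by
    simp only [jfun]
    field_simp
  rw [eq_div_iff hΔ]
  simp only [Nat.cast_ofNat, Pi.natCast_apply, Nat.reduceSub] at h2
  linear_combination -h2 - EisensteinSeries.E2 τ * h3

/-! ### analytic orders -/

lemma analyticAt_comp_ofComplex {f : ℍ → ℂ} (hf : MDiff f) (τ : ℍ) :
    AnalyticAt ℂ (f ∘ ofComplex) (τ : ℂ) :=
  (UpperHalfPlane.mdifferentiable_iff.mp hf).analyticAt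
    (isOpen_upperHalfPlaneSet.mem_nhds τ.im_pos)

lemma deriv_comp_ofComplex (f : ℍ → ℂ) (τ : ℍ) :
    deriv (f ∘ ofComplex) (τ : ℂ) = 2 * Real.pi * Complex.I * normalizedDerivOfComplex f τ := by
  unfold normalizedDerivOfComplex
  rw [← mul_assoc, mul_inv_cancel₀ Complex.two_pi_I_ne_zero, one_mul]

/-- a holomorphic function vanishing at `τ` with non-vanishing derivative has order one -/
lemma analyticOrderAt_eq_one {f : ℍ → ℂ} (hf : MDiff f) (τ : ℍ) (h0 : f τ = 0)
    (h1 : normalizedDerivOfComplex f τ ≠ 0) : analyticOrderAt (f ∘ ofComplex) (τ : ℂ) = 1 := by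
  apply (analyticAt_comp_ofComplex hf τ).analyticOrderAt_eq_one_of_zero_deriv_ne_zero
  · simpa using h0
  · rw [deriv_comp_ofComplex]
    exact mul_ne_zero Complex.two_pi_I_ne_zero h1

lemma analyticOrderAt_eq_zero' {f : ℍ → ℂ} (τ : ℍ) (h0 : f τ ≠ 0) :
    analyticOrderAt (f ∘ ofComplex) (τ : ℂ) = 0 := by
  rw [analyticOrderAt_eq_zero]
  right
  simpa using h0

/-- **generic points**: `j - j(τ₀)` has a simple zero at `τ₀` if `j(τ₀) ≠ 0, 1728`. -/
theorem analyticOrderAt_jfun_generic (τ₀ : ℍ) (h0 : jfun τ₀ ≠ 0) (h1 : jfun τ₀ ≠ 1728) :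
    analyticOrderAt (fun z : ℂ => jfun (ofComplex z) - jfun τ₀) (τ₀ : ℂ) = 1 := by
  have hΔ := discriminant_ne_zero τ₀
  have hE4 : E₄ τ₀ ≠ 0 := by
    intro h
    apply h0
    simp [jfun, h]
  have hE6 : E₆ τ₀ ≠ 0 := by
    intro h
    apply h1
    have := jfun_sub_1728 τ₀
    rw [h] at this
    simpa [sub_eq_zero] using this
  have key := analyticOrderAt_eq_one (f := fun τ => jfun τ - jfun τ₀)
    (jfun_mdiff.sub mdifferentiable_const) τ₀ (sub_self _) (by
      have e : (fun τ => jfun τ - jfun τ₀) = jfun - fun _ => jfun τ₀ := rfl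
      rw [e, normalizedDerivOfComplex_sub _ _ jfun_mdiff mdifferentiable_const,
        normalizedDerivOfComplex_const, sub_zero, D_jfun]
      exact div_ne_zero (neg_ne_zero.mpr (mul_ne_zero (pow_ne_zero _ hE4) hE6)) hΔ)
  exact key

/-! ### the elliptic points -/

lemma Umat_coe : (Umat : Matrix (Fin 2) (Fin 2) ℤ) = !![0, -1; 1, 1] := by
  unfold Umat
  rw [Matrix.SpecialLinearGroup.coe_mul, ModularGroup.coe_S, ModularGroup.coe_T]
  simp

/-- `ρ = e^{2πi/3}` -/
noncomputable def rho : ℍ := ⟨-1 / 2 + (Real.sqrt 3 / 2 : ℝ) * Complex.I, by simp⟩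

lemma rho_sq : (rho : ℂ) ^ 2 + rho + 1 = 0 := by
  have h3 : ((Real.sqrt 3 : ℝ) : ℂ) ^ 2 = 3 := by
    rw [← Complex.ofReal_pow, Real.sq_sqrt (by norm_num)]; norm_num
  show (-1 / 2 + ((Real.sqrt 3 / 2 : ℝ) : ℂ) * Complex.I) ^ 2 +
    (-1 / 2 + ((Real.sqrt 3 / 2 : ℝ) : ℂ) * Complex.I) + 1 = 0
  push_cast
  ring_nf
  rw [Complex.I_sq, h3]
  ring

lemma denom_Umat (z : ℍ) : denom Umat z = z + 1 := by
  rw [ModularGroup.denom_apply, Umat_coe]
  simp

lemma rho_add_one_ne_zero : (rho : ℂ) + 1 ≠ 0 := by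
  intro h2
  have h := rho_sq
  have : (rho : ℂ) = -1 := by linear_combination h2
  rw [this] at h
  norm_num at h

lemma Umat_smul_rho : Umat • rho = rho := by
  apply UpperHalfPlane.ext
  rw [coe_specialLinearGroup_apply, Umat_coe]
  have h := rho_sq
  simp
  rw [div_eq_iff rho_add_one_ne_zero]
  linear_combination -h

lemma S_smul_I : ModularGroup.S • UpperHalfPlane.I = UpperHalfPlane.I := by
  apply UpperHalfPlane.ext
  rw [modular_S_smul]
  simp

theorem E4_rho : E₄ rho = 0 := by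
  have h := IsMF.apply_smul isMF_E4 Umat rho
  rw [Umat_smul_rho, denom_Umat] at h
  have e : ((rho : ℂ) + 1) ^ (4 : ℤ) = (rho : ℂ) ^ 2 := by
    have : ((rho : ℂ) + 1) ^ (4 : ℤ) = ((rho : ℂ) + 1) ^ 4 := by norm_cast
    rw [this]
    linear_combination ((rho : ℂ) ^ 2 + 3 * rho + 1) * rho_sq
  rw [e] at h
  have hne : (rho : ℂ) ^ 2 - 1 ≠ 0 := by
    intro h2
    have h3 : (rho : ℂ) = -2 := by linear_combination rho_sq - h2
    have h4 := rho_sq
    rw [h3] at h4
    norm_num at h4
  have : ((rho : ℂ) ^ 2 - 1) * E₄ rho = 0 := by linear_combination -h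
  exact (mul_eq_zero.mp this).resolve_left hne

theorem E6_I : E₆ UpperHalfPlane.I = 0 := by
  have h := IsMF.apply_smul isMF_E6 ModularGroup.S UpperHalfPlane.I
  rw [S_smul_I, ModularGroup.denom_S] at h
  have e : ((UpperHalfPlane.I : ℍ) : ℂ) ^ (6 : ℤ) = -1 := by
    have : ((UpperHalfPlane.I : ℍ) : ℂ) ^ (6 : ℤ) = Complex.I ^ 6 := by norm_cast
    rw [this]
    have h2 : Complex.I ^ 6 = (Complex.I ^ 2) ^ 3 := by ring
    rw [h2, Complex.I_sq]
    norm_num
  rw [e] at h
  have : (2 : ℂ) * E₆ UpperHalfPlane.I = 0 := by linear_combination h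
  exact (mul_eq_zero.mp this).resolve_left two_ne_zero

theorem jfun_rho : jfun rho = 0 := by simp [jfun, E4_rho]

theorem jfun_I : jfun UpperHalfPlane.I = 1728 := by
  have := jfun_sub_1728 UpperHalfPlane.I
  rw [E6_I] at this
  simpa [sub_eq_zero] using this

theorem analyticOrderAt_E4_rho : analyticOrderAt ((E₄ : ℍ → ℂ) ∘ ofComplex) (rho : ℂ) = 1 := by
  apply analyticOrderAt_eq_one isMF_E4.holo rho E4_rho
  rw [D_E4, E4_rho]
  have := (PartA2.E4_ne_zero_or_E6_ne_zero rho).resolve_left (by simp [E4_rho])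
  simpa using this

theorem analyticOrderAt_E6_I :
    analyticOrderAt ((E₆ : ℍ → ℂ) ∘ ofComplex) ((UpperHalfPlane.I : ℍ) : ℂ) = 1 := by
  apply analyticOrderAt_eq_one isMF_E6.holo _ E6_I
  rw [D_E6, E6_I]
  have := (PartA2.E4_ne_zero_or_E6_ne_zero UpperHalfPlane.I).resolve_right (by simp [E6_I])
  simpa using this

/-- `j` has a triple zero at `ρ`. -/
theorem analyticOrderAt_jfun_rho :
    analyticOrderAt (fun z : ℂ => jfun (ofComplex z) - jfun rho) (rho : ℂ) = 3 := by
  have hinv : MDiff (fun τ : ℍ => (discriminant τ)⁻¹) := by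
    have h1 : MDiff (fun _ : ℍ => (1 : ℂ)) := mdifferentiable_const
    have := h1.div isCF_Delta.holo discriminant_ne_zero
    have e : ((fun _ : ℍ => (1 : ℂ)) / (discriminant : ℍ → ℂ)) = fun τ => (discriminant τ)⁻¹ := by
      funext τ
      simp
    rwa [e] at this
  have e : (fun z : ℂ => jfun (ofComplex z) - jfun rho) =
      ((E₄ : ℍ → ℂ) ∘ ofComplex) ^ 3 * ((fun τ : ℍ => (discriminant τ)⁻¹) ∘ ofComplex) := by
    funext z
    rw [jfun_rho, sub_zero]
    simp [jfun, div_eq_mul_inv]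
  rw [e, analyticOrderAt_mul ((analyticAt_comp_ofComplex isMF_E4.holo rho).pow 3)
    (analyticAt_comp_ofComplex hinv rho), analyticOrderAt_pow
    (analyticAt_comp_ofComplex isMF_E4.holo rho), analyticOrderAt_E4_rho,
    analyticOrderAt_eq_zero' rho (inv_ne_zero (discriminant_ne_zero rho))]
  norm_num

/-- `j - 1728` has a double zero at `i`. -/
theorem analyticOrderAt_jfun_I :
    analyticOrderAt (fun z : ℂ => jfun (ofComplex z) - jfun UpperHalfPlane.I)
      ((UpperHalfPlane.I : ℍ) : ℂ) = 2 := by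
  have hinv : MDiff (fun τ : ℍ => (discriminant τ)⁻¹) := by
    have h1 : MDiff (fun _ : ℍ => (1 : ℂ)) := mdifferentiable_const
    have := h1.div isCF_Delta.holo discriminant_ne_zero
    have e : ((fun _ : ℍ => (1 : ℂ)) / (discriminant : ℍ → ℂ)) = fun τ => (discriminant τ)⁻¹ := by
      funext τ
      simp
    rwa [e] at this
  have e : (fun z : ℂ => jfun (ofComplex z) - jfun UpperHalfPlane.I) =
      ((E₆ : ℍ → ℂ) ∘ ofComplex) ^ 2 * ((fun τ : ℍ => (discriminant τ)⁻¹) ∘ ofComplex) := by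
    funext z
    rw [jfun_I, jfun_sub_1728]
    simp [div_eq_mul_inv]
  rw [e, analyticOrderAt_mul ((analyticAt_comp_ofComplex isMF_E6.holo _).pow 2)
    (analyticAt_comp_ofComplex hinv _), analyticOrderAt_pow
    (analyticAt_comp_ofComplex isMF_E6.holo _), analyticOrderAt_E6_I,
    analyticOrderAt_eq_zero' _ (inv_ne_zero (discriminant_ne_zero _))]
  norm_num

end Fermat.Agent.S24
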