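import Fermat.Agent.S24.Count
import Fermat.Agent.S24.PlaceBasic
import Fermat.Prelude.Def_ModularCurve_CanonicalDivisor

set_option autoImplicit false

/-!
# S24 : the order of a differential at a place, through a local embedding with a derivation
-/

namespace Fermat.Agent.S24

open AlgebraicCurve KaehlerDifferential

namespace Count

variable {K F M : Type*} [Field K] [Field F] [Algebra K F] [Field M]

/-- Let `τ : F → M` be an embedding in a field with an order function `w` and a derivation `δ`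
(killing the constants, lowering the nonzero orders by one), such that `w ∘ τ = m * v.ord`.
Then `ord_v (g du) = ord_v g + ord_v u - 1` as soon as `ord_v u ≠ 0`. -/
theorem ordDifferential_smul_D
    (w : M → ℤ) (w_mul : ∀ a b : M, a ≠ 0 → b ≠ 0 → w (a * b) = w a + w b)
    (τ : F →+* M)
    (δ : M → M) (δ_add : ∀ a b, δ (a + b) = δ a + δ b)
    (δ_mul : ∀ a b, δ (a * b) = δ a * b + a * δ b)
    (δ_K : ∀ c : K, δ (τ (algebraMap K F c)) = 0)
    (w_δ : ∀ a, a ≠ 0 → w a ≠ 0 → δ a ≠ 0 ∧ w (δ a) = w a - 1)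
    (v : Place K F) (m : ℤ) (hm : 0 < m) (hv : ∀ f : F, f ≠ 0 → w (τ f) = m * v.ord f)
    (hspan : ∀ t : F, t ∉ Set.range (algebraMap K F) → Submodule.span F {D K F t} = ⊤)
    (u : F) (hu : v.ord u ≠ 0) (g : F) (hg : g ≠ 0) :
    v.ordDifferential (g • D K F u) = v.ord g + v.ord u - 1 := by
  classical
  let _ : Algebra F M := τ.toAlgebra
  let _ : Algebra K M := (τ.comp (algebraMap K F)).toAlgebra
  have : IsScalarTower K F M := IsScalarTower.of_algebraMap_eq fun _ => rfl
  have hsmul : ∀ (a : F) (b : M), a • b = τ a * b := fun _ _ => rfl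
  have hsmulK : ∀ (c : K) (b : M), c • b = τ (algebraMap K F c) * b := fun _ _ => rfl
  let lin : F →ₗ[K] M :=
    { toFun := fun f => δ (τ f)
      map_add' := fun a b => by rw [map_add, δ_add]
      map_smul' := fun c a => by
        rw [Algebra.smul_def, map_mul, δ_mul, δ_K, zero_mul, zero_add, RingHom.id_apply, hsmulK] }
  let der : Derivation K F M := Derivation.mk' lin fun a b => by
    change δ (τ (a * b)) = a • δ (τ b) + b • δ (τ a)
    rw [map_mul, δ_mul, hsmul, hsmul]
    ring
  have hder : ∀ f, der f = δ (τ f) := fun _ => rfl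
  let L := der.liftKaehlerDifferential
  have hL : ∀ f, L (D K F f) = δ (τ f) := fun f => der.liftKaehlerDifferential_comp_D f
  obtain ⟨π, hπ, hdC⟩ := Place.exists_dCoord v
  have hπ0 : π ≠ 0 := by
    rintro rfl
    simp at hπ
  have hu0 : u ≠ 0 := by
    rintro rfl
    simp at hu
  have hπK : π ∉ Set.range (algebraMap K F) := by
    rintro ⟨a, rfl⟩
    rw [Place.ord_algebraMap] at hπ
    exact zero_ne_one hπ
  -- `D u = c • D π`
  obtain ⟨c, hc⟩ : ∃ c : F, c • D K F π = D K F u := by
    have : D K F u ∈ Submodule.span F {D K F π} := by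
      rw [hspan π hπK]
      exact Submodule.mem_top
    exact Submodule.mem_span_singleton.1 this
  have hwπ : w (τ π) = m := by rw [hv π hπ0, hπ, mul_one]
  have hwu : w (τ u) = m * v.ord u := hv u hu0
  obtain ⟨hδπ0, hδπ⟩ := w_δ (τ π) ((map_ne_zero τ).2 hπ0) (by rw [hwπ]; exact hm.ne')
  obtain ⟨hδu0, hδu⟩ := w_δ (τ u) ((map_ne_zero τ).2 hu0)
    (by rw [hwu]; exact mul_ne_zero hm.ne' hu)
  have h1 : τ c * δ (τ π) = δ (τ u) := by
    have := congrArg L hc
    rwa [map_smul, hL, hL, hsmul] at this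
  have hc0 : c ≠ 0 := by
    rintro rfl
    rw [map_zero, zero_mul] at h1
    exact hδu0 h1.symm
  have h2 : v.ord c = v.ord u - 1 := by
    have h3 := w_mul _ _ ((map_ne_zero τ).2 hc0) hδπ0
    rw [h1, hδu, hδπ, hwu, hwπ, hv c hc0] at h3
    have h4 : m * v.ord c = m * (v.ord u - 1) := by
      rw [mul_sub, mul_one]
      omega
    exact mul_left_cancel₀ hm.ne' h4
  -- the coefficient
  have hex : ∃ f : F, g • D K F u = f • v.dCoord := ⟨g * c, by rw [hdC, mul_smul, hc]⟩
  have hcoeff : v.differentialCoeff (g • D K F u) = g * c := by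
    rw [Place.differentialCoeff, dif_pos hex]
    obtain ⟨f', hf'⟩ : ∃ f', f' = hex.choose := ⟨_, rfl⟩
    have h3 := hex.choose_spec
    rw [← hf'] at h3 ⊢
    rw [hdC, ← hc, smul_smul] at h3
    have h4 := congrArg L h3
    rw [map_smul, map_smul, hL, hsmul, hsmul] at h4
    have h5 := mul_right_cancel₀ hδπ0 h4
    exact (τ.injective h5).symm
  rw [Place.ordDifferential, hcoeff, v.ord_mul hg hc0, h2]
  ring

end Count

end Fermat.Agent.S24
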