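import Fermat.Agent.S24.FFMain

set_option autoImplicit false
set_option linter.unusedSectionVars false
set_option linter.style.haveILetI false

/-!
# S24, package A5: prime avoidance and the norm
-/

namespace Fermat.Agent.S24

open AlgebraicCurve IsDedekindDomain WithZero Polynomial IntermediateField

variable {K F : Type*} [Field K] [Field F] [Algebra K F]

namespace FF

section Ded

variable {R : Type*} [CommRing R] [IsDedekindDomain R] [Algebra R F] [IsFractionRing R F]
  [Algebra K R] [IsScalarTower K R F]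

lemma ord_pos_iff_mem (W : HeightOneSpectrum R) {b : R} (hb : b ≠ 0) :
    0 < (Place.ofHeightOneSpectrum (K := K) (F := F) W).ord (algebraMap R F b) ↔ b ∈ W.asIdeal := by
  have hb' : algebraMap R F b ≠ 0 := by
    intro h
    exact hb ((IsFractionRing.injective R F) (h.trans (map_zero _).symm))
  have h1 : W.valuation F (algebraMap R F b) < 1 ↔ b ∈ W.asIdeal :=
    HeightOneSpectrum.valuation_lt_one_iff_mem W b
  rw [ord_ofHeightOneSpectrum, ← h1,
    ← log_lt_log ((Valuation.ne_zero_iff _).mpr hb') one_ne_zero, log_one]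
  omega

lemma ord_nonneg_algebraMap (W : HeightOneSpectrum R) (b : R) :
    0 ≤ (Place.ofHeightOneSpectrum (K := K) (F := F) W).ord (algebraMap R F b) :=
  ord_nonneg_of_mem _ (W.valuation_le_one b)

lemma ord_eq_zero_of_not_mem (W : HeightOneSpectrum R) {b : R} (hb : b ∉ W.asIdeal) :
    (Place.ofHeightOneSpectrum (K := K) (F := F) W).ord (algebraMap R F b) = 0 := by
  have hb0 : b ≠ 0 := fun h => hb (h ▸ W.asIdeal.zero_mem)
  have h1 := ord_nonneg_algebraMap (K := K) (F := F) W b
  have h2 := (ord_pos_iff_mem (K := K) (F := F) W hb0).not.mpr hb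
  omega

end Ded

section Poly

variable [Algebra K[X] F] [Algebra (RatFunc K) F] [IsScalarTower K[X] (RatFunc K) F]
  [IsScalarTower K K[X] F] [FiniteDimensional (RatFunc K) F] [IsAlgClosed K] [CharZero K]

local notation "𝓑" => FunctionField.ringOfIntegers K F

lemma exists_HOS (w : Place K F) (hw : 0 < w.ord (algebraMap K[X] F X)) :
    ∃ W : HeightOneSpectrum 𝓑, Place.ofHeightOneSpectrum (K := K) (F := F) W = w ∧
      W.asIdeal.comap (algebraMap K[X] 𝓑) = Ideal.span {(X : K[X])} := by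
  haveI := isMaximal_span_X (K := K)
  have hy0 : algebraMap K[X] F X ≠ 0 := by
    intro h; rw [h] at hw; simp at hw
  have hy : algebraMap K[X] F X ∈ w.toValuationSubring := (mem_iff_ord_nonneg w hy0).mpr hw.le
  obtain ⟨W, hW⟩ := exists_heightOneSpectrum (R := 𝓑) w (ringOfIntegers_le w hy)
  refine ⟨W, hW, ?_⟩
  have hmem : algebraMap K[X] 𝓑 X ∈ W.asIdeal := by
    rw [← ord_pos_iff_mem (K := K) (F := F) W algebraMap_X_ne_zero, hW]
    exact hw
  symm
  refine Ideal.IsMaximal.eq_of_le inferInstance ?_ ?_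
  · exact (Ideal.comap_isPrime _ _).ne_top
  · rw [Ideal.span_singleton_le_iff_mem]
    exact hmem

theorem exists_avoid_aux (v : Place K F) (hv : 0 < v.ord (algebraMap K[X] F X))
    (s : Finset (Place K F)) (hs : ∀ w ∈ s, 0 < w.ord (algebraMap K[X] F X)) (hvs : v ∉ s) :
    ∃ f : F, f ≠ 0 ∧ 0 < v.ord f ∧ (∀ w ∈ s, w.ord f = 0) ∧
      ∀ w : Place K F, 0 < w.ord (algebraMap K[X] F X) →
        0 < w.ord (algebraMap (RatFunc K) F (Algebra.norm (RatFunc K) f)) := by
  classical
  haveI := isTorsionFree_ringOfIntegers (K := K) (F := F)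
  obtain ⟨V, hV, hVX⟩ := exists_HOS v hv
  let P : Place K F → Ideal 𝓑 := fun w =>
    if h : 0 < w.ord (algebraMap K[X] F X) then (exists_HOS w h).choose.asIdeal else ⊤
  have hP : ∀ w ∈ s, ∃ W : HeightOneSpectrum 𝓑,
      Place.ofHeightOneSpectrum (K := K) (F := F) W = w ∧ P w = W.asIdeal := by
    intro w hw
    refine ⟨(exists_HOS w (hs w hw)).choose, (exists_HOS w (hs w hw)).choose_spec.1, ?_⟩
    simp only [P, dif_pos (hs w hw)]
  -- Claim 1
  obtain ⟨b, hb0, hbV, hbs⟩ : ∃ b : 𝓑, b ≠ 0 ∧ b ∈ V.asIdeal ∧ ∀ w ∈ s, b ∉ P w := by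
    rcases s.eq_empty_or_nonempty with rfl | ⟨w₀, hw₀⟩
    · refine ⟨algebraMap K[X] 𝓑 X, algebraMap_X_ne_zero, ?_, by simp⟩
      rw [← ord_pos_iff_mem (K := K) (F := F) V algebraMap_X_ne_zero, hV]
      exact hv
    · have hnot : ¬ ((V.asIdeal : Set 𝓑) ⊆ ⋃ w ∈ (↑s : Set (Place K F)), P w) := by
        rw [Ideal.subset_union_prime w₀ w₀ (fun w hw _ _ => by
          obtain ⟨W, -, hW⟩ := hP w hw
          rw [hW]; exact W.isPrime)]
        rintro ⟨w, hw, hle⟩
        obtain ⟨W, hWw, hW⟩ := hP w hw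
        rw [hW] at hle
        have heq : V.asIdeal = W.asIdeal := V.isMaximal.eq_of_le W.isPrime.ne_top hle
        have : V = W := HeightOneSpectrum.ext heq
        apply hvs
        rw [← hV, this, hWw]
        exact hw
      rw [Set.not_subset] at hnot
      obtain ⟨b, hbV, hb⟩ := hnot
      simp only [Set.mem_iUnion, not_exists] at hb
      refine ⟨b, ?_, hbV, fun w hw => hb w hw⟩
      rintro rfl
      exact hb w₀ hw₀ (P w₀).zero_mem
  refine ⟨algebraMap 𝓑 F b, ?_, ?_, ?_, ?_⟩
  · intro h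
    exact hb0 ((IsFractionRing.injective 𝓑 F) (h.trans (map_zero _).symm))
  · rw [← hV, ord_pos_iff_mem V hb0]
    exact hbV
  · intro w hw
    obtain ⟨W, hWw, hW⟩ := hP w hw
    rw [← hWw]
    apply ord_eq_zero_of_not_mem
    rw [← hW]
    exact hbs w hw
  · intro w hw
    have hnorm := Algebra.algebraMap_intNorm (A := K[X]) (K := RatFunc K) (L := F) (B := 𝓑) b
    set n := Algebra.intNorm K[X] 𝓑 b with hn
    have hbF : algebraMap 𝓑 F b ≠ 0 := by
      intro h
      exact hb0 ((IsFractionRing.injective 𝓑 F) (h.trans (map_zero _).symm))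
    have hn0 : n ≠ 0 := by
      intro h0
      rw [h0, map_zero] at hnorm
      exact (Algebra.norm_ne_zero_iff.mpr hbF) hnorm.symm
    have hmem : algebraMap K[X] 𝓑 n ∈ V.asIdeal :=
      Ideal.mem_of_dvd _ (Algebra.dvd_algebraMap_intNorm_self K[X] 𝓑 b) hbV
    have hX : n ∈ Ideal.span {(X : K[X])} := by
      rw [← hVX]; exact hmem
    rw [Ideal.mem_span_singleton] at hX
    obtain ⟨m, hm⟩ := hX
    have hm0 : m ≠ 0 := by
      rintro rfl; simp at hm; exact hn0 hm
    rw [← hnorm, ← IsScalarTower.algebraMap_apply K[X] (RatFunc K) F, hm, map_mul]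
    have hinj : Function.Injective (algebraMap K[X] F) := FunctionField.algebraMap_injective K F
    have hX0 : algebraMap K[X] F X ≠ 0 := by
      intro h; rw [h] at hw; simp at hw
    have hmF : algebraMap K[X] F m ≠ 0 := fun h => hm0 (hinj (h.trans (map_zero _).symm))
    rw [w.ord_mul hX0 hmF]
    have h2 : 0 ≤ w.ord (algebraMap K[X] F m) := by
      apply ord_nonneg_of_mem
      rw [algebraMap_eq_aeval]
      exact aeval_mem w ((mem_iff_ord_nonneg w hX0).mpr hw.le) m
    omega

end Poly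

/-- Variant of `with_ratFunc` which also compares the norms. -/
theorem with_ratFunc' {x : F} (hx : Transcendental K x) [FiniteDimensional K⟮x⟯ F] {P : Prop}
    (h : ∀ (_ : Algebra K[X] F) (_ : Algebra (RatFunc K) F)
      (_ : IsScalarTower K[X] (RatFunc K) F) (_ : IsScalarTower K K[X] F)
      (_ : FiniteDimensional (RatFunc K) F),
      algebraMap K[X] F X = x →
      (∀ f : F, algebraMap (RatFunc K) F (Algebra.norm (RatFunc K) f)
        = algebraMap K⟮x⟯ F (Algebra.norm K⟮x⟯ f)) → P) : P := by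
  letI a1 : Algebra K[X] F := (aeval x : K[X] →ₐ[K] F).toRingHom.toAlgebra
  let i : RatFunc K ≃+* K⟮x⟯ := (RatFunc.algEquivOfTranscendental x hx).toRingEquiv
  letI a2 : Algebra (RatFunc K) F := ((algebraMap K⟮x⟯ F).comp i.toRingHom).toAlgebra
  haveI t1 : IsScalarTower K[X] (RatFunc K) F := IsScalarTower.of_algebraMap_eq fun P => by
    show aeval x P = ((RatFunc.algEquivOfTranscendental x hx (algebraMap _ _ P) : K⟮x⟯) : F)
    rw [RatFunc.algEquivOfTranscendental_algebraMap]
    have := aeval_algebraMap_apply F (AdjoinSimple.gen K x) P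
    rw [AdjoinSimple.algebraMap_gen] at this
    exact this
  haveI t2 : IsScalarTower K K[X] F := IsScalarTower.of_algebraMap_eq fun a => by
    show algebraMap K F a = aeval x (C a)
    simp
  have hc : (algebraMap K⟮x⟯ F).comp (i : RatFunc K →+* K⟮x⟯)
      = ((RingEquiv.refl F : F ≃+* F) : F →+* F).comp (algebraMap (RatFunc K) F) := by
    ext x; rfl
  haveI fd : FiniteDimensional (RatFunc K) F :=
    Module.Finite.of_equiv_equiv i.symm (RingEquiv.refl F) (by
      ext z
      show algebraMap K⟮x⟯ F (i (i.symm z)) = algebraMap K⟮x⟯ F z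
      rw [RingEquiv.apply_symm_apply])
  have hX : algebraMap K[X] F X = x := by
    show aeval x X = x
    simp
  refine h a1 a2 t1 t2 fd hX fun f => ?_
  rw [Algebra.norm_eq_of_equiv_equiv i (RingEquiv.refl F) hc f]
  show algebraMap K⟮x⟯ F (i (i.symm _)) = _
  rw [RingEquiv.apply_symm_apply]
  rfl

lemma norm_congr {E E' : IntermediateField K F} (h : E = E') (f : F) :
    algebraMap E F (Algebra.norm E f) = algebraMap E' F (Algebra.norm E' f) := by
  subst h; rfl

end FF

variable [IsAlgClosed K] [CharZero K]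

/-- A5 (for a local parameter `u` of `K(u)`): an element vanishing at `v`, a unit at the finitely
many other given zeros of `u`, whose norm vanishes at all the zeros of `u`. -/
theorem exists_avoid (u : F) (hu : Transcendental K u) [FiniteDimensional K⟮u⟯ F]
    (v : AlgebraicCurve.Place K F) (hv : 0 < v.ord u) (s : Finset (AlgebraicCurve.Place K F))
    (hs : ∀ w ∈ s, 0 < w.ord u) (hvs : v ∉ s) :
    ∃ f : F, f ≠ 0 ∧ 0 < v.ord f ∧ (∀ w ∈ s, w.ord f = 0) ∧
      ∀ w : AlgebraicCurve.Place K F, 0 < w.ord u →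
        0 < w.ord (algebraMap K⟮u⟯ F (Algebra.norm K⟮u⟯ f)) := by
  refine FF.with_ratFunc' hu fun a1 a2 t1 t2 fd hX hN => ?_
  subst hX
  obtain ⟨f, h1, h2, h3, h4⟩ := FF.exists_avoid_aux v hv s hs hvs
  exact ⟨f, h1, h2, h3, fun w hw => by rw [← hN]; exact h4 w hw⟩

/-- A5, at a finite value `c` of `x`. -/
theorem exists_avoid_sub (x : F) (hx : Transcendental K x) [FiniteDimensional K⟮x⟯ F] (c : K)
    (v : AlgebraicCurve.Place K F) (hv : 0 < v.ord (x - algebraMap K F c))
    (s : Finset (AlgebraicCurve.Place K F))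
    (hs : ∀ w ∈ s, 0 < w.ord (x - algebraMap K F c)) (hvs : v ∉ s) :
    ∃ f : F, f ≠ 0 ∧ 0 < v.ord f ∧ (∀ w ∈ s, w.ord f = 0) ∧
      ∀ w : AlgebraicCurve.Place K F, 0 < w.ord (x - algebraMap K F c) →
        0 < w.ord (algebraMap K⟮x⟯ F (Algebra.norm K⟮x⟯ f)) := by
  haveI := isFF x hx
  haveI := FF.finiteDimensional_adjoin (FF.transcendental_sub_const hx c)
  obtain ⟨f, h1, h2, h3, h4⟩ := exists_avoid _ (FF.transcendental_sub_const hx c) v hv s hs hvs
  exact ⟨f, h1, h2, h3, fun w hw => by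
    rw [← FF.norm_congr (FF.adjoin_sub_const x c)]; exact h4 w hw⟩

/-- A5, at the poles of `x`. -/
theorem exists_avoid_inv (x : F) (hx : Transcendental K x) [FiniteDimensional K⟮x⟯ F]
    (v : AlgebraicCurve.Place K F) (hv : 0 < v.ord x⁻¹)
    (s : Finset (AlgebraicCurve.Place K F))
    (hs : ∀ w ∈ s, 0 < w.ord x⁻¹) (hvs : v ∉ s) :
    ∃ f : F, f ≠ 0 ∧ 0 < v.ord f ∧ (∀ w ∈ s, w.ord f = 0) ∧
      ∀ w : AlgebraicCurve.Place K F, 0 < w.ord x⁻¹ →
        0 < w.ord (algebraMap K⟮x⟯ F (Algebra.norm K⟮x⟯ f)) := by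
  haveI := isFF x hx
  haveI := FF.finiteDimensional_adjoin (FF.transcendental_inv hx)
  obtain ⟨f, h1, h2, h3, h4⟩ := exists_avoid _ (FF.transcendental_inv hx) v hv s hs hvs
  exact ⟨f, h1, h2, h3, fun w hw => by
    rw [← FF.norm_congr (FF.adjoin_inv x)]; exact h4 w hw⟩

/-- the separation property used in the fibre theorem -/
def SepProp (K : Type*) {F : Type*} [Field K] [Field F] [Algebra K F] (x u : F) : Prop :=
  ∀ v : AlgebraicCurve.Place K F, 0 < v.ord u → ∀ s : Finset (AlgebraicCurve.Place K F),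
    (∀ w ∈ s, 0 < w.ord u) → v ∉ s →
    ∃ f : F, f ≠ 0 ∧ 0 < v.ord f ∧ (∀ w ∈ s, w.ord f = 0) ∧
      ∀ w : AlgebraicCurve.Place K F, 0 < w.ord u →
        0 < w.ord (algebraMap K⟮x⟯ F (Algebra.norm K⟮x⟯ f))

theorem sepProp_zeros (x : F) (hx : Transcendental K x) [FiniteDimensional K⟮x⟯ F] (c : K) :
    SepProp K x (x - algebraMap K F c) :=
  fun v hv s hs hvs => exists_avoid_sub x hx c v hv s hs hvs

theorem sepProp_poles (x : F) (hx : Transcendental K x) [FiniteDimensional K⟮x⟯ F] :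
    SepProp K x x⁻¹ :=
  fun v hv s hs hvs => exists_avoid_inv x hx v hv s hs hvs

end Fermat.Agent.S24
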