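import Fermat.Agent.S24.FFMain

set_option autoImplicit false
set_option linter.unusedSectionVars false
set_option linter.style.haveILetI false

/-!
# S24, package A4: `Ω[F⁄K]` is spanned by `D t` for every non-constant `t`
-/

namespace Fermat.Agent.S24

open AlgebraicCurve Polynomial IntermediateField KaehlerDifferential

variable {K F : Type*} [Field K] [Field F] [Algebra K F]

namespace FF

/-- the elements whose differential is a multiple of a given differential form a subfield -/
noncomputable def diffField (ω : Ω[F⁄K]) : IntermediateField K F where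
  carrier := {a | D K F a ∈ Submodule.span F {ω}}
  mul_mem' := by
    intro a b ha hb
    simp only [Set.mem_ofPred_eq] at ha hb ⊢
    rw [Derivation.leibniz]
    exact add_mem (Submodule.smul_mem _ _ hb) (Submodule.smul_mem _ _ ha)
  add_mem' := by
    intro a b ha hb
    simp only [Set.mem_ofPred_eq] at ha hb ⊢
    rw [map_add]
    exact add_mem ha hb
  algebraMap_mem' := by
    intro r
    simp only [Set.mem_ofPred_eq, Derivation.map_algebraMap]
    exact zero_mem _
  inv_mem' := by
    intro a ha
    simp only [Set.mem_ofPred_eq] at ha ⊢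
    rw [Derivation.leibniz_inv]
    exact Submodule.smul_mem _ _ ha

lemma mem_diffField {ω : Ω[F⁄K]} {a : F} :
    a ∈ diffField ω ↔ D K F a ∈ Submodule.span F {ω} := Iff.rfl

lemma D_aeval_sub_mem (ω : Ω[F⁄K]) (f : F) (q : (diffField ω)[X]) :
    D K F (aeval f q) - aeval f (derivative q) • D K F f ∈ Submodule.span F {ω} := by
  induction q using Polynomial.induction_on' with
  | add p q hp hq =>
    have : D K F (aeval f (p + q)) - aeval f (derivative (p + q)) • D K F f
        = (D K F (aeval f p) - aeval f (derivative p) • D K F f)
          + (D K F (aeval f q) - aeval f (derivative q) • D K F f) := by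
      simp only [map_add, add_smul]
      abel
    rw [this]
    exact add_mem hp hq
  | monomial n a =>
    have h1 : aeval f (monomial n a) = (a : F) * f ^ n := by
      rw [aeval_monomial]; rfl
    have h2 : aeval f (derivative (monomial n a)) = (a : F) * n * f ^ (n - 1) := by
      rw [derivative_monomial, aeval_monomial, map_mul, map_natCast]; rfl
    rw [h1, h2, Derivation.leibniz, Derivation.leibniz_pow]
    have : (a : F) • n • f ^ (n - 1) • D K F f + f ^ n • D K F (a : F)
        - ((a : F) * n * f ^ (n - 1)) • D K F f = f ^ n • D K F (a : F) := by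
      rw [← Nat.cast_smul_eq_nsmul F n, smul_smul, smul_smul]
      abel
    rw [this]
    exact Submodule.smul_mem _ _ a.2

/-- `diffField ω` is (separably) algebraically closed in `F` -/
lemma mem_diffField_of_isAlgebraic [CharZero K] (ω : Ω[F⁄K]) {f : F}
    (hf : IsAlgebraic (diffField ω) f) : f ∈ diffField ω := by
  have hint : IsIntegral (diffField ω) f := hf.isIntegral
  have hsep : (minpoly (diffField ω) f).Separable := (minpoly.irreducible hint).separable
  have hne : aeval f (derivative (minpoly (diffField ω) f)) ≠ 0 :=
    hsep.aeval_derivative_ne_zero (minpoly.aeval _ f)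
  have h := D_aeval_sub_mem ω f (minpoly (diffField ω) f)
  rw [minpoly.aeval, map_zero, zero_sub] at h
  have h2 := Submodule.smul_mem _ (-(aeval f (derivative (minpoly (diffField ω) f)))⁻¹) h
  rw [smul_neg, neg_smul, neg_neg, smul_smul, inv_mul_cancel₀ hne, one_smul] at h2
  exact h2

end FF

/-- A4 -/
theorem span_D_eq_top [IsAlgClosed K] [CharZero K] (x : F) (hx : Transcendental K x)
    [FiniteDimensional K⟮x⟯ F] (t : F) (ht : t ∉ Set.range (algebraMap K F)) :
    Submodule.span F {KaehlerDifferential.D K F t} = ⊤ := by
  haveI := isFF x hx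
  have htr : Transcendental K t := by
    intro halg
    obtain ⟨c, hc⟩ := FF.exists_const_of_isAlgebraic halg
    exact ht ⟨c, hc.symm⟩
  haveI := FF.finiteDimensional_adjoin htr
  have hle : K⟮t⟯ ≤ FF.diffField (D K F t) := by
    rw [adjoin_simple_le_iff]
    exact Submodule.mem_span_singleton_self _
  have hall : ∀ f : F, f ∈ FF.diffField (D K F t) := by
    intro f
    apply FF.mem_diffField_of_isAlgebraic
    have h1 : IsAlgebraic K⟮t⟯ f := Algebra.IsAlgebraic.isAlgebraic f
    obtain ⟨p, hp, hpf⟩ := h1
    refine ⟨p.map (inclusion hle).toRingHom, ?_, ?_⟩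
    · rwa [Ne, Polynomial.map_eq_zero]
    · rw [aeval_def, eval₂_map]
      exact hpf
  rw [eq_top_iff, ← KaehlerDifferential.span_range_derivation, Submodule.span_le]
  rintro _ ⟨f, rfl⟩
  exact hall f

end Fermat.Agent.S24
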