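import Fermat.Agent.S24.FFDed

set_option autoImplicit false
set_option linter.unusedSectionVars false
set_option linter.style.haveILetI false

/-!
# S24, general function fields: the zeros of a function, counted with multiplicity
-/

namespace Fermat.Agent.S24

open AlgebraicCurve IsDedekindDomain WithZero Polynomial

variable {K F : Type*} [Field K] [Field F] [Algebra K F]

namespace FF

/-- the valuation ring of a place is integrally closed in `F`, relative version -/
lemma mem_of_isIntegralElem (v : Place K F) {A : Type*} [CommRing A] (φ : A →+* F)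
    (hφ : ∀ a, φ a ∈ v.toValuationSubring) {b : F} (hb : φ.IsIntegralElem b) :
    b ∈ v.toValuationSubring := by
  let g : A →+* v.toValuationSubring := φ.codRestrict v.toValuationSubring.toSubring hφ
  have hcomp : φ = (algebraMap v.toValuationSubring F).comp g := by
    ext a; rfl
  rw [hcomp] at hb
  have h2 : IsIntegral v.toValuationSubring b := RingHom.IsIntegralElem.of_comp hb
  obtain ⟨y, hy⟩ := IsIntegrallyClosed.isIntegral_iff.mp h2
  rw [← hy]
  exact y.2

lemma aeval_mem (v : Place K F) {y : F} (hy : y ∈ v.toValuationSubring) (P : K[X]) :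
    aeval y P ∈ v.toValuationSubring := by
  induction P using Polynomial.induction_on' with
  | add p q hp hq => rw [map_add]; exact v.toValuationSubring.add_mem _ _ hp hq
  | monomial n a =>
    rw [aeval_monomial]
    exact v.toValuationSubring.mul_mem _ _ (v.algebraMap_mem' a) (v.toValuationSubring.pow_mem hy n)

section Poly

variable [Algebra K[X] F] [Algebra (RatFunc K) F] [IsScalarTower K[X] (RatFunc K) F]
  [IsScalarTower K K[X] F] [FiniteDimensional (RatFunc K) F]

lemma algebraMap_eq_aeval (P : K[X]) : algebraMap K[X] F P = aeval (algebraMap K[X] F X) P := by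
  rw [aeval_algebraMap_apply, aeval_X_left_apply]

local notation "𝓑" => FunctionField.ringOfIntegers K F

lemma isTorsionFree_ringOfIntegers : Module.IsTorsionFree K[X] 𝓑 :=
  Module.isTorsionFree_iff_algebraMap_injective.mpr
    (FunctionField.ringOfIntegers.algebraMap_injective K F)

lemma isMaximal_span_X : (Ideal.span {(X : K[X])}).IsMaximal :=
  PrincipalIdealRing.isMaximal_of_irreducible Polynomial.irreducible_X

lemma ringOfIntegers_le (v : Place K F) (hy : algebraMap K[X] F X ∈ v.toValuationSubring)
    (b : 𝓑) : algebraMap 𝓑 F b ∈ v.toValuationSubring := by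
  refine mem_of_isIntegralElem v (algebraMap K[X] F) (fun P => ?_) b.2
  rw [algebraMap_eq_aeval]
  exact aeval_mem v hy P

variable [IsAlgClosed K] [CharZero K]

/-- the inertia degree of a prime over `(X)` is one, as `K` is algebraically closed -/
lemma inertiaDeg_eq_one (q : Ideal 𝓑) [q.IsPrime] [q.LiesOver (Ideal.span {(X : K[X])})] :
    q.inertiaDeg K[X] = 1 := by
  haveI := isMaximal_span_X (K := K)
  haveI : q.IsMaximal := Ideal.IsMaximal.of_liesOver_isMaximal q (Ideal.span {(X : K[X])})
  rw [Ideal.inertiaDeg_eq_of_isMaximal (Ideal.span {(X : K[X])}) q]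
  letI : Field (K[X] ⧸ Ideal.span {(X : K[X])}) := Ideal.Quotient.field _
  letI : Field (𝓑 ⧸ q) := Ideal.Quotient.field _
  -- `K[X] ⧸ (X)` is algebraically closed
  have hsurj : Function.Surjective (algebraMap K (K[X] ⧸ Ideal.span {(X : K[X])})) := by
    intro z
    obtain ⟨P, rfl⟩ := Ideal.Quotient.mk_surjective z
    refine ⟨P.coeff 0, ?_⟩
    rw [IsScalarTower.algebraMap_apply K K[X] (K[X] ⧸ Ideal.span {(X : K[X])}),
      Ideal.Quotient.algebraMap_eq, Ideal.Quotient.eq, Ideal.mem_span_singleton,
      Polynomial.algebraMap_eq, X_dvd_iff]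
    simp
  let e : K ≃+* (K[X] ⧸ Ideal.span {(X : K[X])}) :=
    RingEquiv.ofBijective (algebraMap K (K[X] ⧸ Ideal.span {(X : K[X])}))
      ⟨(algebraMap K (K[X] ⧸ Ideal.span {(X : K[X])})).injective, hsurj⟩
  haveI : IsAlgClosed (K[X] ⧸ Ideal.span {(X : K[X])}) := IsAlgClosed.of_ringEquiv _ _ e
  haveI : Module.Finite (K[X] ⧸ Ideal.span {(X : K[X])}) (𝓑 ⧸ q) := inferInstance
  have hbij := IsAlgClosed.algebraMap_bijective_of_isIntegral
    (k := K[X] ⧸ Ideal.span {(X : K[X])}) (K := 𝓑 ⧸ q)
  have := (LinearEquiv.ofBijective (Algebra.linearMap (K[X] ⧸ Ideal.span {(X : K[X])}) (𝓑 ⧸ q))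
    hbij).finrank_eq
  rw [← this, Module.finrank_self]

lemma algebraMap_X_ne_zero : algebraMap K[X] 𝓑 X ≠ 0 := by
  intro h
  have := FunctionField.ringOfIntegers.algebraMap_injective K F (h.trans (map_zero _).symm)
  exact X_ne_zero this

lemma map_span_X : (Ideal.span {(X : K[X])}).map (algebraMap K[X] 𝓑)
    = Ideal.span {algebraMap K[X] 𝓑 X} := by
  rw [Ideal.map_span, Set.image_singleton]

lemma map_span_X_ne_bot : (Ideal.span {(X : K[X])}).map (algebraMap K[X] 𝓑) ≠ ⊥ := by
  rw [map_span_X, Ne, Ideal.span_singleton_eq_bot]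
  exact algebraMap_X_ne_zero

/-- the height one prime attached to a prime over `(X)` -/
noncomputable def toHOS (q : (Ideal.span {(X : K[X])}).primesOver 𝓑) : HeightOneSpectrum 𝓑 :=
  ⟨q.1, q.2.1, by
    haveI := q.2.2
    exact ne_bot_of_le_ne_bot map_span_X_ne_bot
      (Ideal.map_le_of_le_comap (q.1.over_def (Ideal.span {(X : K[X])})).le)⟩

lemma ord_toHOS (q : (Ideal.span {(X : K[X])}).primesOver 𝓑) :
    (Place.ofHeightOneSpectrum (K := K) (F := F) (toHOS q)).ord (algebraMap K[X] F X)
      = (q.1.ramificationIdx K[X] : ℤ) := by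
  haveI := q.2.1
  haveI := q.2.2
  rw [ord_ofHeightOneSpectrum, IsScalarTower.algebraMap_apply K[X] 𝓑 F,
    HeightOneSpectrum.valuation_of_algebraMap,
    HeightOneSpectrum.intValuation_eq_exp_neg_multiplicity _ algebraMap_X_ne_zero, log_exp,
    Ideal.IsDedekindDomain.ramificationIdx_eq_multiplicity (Ideal.span {(X : K[X])}) q.1
      map_span_X_ne_bot, map_span_X]
  simp [toHOS]

/-- **Zeros of the coordinate function**, in the `K[X]`-algebra setting. -/
theorem exists_zeros_aux : ∃ s : Finset (Place K F),
    (∀ v, v ∈ s ↔ 0 < v.ord (algebraMap K[X] F X)) ∧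
      ∑ v ∈ s, v.ord (algebraMap K[X] F X) = (Module.finrank (RatFunc K) F : ℤ) := by
  classical
  haveI := isMaximal_span_X (K := K)
  haveI := isTorsionFree_ringOfIntegers (K := K) (F := F)
  haveI : Fintype ((Ideal.span {(X : K[X])}).primesOver 𝓑) :=
    (Algebra.QuasiFinite.finite_primesOver (Ideal.span {(X : K[X])})).fintype
  let e : (Ideal.span {(X : K[X])}).primesOver 𝓑 → Place K F :=
    fun q => Place.ofHeightOneSpectrum (K := K) (F := F) (toHOS q)
  have he : Function.Injective e := by
    intro q q' h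
    have := ofHeightOneSpectrum_injective h
    exact Subtype.ext (congrArg HeightOneSpectrum.asIdeal this)
  refine ⟨Finset.univ.map ⟨e, he⟩, fun v => ?_, ?_⟩
  · simp only [Finset.mem_map, Finset.mem_univ, true_and, Function.Embedding.coeFn_mk]
    constructor
    · rintro ⟨q, rfl⟩
      haveI := q.2.1
      rw [ord_toHOS]
      exact_mod_cast Ideal.ramificationIdx_pos q.1 K[X]
    · intro hv
      have hy0 : algebraMap K[X] F X ≠ 0 := by
        intro h; rw [h] at hv; simp at hv
      have hy : algebraMap K[X] F X ∈ v.toValuationSubring :=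
        (mem_iff_ord_nonneg v hy0).mpr hv.le
      obtain ⟨w, hw⟩ := exists_heightOneSpectrum (R := 𝓑) v (ringOfIntegers_le v hy)
      have hmem : algebraMap K[X] 𝓑 X ∈ w.asIdeal := by
        rw [← HeightOneSpectrum.valuation_lt_one_iff_mem (K := F)]
        change w.valuation F (algebraMap K[X] F X) < 1
        rw [← hw, ord_ofHeightOneSpectrum] at hv
        have h1 : log (w.valuation F (algebraMap K[X] F X)) < log (1 : ℤᵐ⁰) := by
          rw [log_one]; omega
        exact (log_lt_log ((Valuation.ne_zero_iff _).mpr hy0) one_ne_zero).mp h1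
      have hlies : w.asIdeal.LiesOver (Ideal.span {(X : K[X])}) := by
        constructor
        refine Ideal.IsMaximal.eq_of_le inferInstance ?_ ?_
        · exact (Ideal.comap_isPrime _ _).ne_top
        · rw [Ideal.span_singleton_le_iff_mem]
          exact hmem
      refine ⟨⟨w.asIdeal, w.isPrime, hlies⟩, ?_⟩
      rw [← hw]
      rfl
  · rw [Finset.sum_map]
    simp only [Function.Embedding.coeFn_mk, e, ord_toHOS]
    have h := Ideal.sum_ramification_inertia_eq_finrank (Ideal.span {(X : K[X])}) 𝓑
    have h2 : ∀ q : (Ideal.span {(X : K[X])}).primesOver 𝓑,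
        q.1.ramificationIdx K[X] * q.1.inertiaDeg K[X] = q.1.ramificationIdx K[X] := by
      intro q
      haveI := q.2.1
      haveI := q.2.2
      rw [inertiaDeg_eq_one, mul_one]
    simp only [h2] at h
    rw [IsFractionRing.finrank_eq K[X] (RatFunc K) 𝓑 F, ← h]
    push_cast
    rfl

end Poly

open IntermediateField in
/-- **Zeros of a non-constant function**: they are finite in number and, counted with
multiplicity, there are `[F : K(y)]` of them. -/
theorem exists_zeros [IsAlgClosed K] [CharZero K] {y : F} (hy : Transcendental K y)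
    [FiniteDimensional K⟮y⟯ F] : ∃ s : Finset (Place K F),
    (∀ v, v ∈ s ↔ 0 < v.ord y) ∧ ∑ v ∈ s, v.ord y = (Module.finrank K⟮y⟯ F : ℤ) := by
  letI a1 : Algebra K[X] F := (aeval y : K[X] →ₐ[K] F).toRingHom.toAlgebra
  let i : RatFunc K ≃+* K⟮y⟯ := (RatFunc.algEquivOfTranscendental y hy).toRingEquiv
  letI a2 : Algebra (RatFunc K) F := ((algebraMap K⟮y⟯ F).comp i.toRingHom).toAlgebra
  haveI t1 : IsScalarTower K[X] (RatFunc K) F := IsScalarTower.of_algebraMap_eq fun P => by
    show aeval y P = ((RatFunc.algEquivOfTranscendental y hy (algebraMap _ _ P) : K⟮y⟯) : F)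
    rw [RatFunc.algEquivOfTranscendental_algebraMap]
    have := aeval_algebraMap_apply F (AdjoinSimple.gen K y) P
    rw [AdjoinSimple.algebraMap_gen] at this
    exact this
  haveI t2 : IsScalarTower K K[X] F := IsScalarTower.of_algebraMap_eq fun a => by
    show algebraMap K F a = aeval y (C a)
    simp
  have hc : (algebraMap K⟮y⟯ F).comp i.toRingHom
      = (RingEquiv.refl F).toRingHom.comp (algebraMap (RatFunc K) F) := by
    ext x; rfl
  haveI fd : FiniteDimensional (RatFunc K) F :=
    Module.Finite.of_equiv_equiv i.symm (RingEquiv.refl F) (by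
      ext x
      show algebraMap K⟮y⟯ F (i (i.symm x)) = algebraMap K⟮y⟯ F x
      rw [RingEquiv.apply_symm_apply])
  have hfr : Module.finrank (RatFunc K) F = Module.finrank K⟮y⟯ F :=
    Algebra.finrank_eq_of_equiv_equiv i (RingEquiv.refl F) hc
  have hX : algebraMap K[X] F X = y := by
    show aeval y X = y
    simp
  have := exists_zeros_aux (K := K) (F := F)
  rwa [hX, hfr] at this

end FF

end Fermat.Agent.S24
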