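import Fermat.Agent.S24.Loc1

set_option autoImplicit false

/-!
# S24 : leading coefficients of meromorphic germs and iterated local maps
-/

namespace Fermat.Agent.S24

open Filter Topology

noncomputable section

namespace MerGerm

variable {x : ℂ}

/-- `c` is the leading coefficient of the germ `a`. -/
def IsLC (a : MerGerm x) (c : ℂ) : Prop :=
  ∃ (f : ℂ → ℂ) (hf : MeromorphicAt f x), a = mk f hf ∧
    Tendsto (fun z => (z - x) ^ (-a.ord) * f z) (𝓝[≠] x) (𝓝 c)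

lemma exists_isLC {a : MerGerm x} (ha : a ≠ 0) : ∃ c : ℂ, c ≠ 0 ∧ IsLC a c := by
  obtain ⟨f, hf, rfl⟩ := exists_mk a
  obtain ⟨g, hg, hg0, hfg⟩ := (meromorphicOrderAt_eq_int_iff hf).1 (coe_ord_mk ha).symm
  refine ⟨g x, hg0, f, hf, rfl, ?_⟩
  have h4 : Tendsto g (𝓝[≠] x) (𝓝 (g x)) := hg.continuousAt.tendsto.mono_left nhdsWithin_le_nhds
  refine h4.congr' ?_
  filter_upwards [hfg, eventually_mem_nhdsWithin] with z h1 h2
  have hz : z - x ≠ 0 := sub_ne_zero.2 h2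
  rw [h1, smul_eq_mul, ← mul_assoc, ← zpow_add₀ hz]
  simp

lemma IsLC.unique {a : MerGerm x} {c c' : ℂ} (h : IsLC a c) (h' : IsLC a c') : c = c' := by
  obtain ⟨f, hf, h1, h2⟩ := h
  obtain ⟨f', hf', h1', h2'⟩ := h'
  have h3 : f =ᶠ[𝓝[≠] x] f' := mk_eq_mk_iff.1 (h1.symm.trans h1')
  refine tendsto_nhds_unique (h2.congr' ?_) h2'
  filter_upwards [h3] with z hz
  rw [hz]

lemma IsLC.comp {ψ : ℂ → ℂ} (hψ : AnalyticAt ℂ ψ x) (hd : _root_.deriv ψ x ≠ 0)
    (hx : ψ x = x) {a : MerGerm x} {c : ℂ} (h : IsLC a c) :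
    IsLC (comp ψ hψ (not_eventuallyConst_of_deriv_ne_zero hd) hx a)
      (_root_.deriv ψ x ^ a.ord * c) := by
  obtain ⟨f, hf, rfl, h2⟩ := h
  have hnc := not_eventuallyConst_of_deriv_ne_zero hd
  refine ⟨f ∘ ψ, meromorphicAt_comp hψ hx hf, comp_mk hψ hnc hx hf, ?_⟩
  rw [ord_comp_of_deriv_ne_zero hψ hd hx]
  set n := (mk f hf).ord
  have ht := tendsto_nhdsNE hψ hnc hx
  have hs : Tendsto (slope ψ x) (𝓝[≠] x) (𝓝 (_root_.deriv ψ x)) :=
    hasDerivAt_iff_tendsto_slope.1 hψ.differentiableAt.hasDerivAt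
  have h3 := (hs.zpow₀ n (Or.inl hd)).mul (h2.comp ht)
  refine h3.congr' ?_
  filter_upwards [ht.eventually eventually_mem_nhdsWithin, eventually_mem_nhdsWithin] with z h4 h5
  have hz : z - x ≠ 0 := sub_ne_zero.2 h5
  have hz' : ψ z - x ≠ 0 := sub_ne_zero.2 h4
  simp only [Function.comp_apply]
  rw [slope_def_field, hx, div_zpow, zpow_neg, zpow_neg]
  field_simp

/-- A germ fixed by the `n`-th iterate of the composition with `ψ` (`ψ x = x`, `ψ'(x) = μ`)
has an order `k` with `μ ^ (n k) = 1`. -/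
theorem zpow_eq_one_of_iterate {ψ : ℂ → ℂ} (hψ : AnalyticAt ℂ ψ x) (hd : _root_.deriv ψ x ≠ 0)
    (hx : ψ x = x) {a : MerGerm x} (ha : a ≠ 0) (n : ℕ)
    (hinv : (comp ψ hψ (not_eventuallyConst_of_deriv_ne_zero hd) hx)^[n] a = a) :
    _root_.deriv ψ x ^ ((n : ℤ) * a.ord) = 1 := by
  obtain ⟨c, hc0, hc⟩ := exists_isLC ha
  set R := comp ψ hψ (not_eventuallyConst_of_deriv_ne_zero hd) hx
  have key : ∀ m : ℕ, (R^[m] a).ord = a.ord ∧
      IsLC (R^[m] a) (_root_.deriv ψ x ^ ((m : ℤ) * a.ord) * c) := by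
    intro m
    induction m with
    | zero => simpa using hc
    | succ m ih =>
      rw [Function.iterate_succ_apply']
      refine ⟨by rw [ord_comp_of_deriv_ne_zero hψ hd hx, ih.1], ?_⟩
      have := IsLC.comp hψ hd hx ih.2
      rw [ih.1, ← mul_assoc, ← zpow_add₀ hd] at this
      convert this using 2
      push_cast
      ring_nf
  have h1 := (key n).2
  rw [hinv] at h1
  have h2 := h1.unique hc
  exact mul_right_cancel₀ hc0 (by rw [h2, one_mul])

end MerGerm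

end

end Fermat.Agent.S24
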