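import Fermat.Agent.S24.Count
import Fermat.Agent.S24.CountDiff
import Fermat.Agent.S24.Loc1b
import Fermat.Agent.S24.FFZeros
import Fermat.Agent.S24.FFNorm
import Fermat.Agent.S24.FFOmega

set_option autoImplicit false

/-!
# S24 : the fibre theorem for embeddings into a field of meromorphic germs
-/

namespace Fermat.Agent.S24

open AlgebraicCurve IntermediateField KaehlerDifferential

namespace Loc

lemma ne_zero_of_transcendental {K F : Type*} [Field K] [Field F] [Algebra K F] {u : F}
    (hu : Transcendental K u) : u ≠ 0 := by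
  rintro rfl
  exact hu isAlgebraic_zero

section

variable {K F : Type*} [Field K] [IsAlgClosed K] [CharZero K] [Field F] [Algebra K F]
  (u : F) (hu : Transcendental K u) [FiniteDimensional K⟮u⟯ F]
  {p : ℂ} {X : Type*} [Fintype X] (σ : X → (F →+* MerGerm p)) (σ_inj : Function.Injective σ)
  (ι : K →+* ℂ) (σ_K : ∀ i c, σ i (algebraMap K F c) = MerGerm.const p (ι c))
  (σ_u : ∀ i i', σ i u = σ i' u) (hcard : Fintype.card X = Module.finrank K⟮u⟯ F)
  (e : ℕ) (he : 0 < e) (w_u : ∀ i, (σ i u).ord = e)

include hu σ_inj σ_K σ_u hcard he w_u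

/-- every place above `u = 0` is given by one of the embeddings -/
theorem exists_index (v : Place K F) (hv : 0 < v.ord u) :
    ∃ (i : X) (m : ℤ), 0 < m ∧ ∀ f : F, f ≠ 0 → (σ i f).ord = m * v.ord f :=
  Count.exists_index_of_place (K := K) u (ne_zero_of_transcendental hu) MerGerm.ord
    (fun _ _ ha hb => MerGerm.ord_mul ha hb) (fun _ _ ha hb hab => MerGerm.ord_add ha hb hab)
    σ σ_inj (fun i i' c => by rw [σ_K, σ_K]) σ_u hcard
    (fun i c _ => by rw [σ_K]; exact MerGerm.ord_const) e (by exact_mod_cast he) w_u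
    (fun v hv s hs hvs => exists_avoid u hu v hv s hs hvs) v hv

/-- the order of `u` at a place above `u = 0` divides `e` -/
theorem ord_dvd (v : Place K F) (hv : 0 < v.ord u) : v.ord u ∣ (e : ℤ) := by
  obtain ⟨i, m, -, h⟩ := exists_index u hu σ σ_inj ι σ_K σ_u hcard e he w_u v hv
  have := h u (ne_zero_of_transcendental hu)
  rw [w_u] at this
  exact ⟨m, by rw [this]; ring⟩

/-- orders of differentials at the places above `u = 0` -/
theorem ordDifferential_eq (v : Place K F) (hv : 0 < v.ord u) (t : F) (ht : v.ord t ≠ 0)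
    (g : F) (hg : g ≠ 0) : v.ordDifferential (g • D K F t) = v.ord g + v.ord t - 1 := by
  obtain ⟨i, m, hm, h⟩ := exists_index u hu σ σ_inj ι σ_K σ_u hcard e he w_u v hv
  exact Count.ordDifferential_smul_D MerGerm.ord (fun _ _ ha hb => MerGerm.ord_mul ha hb) (σ i)
    MerGerm.deriv MerGerm.deriv_add MerGerm.deriv_mul
    (fun c => by rw [σ_K]; exact MerGerm.deriv_const _)
    (fun a _ ha => ⟨MerGerm.deriv_ne_zero ha, MerGerm.ord_deriv ha⟩) v m hm h
    (fun t ht => span_D_eq_top u hu t ht) t ht g hg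

/-- `D t ≠ 0` as soon as `t` has a zero or a pole above `u = 0` -/
theorem D_ne_zero (v : Place K F) (hv : 0 < v.ord u) (t : F) (ht : v.ord t ≠ 0) :
    D K F t ≠ 0 := by
  obtain ⟨i, m, hm, h⟩ := exists_index u hu σ σ_inj ι σ_K σ_u hcard e he w_u v hv
  intro h0
  -- use the derivation `f ↦ (σ i f)'`
  let _ : Algebra F (MerGerm p) := (σ i).toAlgebra
  let _ : Algebra K (MerGerm p) := ((σ i).comp (algebraMap K F)).toAlgebra
  have : IsScalarTower K F (MerGerm p) := IsScalarTower.of_algebraMap_eq fun _ => rfl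
  have hsmul : ∀ (a : F) (b : MerGerm p), a • b = σ i a * b := fun _ _ => rfl
  have hsmulK : ∀ (c : K) (b : MerGerm p), c • b = σ i (algebraMap K F c) * b := fun _ _ => rfl
  let lin : F →ₗ[K] MerGerm p :=
    { toFun := fun f => (σ i f).deriv
      map_add' := fun a b => by rw [map_add, MerGerm.deriv_add]
      map_smul' := fun c a => by
        rw [Algebra.smul_def, map_mul, MerGerm.deriv_mul, σ_K, MerGerm.deriv_const, zero_mul,
          zero_add, RingHom.id_apply, hsmulK, σ_K] }
  let der : Derivation K F (MerGerm p) := Derivation.mk' lin fun a b => by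
    change (σ i (a * b)).deriv = a • (σ i b).deriv + b • (σ i a).deriv
    rw [map_mul, MerGerm.deriv_mul, hsmul, hsmul]
    ring
  have h1 : der.liftKaehlerDifferential (D K F t) = (σ i t).deriv :=
    der.liftKaehlerDifferential_comp_D t
  rw [h0, map_zero] at h1
  have ht0 : t ≠ 0 := by
    rintro rfl
    simp at ht
  exact MerGerm.deriv_ne_zero (a := σ i t) (by rw [h t ht0]; exact mul_ne_zero hm.ne' ht) h1.symm

variable (ψ : ℂ → ℂ) (hψ : AnalyticAt ℂ ψ p) (hd : deriv ψ p ≠ 0) (hp : ψ p = p)
  (hμ : IsPrimitiveRoot (deriv ψ p) e)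
  (ε : Equiv.Perm X)
  (hε : ∀ i f, σ (ε i) f
    = MerGerm.comp ψ hψ (MerGerm.not_eventuallyConst_of_deriv_ne_zero hd) hp (σ i f))

include hμ hε

/-- the number of places above `u = 0` is the number of orbits of `ε` -/
theorem card_places :
    Nat.card {v : Place K F // 0 < v.ord u}
      = Nat.card (MulAction.orbitRel.Quotient (Subgroup.zpowers ε) X) := by
  classical
  obtain ⟨s, hs, hsum⟩ := FF.exists_zeros hu
  have hfin : Finite {v : Place K F // 0 < v.ord u} :=
    Finite.of_equiv s (Equiv.subtypeEquivRight hs)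
  set R := MerGerm.comp ψ hψ (MerGerm.not_eventuallyConst_of_deriv_ne_zero hd) hp with hR
  refine Count.card_places (K := K) u (ne_zero_of_transcendental hu) MerGerm.ord
    (fun _ _ ha hb => MerGerm.ord_mul ha hb) (fun _ _ ha hb hab => MerGerm.ord_add ha hb hab)
    σ σ_inj (fun i i' c => by rw [σ_K, σ_K]) σ_u hcard
    (fun i c _ => by rw [σ_K]; exact MerGerm.ord_const) e (by exact_mod_cast he) w_u
    (fun v hv s hs hvs => exists_avoid u hu v hv s hs hvs) ε ?_ ?_ hfin ?_
  · intro i f
    rw [hε]
    exact MerGerm.ord_comp_of_deriv_ne_zero hψ hd hp _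
  · intro i f hf
    have hiter : ∀ n : ℕ, σ (ε^[n] i) f = R^[n] (σ i f) := by
      intro n
      induction n with
      | zero => rfl
      | succ n ih => rw [Function.iterate_succ_apply', Function.iterate_succ_apply', hε, ih]
    have h1 := hiter (Function.minimalPeriod ε i)
    rw [Function.iterate_minimalPeriod] at h1
    have h2 := MerGerm.zpow_eq_one_of_iterate hψ hd hp ((map_ne_zero (σ i)).2 hf) _ h1.symm
    rw [hμ.zpow_eq_one_iff_dvd] at h2
    rwa [mul_comm]
  · rw [← hsum, finsum_subtype_eq_finsum_cond (f := fun v : Place K F => v.ord u)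
      (fun v : Place K F => 0 < v.ord u)]
    change ∑ᶠ v ∈ {v : Place K F | 0 < v.ord u}, v.ord u = _
    have e1 : {v : Place K F | 0 < v.ord u} = ↑s := by
      ext v
      simp [hs]
    rw [e1, finsum_mem_coe_finset]

end

end Loc

end Fermat.Agent.S24
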