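import Fermat.Agent.S24.Loc2
import Fermat.Agent.S24.Loc3
import Fermat.Agent.S24.Sigma
import Fermat.Agent.S24.JFunOrd
import Fermat.Agent.S24.FFMain

set_option autoImplicit false

/-!
# S24 : the fibres of `j` over the points of the affine line
-/

namespace Fermat.Agent.S24

open AlgebraicCurve IntermediateField KaehlerDifferential UpperHalfPlane CongruenceSubgroup
open Fermat.Agent.S21 (Umat)
open scoped MatrixGroups

noncomputable section

namespace Loc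

/-- the embeddings `FF N → MerGerm τ₀` attached to the cosets -/
def sigmaAt (N : ℕ) (τ₀ : ℍ) (c : SL(2, ℤ) ⧸ Gamma0 N) : FF N →+* MerGerm (τ₀ : ℂ) :=
  (germAt τ₀).comp (sigmaQ N c)

lemma sigmaAt_apply (N : ℕ) (τ₀ : ℍ) (c : SL(2, ℤ) ⧸ Gamma0 N) (x : FF N) :
    sigmaAt N τ₀ c x = germAt τ₀ (sigmaQ N c x) := rfl

lemma sigmaAt_injective (N : ℕ) [NeZero N] (τ₀ : ℍ) : Function.Injective (sigmaAt N τ₀) := by
  intro c c' h
  apply sigmaQ_injective N
  ext x
  apply (germAt τ₀).injective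
  exact congrArg (fun φ : FF N →+* MerGerm (τ₀ : ℂ) => φ x) h

lemma sigmaAt_const (N : ℕ) (τ₀ : ℍ) (c : SL(2, ℤ) ⧸ Gamma0 N) (a : Kb) :
    sigmaAt N τ₀ c (algebraMap Kb (FF N) a) = MerGerm.const (τ₀ : ℂ) (iotaC a) := by
  rw [sigmaAt_apply, sigmaQ_const, germAt_toMer]
  rfl

lemma sigmaAt_jF (N : ℕ) (τ₀ : ℍ) (c : SL(2, ℤ) ⧸ Gamma0 N) :
    sigmaAt N τ₀ c (jF N) = holGerm τ₀ jHol := by
  rw [sigmaAt_apply, sigmaQ_jF, germAt_toMer]

lemma sigmaAt_smul (N : ℕ) (τ₀ : ℍ) (s : SL(2, ℤ)) (hs : s⁻¹ • τ₀ = τ₀)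
    (c : SL(2, ℤ) ⧸ Gamma0 N) (x : FF N) :
    sigmaAt N τ₀ (s • c) x = moebGerm s⁻¹ hs (sigmaAt N τ₀ c x) := by
  rw [sigmaAt_apply, sigmaQ_smul, germAt_act s hs]
  rfl

lemma sigmaAt_sub (N : ℕ) (τ₀ : ℍ) (c : SL(2, ℤ) ⧸ Gamma0 N) (a : Kb) :
    sigmaAt N τ₀ c (jF N - algebraMap Kb (FF N) a)
      = holGerm τ₀ (jHol - algebraMap ℂ Hol (iotaC a)) := by
  rw [map_sub, map_sub, sigmaAt_jF, sigmaAt_apply, sigmaQ_const, germAt_toMer]

lemma ord_sigmaAt_sub (N : ℕ) (τ₀ : ℍ) (c : SL(2, ℤ) ⧸ Gamma0 N) (a : Kb)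
    (hτ : jfun τ₀ = iotaC a) {e : ℕ}
    (hord : analyticOrderAt (fun z : ℂ => jfun (ofComplex z) - jfun τ₀) (τ₀ : ℂ) = e) :
    (sigmaAt N τ₀ c (jF N - algebraMap Kb (FF N) a)).ord = e := by
  rw [sigmaAt_sub]
  apply ord_holGerm
  rw [← hord, hτ]
  rfl

section

variable (N : ℕ) [NeZero N] [FiniteDimensional Kb⟮jF N⟯ (FF N)]
  (hdeg : Module.finrank Kb⟮jF N⟯ (FF N) = (Gamma0 N).index)

instance finiteDimensional_sub (a : Kb) :
    FiniteDimensional Kb⟮jF N - algebraMap Kb (FF N) a⟯ (FF N) := by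
  rw [FF.adjoin_sub_const]
  infer_instance

local instance fintypeCosets : Fintype (SL(2, ℤ) ⧸ Gamma0 N) := Fintype.ofFinite _

include hdeg

omit [FiniteDimensional Kb⟮jF N⟯ (FF N)] in
lemma card_cosets (a : Kb) : Fintype.card (SL(2, ℤ) ⧸ Gamma0 N)
    = Module.finrank Kb⟮jF N - algebraMap Kb (FF N) a⟯ (FF N) := by
  rw [FF.finrank_congr (FF.adjoin_sub_const (jF N) a), hdeg, Subgroup.index,
    Nat.card_eq_fintype_card]

variable (a : Kb) (τ₀ : ℍ) (hτ : jfun τ₀ = iotaC a) (e : ℕ) (he : 0 < e)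
  (hord : analyticOrderAt (fun z : ℂ => jfun (ofComplex z) - jfun τ₀) (τ₀ : ℂ) = e)

include hτ he hord

theorem interior_ord_dvd (v : Place Kb (FF N)) (hv : 0 < v.ord (jF N - algebraMap Kb (FF N) a)) :
    v.ord (jF N - algebraMap Kb (FF N) a) ∣ (e : ℤ) :=
  ord_dvd (jF N - algebraMap Kb (FF N) a) (FF.transcendental_sub_const (transcendental_jF N) a)
    (sigmaAt N τ₀) (sigmaAt_injective N τ₀) iotaC (sigmaAt_const N τ₀)
    (fun i i' => by rw [sigmaAt_sub, sigmaAt_sub]) (card_cosets N hdeg a) e he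
    (fun i => ord_sigmaAt_sub N τ₀ i a hτ hord) v hv

theorem interior_ordDifferential (v : Place Kb (FF N))
    (hv : 0 < v.ord (jF N - algebraMap Kb (FF N) a)) (t : FF N) (ht : v.ord t ≠ 0)
    (g : FF N) (hg : g ≠ 0) :
    v.ordDifferential (g • D Kb (FF N) t) = v.ord g + v.ord t - 1 :=
  ordDifferential_eq (jF N - algebraMap Kb (FF N) a)
    (FF.transcendental_sub_const (transcendental_jF N) a)
    (sigmaAt N τ₀) (sigmaAt_injective N τ₀) iotaC (sigmaAt_const N τ₀)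
    (fun i i' => by rw [sigmaAt_sub, sigmaAt_sub]) (card_cosets N hdeg a) e he
    (fun i => ord_sigmaAt_sub N τ₀ i a hτ hord) v hv t ht g hg

theorem interior_D_ne_zero (v : Place Kb (FF N))
    (hv : 0 < v.ord (jF N - algebraMap Kb (FF N) a)) (t : FF N) (ht : v.ord t ≠ 0) :
    D Kb (FF N) t ≠ 0 :=
  D_ne_zero (jF N - algebraMap Kb (FF N) a)
    (FF.transcendental_sub_const (transcendental_jF N) a)
    (sigmaAt N τ₀) (sigmaAt_injective N τ₀) iotaC (sigmaAt_const N τ₀)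
    (fun i i' => by rw [sigmaAt_sub, sigmaAt_sub]) (card_cosets N hdeg a) e he
    (fun i => ord_sigmaAt_sub N τ₀ i a hτ hord) v hv t ht

theorem interior_card_places (s : SL(2, ℤ)) (hs : s⁻¹ • τ₀ = τ₀)
    (hμ : IsPrimitiveRoot (1 / (denom (s⁻¹ : SL(2, ℤ)) τ₀) ^ 2) e) :
    Nat.card {v : Place Kb (FF N) // 0 < v.ord (jF N - algebraMap Kb (FF N) a)}
      = Nat.card (MulAction.orbitRel.Quotient
          (Subgroup.zpowers (MulAction.toPerm s : Equiv.Perm (SL(2, ℤ) ⧸ Gamma0 N)))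
          (SL(2, ℤ) ⧸ Gamma0 N)) :=
  card_places (jF N - algebraMap Kb (FF N) a)
    (FF.transcendental_sub_const (transcendental_jF N) a)
    (sigmaAt N τ₀) (sigmaAt_injective N τ₀) iotaC (sigmaAt_const N τ₀)
    (fun i i' => by rw [sigmaAt_sub, sigmaAt_sub]) (card_cosets N hdeg a) e he
    (fun i => ord_sigmaAt_sub N τ₀ i a hτ hord)
    (moeb s⁻¹) (analyticAt_moeb s⁻¹ τ₀) (deriv_moeb_ne_zero s⁻¹ τ₀) (by rw [moeb_coe, hs])
    (by rw [deriv_moeb]; exact hμ) (MulAction.toPerm s)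
    (fun i f => sigmaAt_smul N τ₀ s hs i f)

end

/-! ### the three kinds of fibres -/

lemma iotaC_eq_zero_iff (a : Kb) : iotaC a = 0 ↔ a = 0 := map_eq_zero iotaC

lemma iotaC_eq_1728_iff (a : Kb) : iotaC a = 1728 ↔ a = 1728 := by
  constructor
  · intro h
    apply iotaC.injective
    rw [h, map_ofNat]
  · rintro rfl
    rw [map_ofNat]

lemma exists_point (a : Kb) : ∃ (τ₀ : ℍ) (e : ℕ), jfun τ₀ = iotaC a ∧ 0 < e ∧
    analyticOrderAt (fun z : ℂ => jfun (ofComplex z) - jfun τ₀) (τ₀ : ℂ) = e ∧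
    (a ≠ 0 → a ≠ 1728 → e = 1) := by
  by_cases h0 : a = 0
  · subst h0
    exact ⟨rho, 3, by rw [jfun_rho, map_zero], by norm_num, analyticOrderAt_jfun_rho,
      fun h => absurd rfl h⟩
  by_cases h1 : a = 1728
  · subst h1
    exact ⟨UpperHalfPlane.I, 2, by rw [jfun_I, map_ofNat], by norm_num, analyticOrderAt_jfun_I,
      fun _ h => absurd rfl h⟩
  obtain ⟨τ₀, hτ⟩ := jfun_surjective (iotaC a)
  refine ⟨τ₀, 1, hτ, one_pos, ?_, fun _ _ => rfl⟩
  apply analyticOrderAt_jfun_generic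
  · rw [hτ]
    exact fun h => h0 ((iotaC_eq_zero_iff a).1 h)
  · rw [hτ]
    exact fun h => h1 ((iotaC_eq_1728_iff a).1 h)

lemma D_sub_const {K F : Type*} [Field K] [Field F] [Algebra K F] (x : F) (a : K) :
    D K F (x - algebraMap K F a) = D K F x := by
  rw [map_sub, Derivation.map_algebraMap, sub_zero]

section

variable (N : ℕ) [NeZero N] [FiniteDimensional Kb⟮jF N⟯ (FF N)]
  (hdeg : Module.finrank Kb⟮jF N⟯ (FF N) = (Gamma0 N).index)

include hdeg

/-- (H3) at the finite places -/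
theorem ordDifferential_D_jF (a : Kb) (v : Place Kb (FF N))
    (hv : 0 < v.ord (jF N - algebraMap Kb (FF N) a)) :
    v.ordDifferential (D Kb (FF N) (jF N)) = v.ord (jF N - algebraMap Kb (FF N) a) - 1 := by
  obtain ⟨τ₀, e, hτ, he, hord, -⟩ := exists_point a
  have := interior_ordDifferential N hdeg a τ₀ hτ e he hord v hv _ hv.ne' 1 one_ne_zero
  rw [one_smul, D_sub_const, Place.ord_one, zero_add] at this
  exact this

/-- (H4) the generic fibres are unramified -/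
theorem ord_jF_sub_eq_one (a : Kb) (h0 : a ≠ 0) (h1 : a ≠ 1728) (v : Place Kb (FF N))
    (hv : 0 < v.ord (jF N - algebraMap Kb (FF N) a)) :
    v.ord (jF N - algebraMap Kb (FF N) a) = 1 := by
  obtain ⟨τ₀, e, hτ, he, hord, h⟩ := exists_point a
  have := interior_ord_dvd N hdeg a τ₀ hτ e he hord v hv
  rw [h h0 h1] at this
  exact Int.eq_one_of_dvd_one hv.le (by simpa using this)

theorem ordDifferential_D_jF_generic (a : Kb) (h0 : a ≠ 0) (h1 : a ≠ 1728) (v : Place Kb (FF N))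
    (hv : 0 < v.ord (jF N - algebraMap Kb (FF N) a)) :
    v.ordDifferential (D Kb (FF N) (jF N)) = 0 := by
  rw [ordDifferential_D_jF N hdeg a v hv, ord_jF_sub_eq_one N hdeg a h0 h1 v hv, sub_self]

theorem D_jF_ne_zero : D Kb (FF N) (jF N) ≠ 0 := by
  obtain ⟨s, hs, hsum⟩ := exists_zeros_sub (jF N) (transcendental_jF N) (0 : Kb)
  have hne : s.Nonempty := by
    rw [Finset.nonempty_iff_ne_empty]
    rintro rfl
    rw [Finset.sum_empty] at hsum
    have : 0 < Module.finrank Kb⟮jF N⟯ (FF N) := Module.finrank_pos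
    omega
  obtain ⟨v, hv⟩ := hne
  have hv' := (hs v).1 hv
  obtain ⟨τ₀, e, hτ, he, hord, -⟩ := exists_point (0 : Kb)
  have := interior_D_ne_zero N hdeg 0 τ₀ hτ e he hord v hv' _ hv'.ne'
  rwa [D_sub_const] at this

/-- (H2) the fibre over `j = 0` -/
theorem card_places_zero :
    Nat.card {v : Place Kb (FF N) // 0 < v.ord (jF N - algebraMap Kb (FF N) 0)}
      = Nat.card (MulAction.orbitRel.Quotient
          (Subgroup.zpowers (MulAction.toPerm Umat : Equiv.Perm (SL(2, ℤ) ⧸ Gamma0 N)))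
          (SL(2, ℤ) ⧸ Gamma0 N)) := by
  have hs : (Umat⁻¹ : SL(2, ℤ)) • rho = rho := by
    rw [inv_smul_eq_iff, Umat_smul_rho]
  refine interior_card_places N hdeg 0 rho (by rw [jfun_rho, map_zero]) 3 (by norm_num)
    analyticOrderAt_jfun_rho Umat hs ?_
  have hd : denom (Umat⁻¹ : SL(2, ℤ)) rho = -(rho : ℂ) := by
    rw [denom_eq, Matrix.SpecialLinearGroup.coe_inv, Umat_coe]
    simp [Matrix.adjugate_fin_two]
  have hr := rho_sq
  have hr0 : (rho : ℂ) ≠ 0 := by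
    intro h
    rw [h] at hr
    norm_num at hr
  have h3 : (rho : ℂ) ^ 3 = 1 := by linear_combination ((rho : ℂ) - 1) * hr
  have he : 1 / (denom (Umat⁻¹ : SL(2, ℤ)) rho) ^ 2 = (rho : ℂ) := by
    rw [hd, neg_sq, div_eq_iff (pow_ne_zero 2 hr0)]
    linear_combination -h3
  rw [he]
  refine IsPrimitiveRoot.mk_of_lt _ (by norm_num) h3 ?_
  intro l hl hl3 h
  interval_cases l
  · rw [pow_one] at h
    rw [h] at hr
    norm_num at hr
  · rw [h] at hr
    have : (rho : ℂ) = -2 := by linear_combination hr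
    rw [this] at h
    norm_num at h

/-- (H2) the fibre over `j = 1728` -/
theorem card_places_1728 :
    Nat.card {v : Place Kb (FF N) // 0 < v.ord (jF N - algebraMap Kb (FF N) 1728)}
      = Nat.card (MulAction.orbitRel.Quotient
          (Subgroup.zpowers (MulAction.toPerm ModularGroup.S : Equiv.Perm (SL(2, ℤ) ⧸ Gamma0 N)))
          (SL(2, ℤ) ⧸ Gamma0 N)) := by
  have hs : (ModularGroup.S⁻¹ : SL(2, ℤ)) • UpperHalfPlane.I = UpperHalfPlane.I := by
    rw [inv_smul_eq_iff, S_smul_I]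
  refine interior_card_places N hdeg 1728 UpperHalfPlane.I (by rw [jfun_I, map_ofNat]) 2
    (by norm_num) analyticOrderAt_jfun_I ModularGroup.S hs ?_
  have hd : denom (ModularGroup.S⁻¹ : SL(2, ℤ)) UpperHalfPlane.I = -Complex.I := by
    rw [denom_eq, Matrix.SpecialLinearGroup.coe_inv, ModularGroup.coe_S]
    simp [Matrix.adjugate_fin_two]
  have he : 1 / (denom (ModularGroup.S⁻¹ : SL(2, ℤ)) UpperHalfPlane.I) ^ 2 = (-1 : ℂ) := by
    rw [hd, neg_sq, Complex.I_sq]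
    norm_num
  rw [he]
  exact IsPrimitiveRoot.neg_one 0 (by norm_num)

end

end Loc

end

end Fermat.Agent.S24
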