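import Fermat.Agent.S24.Cusp

/-!
# S24 : the translation `T` on `nice h`, `Frac (nice h)` and on cusp functions
-/

set_option autoImplicit false

open UpperHalfPlane ModularForm Filter ModularCurve Topology
open scoped MatrixGroups Manifold

namespace Fermat.Agent.S24

local notation "T" => ModularGroup.T

lemma coe_T_inv_smul (τ : ℍ) : ((T⁻¹ • τ : ℍ) : ℂ) = τ - 1 := by
  have := ModularGroup.coe_T_zpow_smul_eq (z := τ) (n := -1)
  simpa [sub_eq_add_neg] using this

lemma tendsto_T_inv_smul : Tendsto (fun τ : ℍ => T⁻¹ • τ) atImInfty atImInfty := by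
  rw [atImInfty, tendsto_comap_iff]
  have : (UpperHalfPlane.im ∘ fun τ : ℍ => T⁻¹ • τ) = UpperHalfPlane.im :=
    funext fun τ => ModularGroup.im_T_inv_smul τ
  rw [this]
  exact tendsto_comap

/-- `F ↦ F(τ - 1)` on `nice h`. -/
noncomputable def shiftNice (h : ℕ) : nice h →ₐ[ℂ] nice h where
  toFun F := ⟨fun τ => F.1 (T⁻¹ • τ), by
    refine ⟨periodic_of_forall ?_, (actHol T (niceIncl h F)).2,
      F.2.2.2.comp_tendsto tendsto_T_inv_smul⟩
    intro τ τ' hτ
    refine apply_eq_of_periodic F.2.1 1 ?_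
    rw [coe_T_inv_smul, coe_T_inv_smul, hτ]
    push_cast
    ring⟩
  map_one' := rfl
  map_mul' _ _ := rfl
  map_zero' := rfl
  map_add' _ _ := rfl
  commutes' _ := rfl

@[simp] lemma shiftNice_apply (h : ℕ) (F : nice h) (τ : ℍ) :
    (shiftNice h F : ℍ → ℂ) τ = (F : ℍ → ℂ) (T⁻¹ • τ) := rfl

lemma niceIncl_shiftNice (h : ℕ) (F : nice h) :
    niceIncl h (shiftNice h F) = actHol T (niceIncl h F) := rfl

lemma shiftNice_injective (h : ℕ) : Function.Injective (shiftNice h) := by
  intro F G hFG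
  apply Subtype.ext
  funext τ
  have := congrFun (congrArg Subtype.val hFG) (T • τ)
  simpa using this

/-- The extension of `shiftNice` to the fraction field. -/
noncomputable def shiftFrac (h : ℕ) : FractionRing (nice h) →+* FractionRing (nice h) :=
  IsFractionRing.lift
    (g := (algebraMap (nice h) (FractionRing (nice h))).comp (shiftNice h).toRingHom)
    ((IsFractionRing.injective (nice h) (FractionRing (nice h))).comp (shiftNice_injective h))

@[simp] lemma shiftFrac_toFr (h : ℕ) (F : nice h) :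
    shiftFrac h (toFr h F) = toFr h (shiftNice h F) :=
  IsFractionRing.lift_algebraMap _ _

lemma exists_toFr_div (h : ℕ) (x : FractionRing (nice h)) :
    ∃ a b : nice h, b ≠ 0 ∧ x = toFr h a / toFr h b := by
  obtain ⟨a, b, hb, rfl⟩ := IsFractionRing.div_surjective (A := nice h) x
  exact ⟨a, b, nonZeroDivisors.ne_zero hb, rfl⟩

lemma niceToMer_toFr (h : ℕ) (F : nice h) : niceToMer h (toFr h F) = toMer (niceIncl h F) :=
  niceToMer_algebraMap h F

theorem niceToMer_shiftFrac (h : ℕ) (x : FractionRing (nice h)) :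
    niceToMer h (shiftFrac h x) = act T (niceToMer h x) := by
  obtain ⟨a, b, -, rfl⟩ := exists_toFr_div h x
  simp only [map_div₀, shiftFrac_toFr, niceToMer_toFr, act_toMer, niceIncl_shiftNice]

theorem sigmaCusp_T_mul (N : ℕ) [NeZero N] (g : SL(2, ℤ)) (x : FF N) :
    sigmaCusp N (T * g) x = shiftFrac N (sigmaCusp N g x) := by
  apply (niceToMer N).injective
  rw [niceToMer_shiftFrac, niceToMer_sigmaCusp, niceToMer_sigmaCusp, sigma_mul_apply]

theorem sigmaCuspQ_smul (N : ℕ) [NeZero N] (c : SL(2, ℤ) ⧸ CongruenceSubgroup.Gamma0 N)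
    (x : FF N) : sigmaCuspQ N (T • c) x = shiftFrac N (sigmaCuspQ N c x) := by
  apply (niceToMer N).injective
  rw [niceToMer_shiftFrac, niceToMer_sigmaCuspQ, niceToMer_sigmaCuspQ, sigmaQ_smul]

section cusp
variable (h : ℕ) [NeZero h]

/-- `ζ_h⁻¹ = exp (-2πi/h)`. -/
noncomputable def zetaInv : ℂ := Complex.exp (-(2 * Real.pi * Complex.I / h))

omit [NeZero h] in
lemma zetaInv_ne_zero : zetaInv h ≠ 0 := Complex.exp_ne_zero _

omit [NeZero h] in
lemma norm_zetaInv : ‖zetaInv h‖ = 1 := by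
  rw [zetaInv, Complex.norm_exp]
  simp

omit [NeZero h] in
lemma qParam_sub_one (z : ℂ) :
    Function.Periodic.qParam (h : ℝ) (z - 1) = zetaInv h * Function.Periodic.qParam (h : ℝ) z := by
  rw [Function.Periodic.qParam, Function.Periodic.qParam, zetaInv, ← Complex.exp_add]
  congr 1
  push_cast
  ring

lemma cuspFunction_shiftNice_of_ne (F : nice h) {q : ℂ} (hq0 : q ≠ 0) (hq : ‖q‖ < 1) :
    cuspFunction (h : ℝ) (shiftNice h F : ℍ → ℂ) q
      = cuspFunction (h : ℝ) (F : ℍ → ℂ) (zetaInv h * q) := by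
  have hh := h_pos h
  have him := Function.Periodic.im_invQParam_pos_of_norm_lt_one hh hq hq0
  set z : ℍ := ⟨Function.Periodic.invQParam (h : ℝ) q, him⟩ with hz
  have hqz : Function.Periodic.qParam (h : ℝ) (z : ℂ) = q :=
    Function.Periodic.qParam_right_inv hh.ne' hq0
  have e1 := eq_cuspFunction (f := (shiftNice h F : ℍ → ℂ)) z hh.ne'
    (by simpa using (shiftNice h F).2.1)
  have e2 := eq_cuspFunction (f := (F : ℍ → ℂ)) (T⁻¹ • z) hh.ne' (by simpa using F.2.1)
  rw [coe_T_inv_smul, qParam_sub_one, hqz] at e2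
  rw [hqz] at e1
  rw [e1, e2, shiftNice_apply]

/-- The cusp function of `F(τ-1)` is `q ↦ (cusp function of F)(ζ_h⁻¹ q)` on the unit disc. -/
theorem cuspFunction_shiftNice (F : nice h) {q : ℂ} (hq : ‖q‖ < 1) :
    cuspFunction (h : ℝ) (shiftNice h F : ℍ → ℂ) q
      = cuspFunction (h : ℝ) (F : ℍ → ℂ) (zetaInv h * q) := by
  by_cases hq0 : q = 0
  · subst hq0
    have c1 : ContinuousAt (cuspFunction (h : ℝ) (shiftNice h F : ℍ → ℂ)) 0 :=
      (analyticAt_of_mem_nice h (shiftNice h F).2).continuousAt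
    have c2 : ContinuousAt (fun q => cuspFunction (h : ℝ) (F : ℍ → ℂ) (zetaInv h * q)) 0 := by
      have c3 : ContinuousAt (cuspFunction (h : ℝ) (F : ℍ → ℂ)) (zetaInv h * 0) := by
        rw [mul_zero]
        exact (analyticAt_of_mem_nice h F.2).continuousAt
      exact ContinuousAt.comp (f := fun q => zetaInv h * q) c3
        (continuous_const.mul continuous_id).continuousAt
    have t1 := c1.tendsto.mono_left (nhdsWithin_le_nhds (s := {0}ᶜ))
    have t2 := c2.tendsto.mono_left (nhdsWithin_le_nhds (s := {0}ᶜ))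
    refine tendsto_nhds_unique t1 (t2.congr' ?_)
    have hball : ∀ᶠ q : ℂ in 𝓝[≠] 0, ‖q‖ < 1 := by
      have : ∀ᶠ q : ℂ in 𝓝 0, ‖q‖ < 1 := by
        have := Metric.ball_mem_nhds (0 : ℂ) one_pos
        filter_upwards [this] with q hq
        simpa using hq
      exact this.filter_mono nhdsWithin_le_nhds
    filter_upwards [hball, self_mem_nhdsWithin] with q hq hq0
    exact (cuspFunction_shiftNice_of_ne h F hq0 hq).symm
  · exact cuspFunction_shiftNice_of_ne h F hq0 hq

theorem cuspFunction_shiftNice_eventually (F : nice h) :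
    ∀ᶠ q in 𝓝 (0 : ℂ), cuspFunction (h : ℝ) (shiftNice h F : ℍ → ℂ) q
      = cuspFunction (h : ℝ) (F : ℍ → ℂ) (zetaInv h * q) := by
  have := Metric.ball_mem_nhds (0 : ℂ) one_pos
  filter_upwards [this] with q hq
  exact cuspFunction_shiftNice h F (by simpa using hq)

/-- The order of vanishing at `q = 0` of the cusp function, in terms of the `q`-expansion. -/
theorem analyticOrderAt_cuspFunction_eq_iff (F : nice h) (n : ℕ) :
    analyticOrderAt (cuspFunction (h : ℝ) (F : ℍ → ℂ)) 0 = n ↔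
      (∀ k < n, (qHom h F).coeff k = 0) ∧ (qHom h F).coeff n ≠ 0 := by
  rw [analyticOrderAt_eq_nat_iff_iteratedDeriv_eq_zero (analyticAt_of_mem_nice h F.2)]
  simp only [qHom_apply, qExpansion_coeff, mul_eq_zero, inv_eq_zero, Nat.cast_eq_zero,
    Nat.factorial_ne_zero, false_or, ne_eq]

lemma cuspFunction_zero_eq_coeff (F : nice h) :
    cuspFunction (h : ℝ) (F : ℍ → ℂ) 0 = (qHom h F).coeff 0 := by
  simp [qHom_apply, qExpansion_coeff]

/-- A `1`-periodic nice function, seen as an `h`-periodic one. -/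
noncomputable def niceOfOne : nice 1 →ₐ[ℂ] nice h := utNice 1 0 1 one_pos one_pos h (one_dvd _)

omit [NeZero h] in
lemma niceOfOne_apply (F : nice 1) (τ : ℍ) : (niceOfOne h F : ℍ → ℂ) τ = (F : ℍ → ℂ) τ := by
  have : utZ 1 0 1 one_pos one_pos • τ = τ := by
    apply UpperHalfPlane.ext
    rw [coe_utZ_smul]
    simp
  rw [niceOfOne, utNice_apply, this]

lemma qHom_niceOfOne_coeff (F : nice 1) (n : ℕ) :
    (qHom h (niceOfOne h F)).coeff n = if h ∣ n then (qHom 1 F).coeff (n / h) else 0 := by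
  rw [niceOfOne, qHom_utNice_coeff 1 0 1 one_pos one_pos h h (by simp)]
  simp

lemma qHom_Dn_coeff_zero : (qHom 1 Dn).coeff 0 = 0 := by
  have : qHom 1 Dn = qExpansion 1 ModularForm.discriminant := by simp [Dn]
  rw [this, qExpansion_discriminant]
  simp

lemma qHom_Dn_coeff_one : (qHom 1 Dn).coeff 1 = 1 := by
  have : qHom 1 Dn = qExpansion 1 ModularForm.discriminant := by simp [Dn]
  rw [this, discriminant_qExpansion_coeff_one]

lemma qHom_E4n_coeff_zero : (qHom 1 E4n).coeff 0 = 1 := by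
  have : qHom 1 E4n = qExpansion 1 (E₄ : ℍ → ℂ) := by simp [E4n]
  rw [this]
  exact EisensteinSeries.E_qExpansion_coeff_zero (k := 4) (by norm_num) ⟨2, rfl⟩

/-- `Δ` vanishes to order exactly `h` in the variable `q_h`. -/
theorem analyticOrderAt_cuspFunction_Dn :
    analyticOrderAt (cuspFunction (h : ℝ)
      (utNice 1 0 1 one_pos one_pos h (one_dvd _) Dn : ℍ → ℂ)) 0 = h := by
  have hh0 : 0 < h := Nat.pos_of_ne_zero (NeZero.ne h)
  rw [analyticOrderAt_cuspFunction_eq_iff]
  constructor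
  · intro k hk
    have := qHom_niceOfOne_coeff h Dn k
    rw [niceOfOne] at this
    rw [this]
    split_ifs with hd
    · have hk0 : k = 0 := Nat.eq_zero_of_dvd_of_lt hd hk
      rw [hk0, Nat.zero_div, qHom_Dn_coeff_zero]
    · rfl
  · have := qHom_niceOfOne_coeff h Dn h
    rw [niceOfOne] at this
    rw [this, if_pos dvd_rfl, Nat.div_self hh0, qHom_Dn_coeff_one]
    exact one_ne_zero

/-- `E₄` does not vanish at the cusp. -/
theorem cuspFunction_E4n_zero :
    cuspFunction (h : ℝ) (utNice 1 0 1 one_pos one_pos h (one_dvd _) E4n : ℍ → ℂ) 0 = 1 := by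
  rw [cuspFunction_zero_eq_coeff]
  have := qHom_niceOfOne_coeff h E4n 0
  rw [niceOfOne] at this
  rw [this, if_pos (dvd_zero _), Nat.zero_div, qHom_E4n_coeff_zero]

theorem cuspFunction_E4n_zero_ne :
    cuspFunction (h : ℝ) (utNice 1 0 1 one_pos one_pos h (one_dvd _) E4n : ℍ → ℂ) 0 ≠ 0 := by
  rw [cuspFunction_E4n_zero]
  exact one_ne_zero

end cusp

end Fermat.Agent.S24
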