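import Mathlib

/-!
# S24 : the domain of holomorphic functions on `ℍ`, its fraction field, and `q`-expansions

* `Hol` : holomorphic functions on `ℍ` (a domain), `Mer := FractionRing Hol`.
* `compHom g hg : Hol →ₐ[ℂ] Hol`, `F ↦ F ∘ (g • ·)` for `g ∈ GL₂(ℝ)⁺`, `merMap g hg : Mer →+* Mer`.
* `act γ : Mer →+* Mer`, `F ↦ F ∘ γ⁻¹` for `γ ∈ SL₂(ℤ)`.
* `nice h` : `h`-periodic holomorphic functions bounded at `i∞`; `qHom h : nice h →ₐ[ℂ] ℂ⟦X⟧`
  (injective), `niceToMer h`, `niceToLaurent h` on `FractionRing (nice h)`.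
* `factorThrough` : factor a ring hom through an injective ring hom containing its range.
-/

set_option autoImplicit false

open UpperHalfPlane ModularForm
open scoped MatrixGroups Manifold

namespace Fermat.Agent.S24

/-- Holomorphic functions on the upper half plane. -/
def Hol : Subalgebra ℂ (ℍ → ℂ) where
  carrier := {g | MDiff g}
  mul_mem' := fun ha hb => MDifferentiable.mul ha hb
  add_mem' := fun ha hb => MDifferentiable.add ha hb
  algebraMap_mem' := fun _ _ => mdifferentiableAt_const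

lemma mem_Hol {g : ℍ → ℂ} : g ∈ Hol ↔ MDiff g := Iff.rfl

/-- Identity theorem on `ℍ`. -/
lemma eq_zero_of_eventually_eq_zero {g : ℍ → ℂ} (hg : MDiff g) (z₀ : ℍ)
    (h : ∀ᶠ z in nhds z₀, g z = 0) : g = 0 := by
  have hd : DifferentiableOn ℂ (g ∘ ofComplex) upperHalfPlaneSet :=
    UpperHalfPlane.mdifferentiable_iff.mp hg
  have han : AnalyticOnNhd ℂ (g ∘ ofComplex) upperHalfPlaneSet :=
    hd.analyticOnNhd isOpen_upperHalfPlaneSet
  have hpre : IsPreconnected upperHalfPlaneSet :=
    (convex_halfSpace_im_gt 0).isPreconnected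
  have hz₀ : (z₀ : ℂ) ∈ upperHalfPlaneSet := z₀.2
  have hev : (g ∘ ofComplex) =ᶠ[nhds (z₀ : ℂ)] 0 := by
    have hc : Filter.Tendsto ofComplex (nhds (z₀ : ℂ)) (nhds z₀) := by
      have := (UpperHalfPlane.contMDiffAt_ofComplex (n := 0) z₀.2).continuousAt
      simpa [ContinuousAt, ofComplex_apply] using this
    exact hc.eventually h
  have := han.eqOn_zero_of_preconnected_of_eventuallyEq_zero hpre hz₀ hev
  funext z
  have h2 := this z.2
  simpa [ofComplex_apply] using h2

instance : IsDomain Hol := by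
  have : Nontrivial Hol := ⟨⟨0, 1, fun h => by
    have := congrFun (congrArg Subtype.val h) UpperHalfPlane.I
    simp at this⟩⟩
  have : NoZeroDivisors Hol := ⟨by
    intro a b hab
    by_contra hcon
    push Not at hcon
    obtain ⟨ha, hb⟩ := hcon
    have ha' : (a : ℍ → ℂ) ≠ 0 := fun h => ha (Subtype.ext h)
    obtain ⟨z₀, hz₀⟩ : ∃ z, (a : ℍ → ℂ) z ≠ 0 := by
      by_contra hh
      push Not at hh
      exact ha' (funext hh)
    have hcont : Continuous (a : ℍ → ℂ) := (mem_Hol.mp a.2).continuous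
    have hne : ∀ᶠ z in nhds z₀, (a : ℍ → ℂ) z ≠ 0 := hcont.continuousAt.eventually_ne hz₀
    have hbz : ∀ᶠ z in nhds z₀, (b : ℍ → ℂ) z = 0 := by
      filter_upwards [hne] with z hz
      have := congrFun (congrArg Subtype.val hab) z
      simp only [Subalgebra.coe_mul, Pi.mul_apply, ZeroMemClass.coe_zero, Pi.zero_apply,
        mul_eq_zero] at this
      exact this.resolve_left hz
    exact hb (Subtype.ext (eq_zero_of_eventually_eq_zero (mem_Hol.mp b.2) z₀ hbz))⟩
  exact NoZeroDivisors.to_isDomain _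

/-- "Meromorphic functions" on `ℍ`: the fraction field of `Hol`. -/
abbrev Mer : Type := FractionRing Hol

/-- The class in `Mer` of a holomorphic function. -/
noncomputable def toMer (g : Hol) : Mer := algebraMap Hol Mer g

lemma toMer_injective : Function.Injective toMer := IsFractionRing.injective Hol Mer

/-- Composition with the Möbius transformation attached to `g ∈ GL₂(ℝ)⁺`. -/
noncomputable def compHom (g : GL (Fin 2) ℝ) (hg : 0 < g.det.val) : Hol →ₐ[ℂ] Hol where
  toFun F := ⟨fun τ => F.1 (g • τ), (mem_Hol.mp F.2).comp (mdifferentiable_smul hg)⟩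
  map_one' := rfl
  map_mul' _ _ := rfl
  map_zero' := rfl
  map_add' _ _ := rfl
  commutes' _ := rfl

@[simp] lemma compHom_apply (g : GL (Fin 2) ℝ) (hg : 0 < g.det.val) (F : Hol) (τ : ℍ) :
    (compHom g hg F : ℍ → ℂ) τ = (F : ℍ → ℂ) (g • τ) := rfl

lemma compHom_injective (g : GL (Fin 2) ℝ) (hg : 0 < g.det.val) :
    Function.Injective (compHom g hg) := by
  intro F G h
  apply Subtype.ext
  funext τ
  have := congrFun (congrArg Subtype.val h) (g⁻¹ • τ)
  simpa using this

/-- Extension of `compHom` to `Mer`. -/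
noncomputable def merMap (g : GL (Fin 2) ℝ) (hg : 0 < g.det.val) : Mer →+* Mer :=
  IsFractionRing.lift (g := (algebraMap Hol Mer).comp (compHom g hg).toRingHom)
    ((IsFractionRing.injective Hol Mer).comp (compHom_injective g hg))

@[simp] lemma merMap_toMer (g : GL (Fin 2) ℝ) (hg : 0 < g.det.val) (F : Hol) :
    merMap g hg (toMer F) = toMer (compHom g hg F) :=
  IsFractionRing.lift_algebraMap _ _

/-- Every element of `Mer` is a quotient of holomorphic functions. -/
lemma exists_toMer_div (x : Mer) : ∃ a b : Hol, b ≠ 0 ∧ x = toMer a / toMer b := by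
  obtain ⟨a, b, hb, rfl⟩ := IsFractionRing.div_surjective (A := Hol) x
  exact ⟨a, b, nonZeroDivisors.ne_zero hb, rfl⟩

/-- Ring homs out of `Mer` are determined by their values on `Hol`. -/
lemma Mer_ringHom_ext {E : Type*} [Field E] {φ ψ : Mer →+* E}
    (h : ∀ F : Hol, φ (toMer F) = ψ (toMer F)) : φ = ψ := by
  ext x
  obtain ⟨a, b, -, rfl⟩ := exists_toMer_div x
  rw [map_div₀, map_div₀, h, h]

lemma det_SL_pos (γ : SL(2, ℤ)) : 0 < ((γ : GL (Fin 2) ℝ)).det.val := by
  simp

/-- The action of `SL₂(ℤ)` on `Mer`: `act γ F = F ∘ γ⁻¹`. -/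
noncomputable def act (γ : SL(2, ℤ)) : Mer →+* Mer :=
  merMap ((γ⁻¹ : SL(2, ℤ)) : GL (Fin 2) ℝ) (det_SL_pos _)

/-- Composition of a holomorphic function with `γ⁻¹`. -/
noncomputable def actHol (γ : SL(2, ℤ)) : Hol →ₐ[ℂ] Hol :=
  compHom ((γ⁻¹ : SL(2, ℤ)) : GL (Fin 2) ℝ) (det_SL_pos _)

@[simp] lemma actHol_apply (γ : SL(2, ℤ)) (F : Hol) (τ : ℍ) :
    (actHol γ F : ℍ → ℂ) τ = (F : ℍ → ℂ) (γ⁻¹ • τ) := rfl

@[simp] lemma act_toMer (γ : SL(2, ℤ)) (F : Hol) : act γ (toMer F) = toMer (actHol γ F) :=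
  merMap_toMer _ _ _

lemma act_one : act 1 = RingHom.id Mer := by
  apply Mer_ringHom_ext
  intro F
  rw [act_toMer, RingHom.id_apply]
  congr 1
  apply Subtype.ext
  funext τ
  simp

lemma act_mul (γ γ' : SL(2, ℤ)) : act (γ * γ') = (act γ).comp (act γ') := by
  apply Mer_ringHom_ext
  intro F
  rw [RingHom.comp_apply, act_toMer, act_toMer, act_toMer]
  congr 1
  apply Subtype.ext
  funext τ
  simp [mul_smul]

lemma act_mul_apply (γ γ' : SL(2, ℤ)) (x : Mer) : act (γ * γ') x = act γ (act γ' x) := by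
  rw [act_mul]; rfl

lemma act_injective (γ : SL(2, ℤ)) : Function.Injective (act γ) := (act γ).injective

/-! ### Periodic functions and `q`-expansions -/

/-- `h`-periodic holomorphic functions on `ℍ`, bounded at `i∞`. -/
def nice (h : ℕ) : Subalgebra ℂ (ℍ → ℂ) where
  carrier := {g | Function.Periodic (g ∘ ofComplex) (h : ℂ) ∧ MDiff g ∧ IsBoundedAtImInfty g}
  mul_mem' := by
    rintro a b ⟨ha1, ha2, ha3⟩ ⟨hb1, hb2, hb3⟩
    exact ⟨ha1.mul hb1, ha2.mul hb2, Filter.BoundedAtFilter.mul ha3 hb3⟩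
  add_mem' := by
    rintro a b ⟨ha1, ha2, ha3⟩ ⟨hb1, hb2, hb3⟩
    exact ⟨ha1.add hb1, ha2.add hb2, Filter.BoundedAtFilter.add ha3 hb3⟩
  algebraMap_mem' := by
    intro r
    refine ⟨fun x => rfl, fun _ => mdifferentiableAt_const, ?_⟩
    exact Filter.const_boundedAtFilter _ r

lemma mem_nice {h : ℕ} {g : ℍ → ℂ} : g ∈ nice h ↔
    Function.Periodic (g ∘ ofComplex) (h : ℂ) ∧ MDiff g ∧ IsBoundedAtImInfty g := Iff.rfl

lemma nice_le_Hol (h : ℕ) : nice h ≤ Hol := fun _ hg => hg.2.1

/-- The inclusion `nice h → Hol`. -/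
def niceIncl (h : ℕ) : nice h →ₐ[ℂ] Hol := Subalgebra.inclusion (nice_le_Hol h)

@[simp] lemma coe_niceIncl (h : ℕ) (g : nice h) : (niceIncl h g : ℍ → ℂ) = g := rfl

lemma niceIncl_injective (h : ℕ) : Function.Injective (niceIncl h) :=
  Subalgebra.inclusion_injective _

instance (h : ℕ) : IsDomain (nice h) :=
  (niceIncl_injective h).isDomain (niceIncl h).toRingHom

section
variable (h : ℕ) [NeZero h]

lemma h_pos : (0 : ℝ) < (h : ℝ) := by exact_mod_cast Nat.pos_of_ne_zero (NeZero.ne h)

lemma analyticAt_of_mem_nice {g : ℍ → ℂ} (hg : g ∈ nice h) :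
    AnalyticAt ℂ (cuspFunction (h : ℝ) g) 0 :=
  analyticAt_cuspFunction_zero (h_pos h) (by simpa using hg.1) hg.2.1 hg.2.2

/-- The `q_h`-expansion (`q_h = exp (2πiτ/h)`) as an algebra homomorphism. -/
noncomputable def qHom : nice h →ₐ[ℂ] PowerSeries ℂ where
  toFun g := qExpansion (h : ℝ) g.1
  map_one' := qExpansion_one _
  map_mul' a b := qExpansion_mul (analyticAt_of_mem_nice h a.2) (analyticAt_of_mem_nice h b.2)
  map_zero' := qExpansion_zero _
  map_add' a b := qExpansion_add (analyticAt_of_mem_nice h a.2) (analyticAt_of_mem_nice h b.2)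
  commutes' r := by
    have h1 : ((algebraMap ℂ (nice h) r : nice h) : ℍ → ℂ) = r • (1 : ℍ → ℂ) := by
      ext z; simp [Algebra.algebraMap_eq_smul_one]
    rw [h1, qExpansion_smul (analyticAt_of_mem_nice h (one_mem (nice h))), qExpansion_one,
      Algebra.algebraMap_eq_smul_one]

@[simp] lemma qHom_apply (g : nice h) : qHom h g = qExpansion (h : ℝ) g.1 := rfl

lemma qHom_injective : Function.Injective (qHom h) := by
  rw [injective_iff_map_eq_zero]
  intro g hg
  have := (qExpansion_eq_zero_iff (h_pos h) (by simpa using g.2.1) g.2.2.1 g.2.2.2).mp hg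
  exact Subtype.ext this

/-- `Frac (nice h) → Mer`. -/
noncomputable def niceToMer : FractionRing (nice h) →+* Mer :=
  IsFractionRing.lift (g := (algebraMap Hol Mer).comp (niceIncl h).toRingHom)
    ((IsFractionRing.injective Hol Mer).comp (niceIncl_injective h))

omit [NeZero h] in
@[simp] lemma niceToMer_algebraMap (g : nice h) :
    niceToMer h (algebraMap (nice h) (FractionRing (nice h)) g) = toMer (niceIncl h g) :=
  IsFractionRing.lift_algebraMap _ _

/-- The `q_h`-expansion `Frac (nice h) → ℂ((X))`. -/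
noncomputable def niceToLaurent : FractionRing (nice h) →+* LaurentSeries ℂ :=
  IsFractionRing.lift (g := (HahnSeries.ofPowerSeries ℤ ℂ).comp (qHom h).toRingHom)
    (HahnSeries.ofPowerSeries_injective.comp (qHom_injective h))

@[simp] lemma niceToLaurent_algebraMap (g : nice h) :
    niceToLaurent h (algebraMap (nice h) (FractionRing (nice h)) g)
      = HahnSeries.ofPowerSeries ℤ ℂ (qHom h g) :=
  IsFractionRing.lift_algebraMap _ _

end

/-! ### Factoring through an injective ring homomorphism -/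

section factor
variable {A B C : Type*} [Field A] [Field B] [Ring C]

/-- If the range of `g` is contained in the range of `u` (a homomorphism of fields), factor `g`
through `u`. -/
noncomputable def factorThrough (u : A →+* B) (g : C →+* B) (h : ∀ c, g c ∈ u.fieldRange) :
    C →+* A :=
  (u.rangeRestrictFieldEquiv.symm : _ →+* A).comp (g.codRestrict u.fieldRange h)

lemma factorThrough_spec (u : A →+* B) (g : C →+* B) (h : ∀ c, g c ∈ u.fieldRange) (c : C) :
    u (factorThrough u g h c) = g c := by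
  have := u.rangeRestrictFieldEquiv.apply_symm_apply (g.codRestrict u.fieldRange h c)
  exact congrArg Subtype.val this

end factor

end Fermat.Agent.S24
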