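import Fermat.Agent.S24.FFBasic

set_option autoImplicit false

/-!
# S24, general function fields: places coming from a Dedekind domain
-/

namespace Fermat.Agent.S24

open AlgebraicCurve IsDedekindDomain WithZero

variable {K F : Type*} [Field K] [Field F] [Algebra K F]

namespace FF

section Ded

variable {R : Type*} [CommRing R] [IsDedekindDomain R] [Algebra R F] [IsFractionRing R F]
  [Algebra K R] [IsScalarTower K R F]

lemma mem_ofHeightOneSpectrum_iff (w : HeightOneSpectrum R) (f : F) :
    f ∈ (Place.ofHeightOneSpectrum (K := K) (F := F) w).toValuationSubring ↔ w.valuation F f ≤ 1 :=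
  Iff.rfl

/-- the order at the place attached to a height one prime is the adic valuation -/
lemma ord_ofHeightOneSpectrum (w : HeightOneSpectrum R) (f : F) :
    (Place.ofHeightOneSpectrum (K := K) (F := F) w).ord f = - log (w.valuation F f) := by
  set v := Place.ofHeightOneSpectrum (K := K) (F := F) w with hv
  rcases eq_or_ne f 0 with rfl | hf
  · simp
  obtain ⟨ϖ, hϖ⟩ := IsDiscreteValuationRing.exists_irreducible v.toValuationSubring
  have hunit : ∀ u : v.toValuationSubringˣ, w.valuation F ((u : v.toValuationSubring) : F) = 1 := by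
    intro u
    have h1 : w.valuation F ((u : v.toValuationSubring) : F) ≤ 1 := u.1.2
    have h2 : w.valuation F (((u⁻¹ : v.toValuationSubringˣ) : v.toValuationSubring) : F) ≤ 1 :=
      (u⁻¹).1.2
    have h3 : w.valuation F ((u : v.toValuationSubring) : F) *
        w.valuation F (((u⁻¹ : v.toValuationSubringˣ) : v.toValuationSubring) : F) = 1 := by
      rw [← map_mul]
      have : ((u : v.toValuationSubring) : F) *
          (((u⁻¹ : v.toValuationSubringˣ) : v.toValuationSubring) : F) = 1 := by
        have := congrArg Subtype.val (u.mul_inv)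
        exact this
      rw [this, map_one]
    exact eq_one_of_one_le_mul_left h1 h2 h3.ge
  obtain ⟨π, hπ⟩ := w.valuation_exists_uniformizer F
  have hπ0 : π ≠ 0 := by
    rintro rfl
    rw [map_zero] at hπ
    exact WithZero.coe_ne_zero hπ.symm
  have hϖ0 : (ϖ : F) ≠ 0 := by
    simpa [ne_eq, ZeroMemClass.coe_eq_zero] using hϖ.ne_zero
  -- the valuation of `ϖ`
  have hϖlt : w.valuation F (ϖ : F) < 1 := by
    refine lt_of_le_of_ne ϖ.2 fun h1 => hϖ.not_isUnit ?_
    have hinv : (ϖ : F)⁻¹ ∈ v.toValuationSubring := by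
      show w.valuation F (ϖ : F)⁻¹ ≤ 1
      rw [map_inv₀, h1, inv_one]
    refine IsUnit.of_mul_eq_one ⟨(ϖ : F)⁻¹, hinv⟩ ?_
    ext
    simp [hϖ0]
  obtain ⟨u, hu⟩ := v.exists_unit_mul_zpow hπ0 hϖ
  have hval : ∀ (g : F) (u : v.toValuationSubringˣ) (n : ℤ),
      g = ((u : v.toValuationSubring) : F) * (ϖ : F) ^ n →
      log (w.valuation F g) = n * log (w.valuation F (ϖ : F)) := by
    intro g u n hg
    rw [hg, map_mul, hunit u, one_mul, map_zpow₀, log_zpow, smul_eq_mul]
  have h1 := hval π u _ hu
  rw [hπ, log_exp] at h1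
  have hlog : log (w.valuation F (ϖ : F)) < 0 := by
    have := (log_lt_log ((Valuation.ne_zero_iff _).mpr hϖ0) one_ne_zero).mpr hϖlt
    simpa using this
  have hk : log (w.valuation F (ϖ : F)) = -1 := by
    have hdvd : log (w.valuation F (ϖ : F)) ∣ -1 := ⟨_, by rw [h1]; ring⟩
    have := Int.isUnit_iff.mp (isUnit_of_dvd_unit hdvd (by simp))
    omega
  obtain ⟨u', hu'⟩ := v.exists_unit_mul_zpow hf hϖ
  have h2 := hval f u' _ hu'
  rw [h2, hk]
  ring

lemma ofHeightOneSpectrum_injective :
    Function.Injective (Place.ofHeightOneSpectrum (K := K) (F := F) (R := R)) := by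
  intro w w' h
  apply HeightOneSpectrum.eq_of_valuation_isEquiv_valuation (K := F)
  rw [Valuation.isEquiv_iff_valuationSubring]
  exact congrArg Place.toValuationSubring h

/-- a place whose valuation ring contains `R` comes from a height one prime of `R` -/
lemma exists_heightOneSpectrum (v : Place K F)
    (hR : ∀ r : R, algebraMap R F r ∈ v.toValuationSubring) :
    ∃ w : HeightOneSpectrum R, Place.ofHeightOneSpectrum (K := K) (F := F) w = v := by
  let g : R →+* v.toValuationSubring := (algebraMap R F).codRestrict v.toValuationSubring.toSubring hR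
  have hg : ∀ r, ((g r : v.toValuationSubring) : F) = algebraMap R F r := fun _ => rfl
  let P : Ideal R := (IsLocalRing.maximalIdeal v.toValuationSubring).comap g
  have hPprime : P.IsPrime := Ideal.comap_isPrime g _
  have hunit : ∀ r : R, r ∉ P → (algebraMap R F r)⁻¹ ∈ v.toValuationSubring := by
    intro r hr
    have hu : IsUnit (g r) := by
      by_contra hnu
      exact hr ((IsLocalRing.mem_maximalIdeal _).mpr hnu)
    obtain ⟨u, hu⟩ := hu
    have h1 : (((u⁻¹ : v.toValuationSubringˣ) : v.toValuationSubring) : F)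
        = (algebraMap R F r)⁻¹ := by
      have h2 : ((u : v.toValuationSubring) : F) *
          (((u⁻¹ : v.toValuationSubringˣ) : v.toValuationSubring) : F) = 1 :=
        congrArg Subtype.val (u.mul_inv)
      rw [hu, hg] at h2
      exact eq_inv_of_mul_eq_one_right h2
    rw [← h1]
    exact (u⁻¹).1.2
  have hPbot : P ≠ ⊥ := by
    intro hbot
    apply v.ne_top'
    rw [eq_top_iff]
    intro f _
    obtain ⟨a, b, hb, rfl⟩ := IsFractionRing.div_surjective (A := R) f
    have hb0 : b ∉ P := by
      rw [hbot]
      exact fun h => (nonZeroDivisors.ne_zero hb) ((Submodule.mem_bot R).mp h)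
    rw [div_eq_mul_inv]
    exact v.toValuationSubring.mul_mem _ _ (hR a) (hunit b hb0)
  refine ⟨⟨P, hPprime, hPbot⟩, eq_of_le ?_⟩
  intro f hf
  obtain ⟨n, d, hnd⟩ := HeightOneSpectrum.exists_primeCompl_mul_eq_of_integer
    (⟨P, hPprime, hPbot⟩ : HeightOneSpectrum R) f hf
  have hd : (d : R) ∉ P := d.2
  have hd0 : algebraMap R F d ≠ 0 := by
    intro h0
    apply hd
    have : (d : R) = 0 := (IsFractionRing.injective R F) (by rw [h0, map_zero])
    rw [this]; exact P.zero_mem
  have : f = algebraMap R F n * (algebraMap R F d)⁻¹ := by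
    rw [← hnd, mul_assoc, mul_inv_cancel₀ hd0, mul_one]
  rw [this]
  exact v.toValuationSubring.mul_mem _ _ (hR n) (hunit d hd)

end Ded

end FF

end Fermat.Agent.S24
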