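import Fermat.Agent.S24.Sigma

/-!
# S24 : the conjugate embeddings take values in `Frac (nice N)` (expansions at the cusps)
-/

set_option autoImplicit false

open UpperHalfPlane ModularForm Filter ModularCurve Topology
open scoped MatrixGroups Manifold

namespace Fermat.Agent.S24

open Fermat.Agent.S23.Prim Matrix.SpecialLinearGroup

lemma niceToMer_const (h : ℕ) (c : ℂ) :
    niceToMer h (toFr h (algebraMap ℂ (nice h) c)) = toMer (algebraMap ℂ Hol c) := by
  rw [toFr, niceToMer_algebraMap, AlgHom.commutes]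

lemma utNice_injective (a b d : ℤ) (ha : 0 < a) (hd : 0 < d) (h : ℕ) (hdvd : d ∣ a * h) :
    Function.Injective (utNice a b d ha hd h hdvd) := by
  intro F G hFG
  apply Subtype.ext
  funext τ
  have := congrFun (congrArg Subtype.val hFG) ((utZ a b d ha hd)⁻¹ • τ)
  simpa using this

/-- `j((aτ+b)/d)` in `Frac (nice h)`. -/
noncomputable def jutFrac (a b d : ℤ) (ha : 0 < a) (hd : 0 < d) (h : ℕ) (hdvd : d ∣ a * h) :
    FractionRing (nice h) :=
  toFr h (utNice a b d ha hd h hdvd E4n) ^ 3 / toFr h (utNice a b d ha hd h hdvd Dn)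

/-- The holomorphic function `j((aτ+b)/d)`. -/
noncomputable def jutHol (a b d : ℤ) (ha : 0 < a) (hd : 0 < d) : Hol :=
  compHom (utZ a b d ha hd) (det_utZ_pos _ _ _ _ _) jHol

lemma jutHol_apply (a b d : ℤ) (ha : 0 < a) (hd : 0 < d) (τ : ℍ) :
    (jutHol a b d ha hd : ℍ → ℂ) τ = jfun (utZ a b d ha hd • τ) := rfl

lemma niceToMer_jutFrac (a b d : ℤ) (ha : 0 < a) (hd : 0 < d) (h : ℕ) (hdvd : d ∣ a * h) :
    niceToMer h (jutFrac a b d ha hd h hdvd) = toMer (jutHol a b d ha hd) := by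
  rw [jutFrac, map_div₀, map_pow, toFr, toFr, niceToMer_algebraMap, niceToMer_algebraMap]
  have hD : toMer (niceIncl h (utNice a b d ha hd h hdvd Dn)) ≠ 0 := by
    intro h0
    have h2 : niceIncl h (utNice a b d ha hd h hdvd Dn) = 0 :=
      toMer_injective (by rw [h0]; exact (map_zero _).symm)
    have h3 : utNice a b d ha hd h hdvd Dn = 0 := niceIncl_injective h (by rw [h2, map_zero])
    exact Dn_ne_zero (utNice_injective a b d ha hd h hdvd (by rw [h3, map_zero]))
  rw [div_eq_iff hD]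
  unfold toMer
  rw [← map_pow, ← map_mul]
  apply congrArg
  apply Subtype.ext
  funext τ
  simp only [Subalgebra.coe_pow, Subalgebra.coe_mul, Pi.pow_apply, Pi.mul_apply, coe_niceIncl,
    jutHol_apply, utNice_apply, E4n, Dn, jfun]
  rw [div_mul_cancel₀ _ (discriminant_ne_zero _)]

/-- `j(d g⁻¹ τ) = j((aτ+b)/d')` for suitable integers with `a d' = d`. -/
lemma exists_actHol_jdHol_eq (g : SL(2, ℤ)) (d : ℕ) [NeZero d] :
    ∃ (a b d' : ℤ) (ha : 0 < a) (hd' : 0 < d'), a * d' = d ∧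
      actHol g (jdHol d) = jutHol a b d' ha hd' := by
  obtain ⟨δ, a, b, d', ha, hd', had, -, hmat⟩ := exists_decomp d g⁻¹
  refine ⟨a, b, d', by exact_mod_cast ha, by exact_mod_cast hd', had, ?_⟩
  apply Subtype.ext
  funext τ
  rw [actHol_apply, jdHol_apply', jutHol_apply]
  have e2 : Dm d • (g⁻¹ • τ) = (Dm d * mapGL ℝ g⁻¹) • τ := by rw [mul_smul]; rfl
  rw [e2, hmat, mul_smul, jfun_mapGL_smul]
  rfl

lemma sigma_mem_range (N : ℕ) [NeZero N] (g : SL(2, ℤ)) (x : FF N) :
    sigma N g x ∈ (niceToMer N).fieldRange := by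
  refine FF_map_mem N (sigma N g) _ ?_ ?_ x
  · intro a
    exact ⟨_, (niceToMer_const N (iotaC a)).trans (sigma_const N g a).symm⟩
  · intro d _ hd
    obtain ⟨a, b, d', ha, hd', had, he⟩ := exists_actHol_jdHol_eq g d
    have hdvd : d' ∣ a * (N : ℤ) := by
      have h1 : d' ∣ (d : ℤ) := ⟨a, by rw [← had]; ring⟩
      exact (h1.trans (Int.natCast_dvd_natCast.mpr hd)).mul_left a
    refine ⟨jutFrac a b d' ha hd' N hdvd, ?_⟩
    rw [niceToMer_jutFrac, sigma_jd, he]

/-- The conjugate embedding `sigma N g`, with values in `Frac (nice N)`. -/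
noncomputable def sigmaCusp (N : ℕ) [NeZero N] (g : SL(2, ℤ)) : FF N →+* FractionRing (nice N) :=
  factorThrough (niceToMer N) (sigma N g) (sigma_mem_range N g)

theorem niceToMer_sigmaCusp (N : ℕ) [NeZero N] (g : SL(2, ℤ)) (x : FF N) :
    niceToMer N (sigmaCusp N g x) = sigma N g x :=
  factorThrough_spec _ _ _ _

theorem niceToMer_comp_sigmaCusp (N : ℕ) [NeZero N] (g : SL(2, ℤ)) :
    (niceToMer N).comp (sigmaCusp N g) = sigma N g :=
  RingHom.ext (niceToMer_sigmaCusp N g)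

lemma sigmaCusp_const (N : ℕ) [NeZero N] (g : SL(2, ℤ)) (a : Kb) :
    sigmaCusp N g (algebraMap Kb (FF N) a) = toFr N (algebraMap ℂ (nice N) (iotaC a)) :=
  (niceToMer N).injective (by rw [niceToMer_sigmaCusp, sigma_const, niceToMer_const])

/-- `j` itself in `Frac (nice N)`. -/
lemma sigmaCusp_jF (N : ℕ) [NeZero N] (g : SL(2, ℤ)) :
    sigmaCusp N g (jF N) = jutFrac 1 0 1 one_pos one_pos N (one_dvd _) := by
  apply (niceToMer N).injective
  rw [niceToMer_sigmaCusp, sigma_jF, niceToMer_jutFrac]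
  apply congrArg toMer
  apply Subtype.ext
  funext τ
  rw [jutHol_apply]
  have : utZ 1 0 1 one_pos one_pos • τ = τ := by
    apply UpperHalfPlane.ext
    rw [coe_utZ_smul]
    simp
  rw [this]
  rfl

/-- Coset version. -/
noncomputable def sigmaCuspQ (N : ℕ) [NeZero N] (c : SL(2, ℤ) ⧸ CongruenceSubgroup.Gamma0 N) :
    FF N →+* FractionRing (nice N) := sigmaCusp N c.out

theorem niceToMer_sigmaCuspQ (N : ℕ) [NeZero N] (c : SL(2, ℤ) ⧸ CongruenceSubgroup.Gamma0 N)
    (x : FF N) : niceToMer N (sigmaCuspQ N c x) = sigmaQ N c x :=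
  niceToMer_sigmaCusp N _ x

end Fermat.Agent.S24
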