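import Fermat.Agent.S24.FFZeros

set_option autoImplicit false
set_option linter.unusedSectionVars false
set_option linter.style.haveILetI false

/-!
# S24, general function fields: residue fields, the class `IsFF`, poles, principal divisors
-/

namespace Fermat.Agent.S24

open AlgebraicCurve IsDedekindDomain WithZero Polynomial IntermediateField

variable {K F : Type*} [Field K] [Field F] [Algebra K F]

namespace FF

/-- If `a` is algebraic over `K[t]`, `t` in the maximal ideal of `v` and `a` in the valuation ring,
then the residue class of `a` is algebraic over `K`. -/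
lemma isAlgebraic_residue (v : Place K F) {t : F} (htr : Transcendental K t) (ht : 0 < v.ord t)
    (a : v.toValuationSubring)
    (p : K[X][X]) (hp : p ≠ 0) (hpa : eval₂ (aeval t : K[X] →ₐ[K] F).toRingHom (a : F) p = 0) :
    IsAlgebraic K (IsLocalRing.residue v.toValuationSubring a) := by
  classical
  letI : NormalizedGCDMonoid K[X] := UniqueFactorizationMonoid.toNormalizedGCDMonoid K[X]
  have ht0 : t ≠ 0 := by
    rintro rfl; simp at ht
  have htmem : t ∈ v.toValuationSubring := (mem_iff_ord_nonneg v ht0).mpr ht.le
  -- the map `K[X] → O_v`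
  let g : K[X] →+* v.toValuationSubring :=
    (aeval t : K[X] →ₐ[K] F).toRingHom.codRestrict v.toValuationSubring.toSubring
      (fun P => aeval_mem v htmem P)
  have hg : (aeval t : K[X] →ₐ[K] F).toRingHom = (algebraMap v.toValuationSubring F).comp g := by
    ext <;> rfl
  -- pass to the primitive part
  have hdec := p.eq_C_content_mul_primPart
  have hc0 : p.content ≠ 0 := by rwa [Ne, content_eq_zero_iff]
  have hφc : (aeval t : K[X] →ₐ[K] F).toRingHom p.content ≠ 0 := by
    intro h
    exact hc0 ((transcendental_iff_injective.mp htr) (h.trans (map_zero _).symm))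
  have h1 : eval₂ (aeval t : K[X] →ₐ[K] F).toRingHom (a : F) p.primPart = 0 := by
    rw [hdec, eval₂_mul, eval₂_C] at hpa
    exact (mul_eq_zero.mp hpa).resolve_left hφc
  have h2 : eval₂ g a p.primPart = 0 := by
    apply Subtype.ext
    have := hom_eval₂ p.primPart g (algebraMap v.toValuationSubring F) a
    rw [← hg] at this
    exact this.trans h1
  have h3 := hom_eval₂ p.primPart g (IsLocalRing.residue v.toValuationSubring) a
  rw [h2, map_zero] at h3
  have h4 : (IsLocalRing.residue v.toValuationSubring).comp g
      = (algebraMap K v.ResidueField).comp (evalRingHom (0 : K)) := by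
    apply Polynomial.ringHom_ext
    · intro c
      simp only [RingHom.comp_apply, coe_evalRingHom, eval_C]
      have : g (C c) = algebraMap K v.toValuationSubring c := by
        apply Subtype.ext
        show aeval t (C c) = algebraMap K F c
        simp
      rw [this]
      rfl
    · simp only [RingHom.comp_apply, coe_evalRingHom, eval_X, map_zero]
      rw [IsLocalRing.residue_eq_zero_iff]
      have hne : g X ≠ 0 := by
        intro h
        apply ht0
        have := congrArg Subtype.val h
        simpa [g] using this
      rw [mem_maximalIdeal_iff v hne]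
      have : ((g X : v.toValuationSubring) : F) = t := by
        show aeval t X = t
        simp
      rw [this]
      exact ht
  refine ⟨p.primPart.map (evalRingHom (0 : K)), ?_, ?_⟩
  · intro h0
    have hdvd : C (X : K[X]) ∣ p.primPart := by
      rw [C_dvd_iff_dvd_coeff]
      intro i
      have := congrArg (fun q => q.coeff i) h0
      simp only [coeff_map, coe_evalRingHom, coeff_zero] at this
      rw [X_dvd_iff, coeff_zero_eq_eval_zero]
      exact this
    exact not_isUnit_X (p.isPrimitive_primPart _ hdvd)
  · rw [aeval_def, eval₂_map, ← h4]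
    exact h3.symm

/-- Equip `F` with the structure of an algebra over `K[X]` and `K(X)` via `X ↦ x`. -/
theorem with_ratFunc {x : F} (hx : Transcendental K x) [FiniteDimensional K⟮x⟯ F] {P : Prop}
    (h : ∀ (_ : Algebra K[X] F) (_ : Algebra (RatFunc K) F)
      (_ : IsScalarTower K[X] (RatFunc K) F) (_ : IsScalarTower K K[X] F)
      (_ : IsScalarTower K (RatFunc K) F) (_ : FiniteDimensional (RatFunc K) F),
      algebraMap K[X] F = (aeval x : K[X] →ₐ[K] F).toRingHom →
      algebraMap (RatFunc K) F RatFunc.X = x →
      Module.finrank (RatFunc K) F = Module.finrank K⟮x⟯ F → P) : P := by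
  letI a1 : Algebra K[X] F := (aeval x : K[X] →ₐ[K] F).toRingHom.toAlgebra
  let i : RatFunc K ≃+* K⟮x⟯ := (RatFunc.algEquivOfTranscendental x hx).toRingEquiv
  letI a2 : Algebra (RatFunc K) F := ((algebraMap K⟮x⟯ F).comp i.toRingHom).toAlgebra
  haveI t1 : IsScalarTower K[X] (RatFunc K) F := IsScalarTower.of_algebraMap_eq fun P => by
    show aeval x P = ((RatFunc.algEquivOfTranscendental x hx (algebraMap _ _ P) : K⟮x⟯) : F)
    rw [RatFunc.algEquivOfTranscendental_algebraMap]
    have := aeval_algebraMap_apply F (AdjoinSimple.gen K x) P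
    rw [AdjoinSimple.algebraMap_gen] at this
    exact this
  haveI t2 : IsScalarTower K K[X] F := IsScalarTower.of_algebraMap_eq fun a => by
    show algebraMap K F a = aeval x (C a)
    simp
  haveI t3 : IsScalarTower K (RatFunc K) F := IsScalarTower.of_algebraMap_eq fun a => by
    show algebraMap K F a
      = ((RatFunc.algEquivOfTranscendental x hx (algebraMap K (RatFunc K) a) : K⟮x⟯) : F)
    rw [AlgEquiv.commutes]
    rfl
  have hc : (algebraMap K⟮x⟯ F).comp i.toRingHom
      = (RingEquiv.refl F).toRingHom.comp (algebraMap (RatFunc K) F) := by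
    ext x; rfl
  haveI fd : FiniteDimensional (RatFunc K) F :=
    Module.Finite.of_equiv_equiv i.symm (RingEquiv.refl F) (by
      ext z
      show algebraMap K⟮x⟯ F (i (i.symm z)) = algebraMap K⟮x⟯ F z
      rw [RingEquiv.apply_symm_apply])
  have hfr : Module.finrank (RatFunc K) F = Module.finrank K⟮x⟯ F :=
    Algebra.finrank_eq_of_equiv_equiv i (RingEquiv.refl F) hc
  have hX : algebraMap (RatFunc K) F RatFunc.X = x := by
    show ((RatFunc.algEquivOfTranscendental x hx RatFunc.X : K⟮x⟯) : F) = x
    rw [RatFunc.algEquivOfTranscendental_X]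
  exact h a1 a2 t1 t2 t3 fd rfl hX hfr

/-- `F` is a function field in one variable over `K`. -/
class IsFF (K F : Type*) [Field K] [Field F] [Algebra K F] : Prop where
  exists_transcendental : ∃ x : F, Transcendental K x ∧ FiniteDimensional K⟮x⟯ F

theorem finiteDimensional_adjoin [IsFF K F] {y : F} (hy : Transcendental K y) :
    FiniteDimensional K⟮y⟯ F := by
  obtain ⟨x, hx, hfin⟩ := IsFF.exists_transcendental (K := K) (F := F)
  refine with_ratFunc hx fun a1 a2 t1 t2 t3 fd _ _ _ => ?_
  exact FunctionField.finiteDimensional_of_adjoin_transcendental hy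

theorem exists_poly_relation [IsFF K F] {t : F} (ht : Transcendental K t) (a : F) :
    ∃ p : K[X][X], p ≠ 0 ∧ eval₂ (aeval t : K[X] →ₐ[K] F).toRingHom a p = 0 := by
  haveI := finiteDimensional_adjoin ht
  refine with_ratFunc ht fun a1 a2 t1 t2 t3 fd h1 _ _ => ?_
  have h : IsAlgebraic K[X] a :=
    (IsFractionRing.isAlgebraic_iff K[X] (RatFunc K) F).mpr (Algebra.IsAlgebraic.isAlgebraic a)
  obtain ⟨p, hp, hpa⟩ := h
  refine ⟨p, hp, ?_⟩
  rw [← h1]
  exact hpa

lemma exists_const_of_isAlgebraic [IsAlgClosed K] {f : F} (hf : IsAlgebraic K f) :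
    ∃ c : K, f = algebraMap K F c := by
  have hint : IsIntegral K f := hf.isIntegral
  have hdeg := IsAlgClosed.degree_eq_one_of_irreducible K (minpoly.irreducible hint)
  obtain ⟨c, hc⟩ := minpoly.mem_range_of_degree_eq_one K f hdeg
  exact ⟨c, hc.symm⟩

lemma transcendental_of_ord_ne_zero [IsAlgClosed K] (v : Place K F) {f : F} (h : v.ord f ≠ 0) :
    Transcendental K f := by
  intro halg
  obtain ⟨c, rfl⟩ := exists_const_of_isAlgebraic halg
  exact h (ord_algebraMap v c)

/-- the residue field of a place is `K` -/
theorem algebraMap_residue_bijective [IsAlgClosed K] [IsFF K F] (v : Place K F) :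
    Function.Bijective (algebraMap K v.ResidueField) := by
  obtain ⟨π, hπ⟩ := IsDiscreteValuationRing.exists_irreducible v.toValuationSubring
  have h1 : v.ord (π : F) = 1 := v.ord_coe_irreducible hπ
  have htr : Transcendental K (π : F) := transcendental_of_ord_ne_zero v (by omega)
  haveI : Algebra.IsIntegral K v.ResidueField := by
    constructor
    intro z
    obtain ⟨a, rfl⟩ := IsLocalRing.residue_surjective z
    obtain ⟨p, hp, hpa⟩ := exists_poly_relation htr (a : F)
    exact (isAlgebraic_residue v htr (by omega) a p hp hpa).isIntegral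
  exact IsAlgClosed.algebraMap_bijective_of_isIntegral

theorem deg_eq_one [IsAlgClosed K] [IsFF K F] (v : Place K F) : v.deg = 1 := by
  have := (LinearEquiv.ofBijective (Algebra.linearMap K v.ResidueField)
    (algebraMap_residue_bijective v)).finrank_eq
  rw [Place.deg, ← this, Module.finrank_self]

end FF

end Fermat.Agent.S24
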