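import Fermat.Agent.S24.Loc1
import Fermat.Agent.S24.Hol

set_option autoImplicit false

/-!
# S24 : germs at a point of `ℍ` of elements of `Mer`, and the action of `SL₂(ℤ)`
-/

namespace Fermat.Agent.S24

open Filter Topology UpperHalfPlane
open scoped MatrixGroups Manifold

noncomputable section

namespace Loc

lemma analyticAt_hol (F : Hol) (τ : ℍ) : AnalyticAt ℂ ((F : ℍ → ℂ) ∘ ofComplex) (τ : ℂ) :=
  (UpperHalfPlane.mdifferentiable_iff.mp (mem_Hol.mp F.2)).analyticAt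
    (isOpen_upperHalfPlaneSet.mem_nhds τ.im_pos)

/-- the germ at `τ₀` of a holomorphic function on `ℍ` -/
def holGerm (τ₀ : ℍ) : Hol →+* MerGerm (τ₀ : ℂ) where
  toFun F := MerGerm.mk ((F : ℍ → ℂ) ∘ ofComplex) (analyticAt_hol F τ₀).meromorphicAt
  map_one' := rfl
  map_mul' _ _ := rfl
  map_zero' := rfl
  map_add' _ _ := rfl

lemma holGerm_apply (τ₀ : ℍ) (F : Hol) :
    holGerm τ₀ F = MerGerm.mk ((F : ℍ → ℂ) ∘ ofComplex) (analyticAt_hol F τ₀).meromorphicAt := rfl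

lemma tendsto_coe_nhds (τ₀ : ℍ) : Tendsto (fun z : ℍ => (z : ℂ)) (𝓝 τ₀) (𝓝 (τ₀ : ℂ)) :=
  UpperHalfPlane.continuous_coe.continuousAt

lemma holGerm_injective (τ₀ : ℍ) : Function.Injective (holGerm τ₀) := by
  rw [injective_iff_map_eq_zero]
  intro F hF
  rw [holGerm_apply, MerGerm.zero_eq_mk, MerGerm.mk_eq_mk_iff] at hF
  have h1 : ∀ᶠ z in 𝓝 (τ₀ : ℂ), ((F : ℍ → ℂ) ∘ ofComplex) z = 0 :=
    (analyticAt_hol F τ₀).frequently_zero_iff_eventually_zero.1 hF.frequently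
  apply Subtype.ext
  apply eq_zero_of_eventually_eq_zero (mem_Hol.mp F.2) τ₀
  have h2 := (tendsto_coe_nhds τ₀).eventually h1
  filter_upwards [h2] with z hz
  simpa using hz

/-- the germ at `τ₀` of an element of `Mer` -/
def germAt (τ₀ : ℍ) : Mer →+* MerGerm (τ₀ : ℂ) :=
  IsFractionRing.lift (g := holGerm τ₀) (holGerm_injective τ₀)

@[simp] lemma germAt_toMer (τ₀ : ℍ) (F : Hol) : germAt τ₀ (toMer F) = holGerm τ₀ F :=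
  IsFractionRing.lift_algebraMap _ _

/-- order of the germ of a holomorphic function -/
lemma ord_holGerm (τ₀ : ℍ) (F : Hol) {n : ℕ}
    (h : analyticOrderAt ((F : ℍ → ℂ) ∘ ofComplex) (τ₀ : ℂ) = n) : (holGerm τ₀ F).ord = n := by
  rw [holGerm_apply, MerGerm.ord_mk, (analyticAt_hol F τ₀).meromorphicOrderAt_eq, h]
  rfl

/-! ### Möbius transformations as maps `ℂ → ℂ` -/

/-- the Möbius transformation attached to `g`, as a map `ℂ → ℂ` -/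
def moeb (g : SL(2, ℤ)) (z : ℂ) : ℂ := ((g 0 0 : ℤ) * z + (g 0 1 : ℤ)) / ((g 1 0 : ℤ) * z + (g 1 1 : ℤ))

lemma denom_eq (g : SL(2, ℤ)) (τ : ℍ) : denom g τ = (g 1 0 : ℤ) * (τ : ℂ) + (g 1 1 : ℤ) := by
  rw [ModularGroup.denom_apply]

lemma moeb_coe (g : SL(2, ℤ)) (τ : ℍ) : moeb g τ = ((g • τ : ℍ) : ℂ) := by
  rw [UpperHalfPlane.coe_specialLinearGroup_apply]
  simp [moeb]

lemma denom_ne (g : SL(2, ℤ)) (τ : ℍ) : ((g 1 0 : ℤ) : ℂ) * (τ : ℂ) + (g 1 1 : ℤ) ≠ 0 := by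
  rw [← denom_eq]
  exact denom_ne_zero g τ

lemma hasDerivAt_moeb (g : SL(2, ℤ)) (τ : ℍ) :
    HasDerivAt (moeb g) (1 / (denom g τ) ^ 2) (τ : ℂ) := by
  have hne := denom_ne g τ
  have h1 : HasDerivAt (fun z : ℂ => ((g 0 0 : ℤ) : ℂ) * z + (g 0 1 : ℤ)) ((g 0 0 : ℤ) : ℂ) (τ : ℂ) := by
    simpa using ((hasDerivAt_id (τ : ℂ)).const_mul ((g 0 0 : ℤ) : ℂ)).add_const ((g 0 1 : ℤ) : ℂ)
  have h2 : HasDerivAt (fun z : ℂ => ((g 1 0 : ℤ) : ℂ) * z + (g 1 1 : ℤ)) ((g 1 0 : ℤ) : ℂ) (τ : ℂ) := by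
    simpa using ((hasDerivAt_id (τ : ℂ)).const_mul ((g 1 0 : ℤ) : ℂ)).add_const ((g 1 1 : ℤ) : ℂ)
  have h3 := h1.div h2 hne
  have hdet : ((g 0 0 : ℤ) : ℂ) * (g 1 1 : ℤ) - ((g 0 1 : ℤ) : ℂ) * (g 1 0 : ℤ) = 1 := by
    have := g.det_coe
    rw [Matrix.det_fin_two] at this
    exact_mod_cast this
  have h4 : (1 : ℂ) / (denom g τ) ^ 2 = ((((g 0 0 : ℤ) : ℂ) * (((g 1 0 : ℤ) : ℂ) * (τ : ℂ) + (g 1 1 : ℤ))
      - (((g 0 0 : ℤ) : ℂ) * (τ : ℂ) + (g 0 1 : ℤ)) * ((g 1 0 : ℤ) : ℂ)) /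
      (((g 1 0 : ℤ) : ℂ) * (τ : ℂ) + (g 1 1 : ℤ)) ^ 2) := by
    rw [denom_eq]
    congr 1
    linear_combination -hdet
  rw [h4]
  exact h3

lemma analyticAt_moeb (g : SL(2, ℤ)) (τ : ℍ) : AnalyticAt ℂ (moeb g) (τ : ℂ) := by
  unfold moeb
  have hne := denom_ne g τ
  fun_prop (disch := exact hne)

lemma deriv_moeb (g : SL(2, ℤ)) (τ : ℍ) : deriv (moeb g) (τ : ℂ) = 1 / (denom g τ) ^ 2 :=
  (hasDerivAt_moeb g τ).deriv

lemma deriv_moeb_ne_zero (g : SL(2, ℤ)) (τ : ℍ) : deriv (moeb g) (τ : ℂ) ≠ 0 := by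
  rw [deriv_moeb]
  exact one_div_ne_zero (pow_ne_zero 2 (denom_ne_zero g τ))

/-- composition of germs with the Möbius transformation `g : (ℍ, τ₀) → (ℍ, τ₁)` -/
def moebGerm (g : SL(2, ℤ)) {τ₀ τ₁ : ℍ} (h : g • τ₀ = τ₁) :
    MerGerm (τ₁ : ℂ) →+* MerGerm (τ₀ : ℂ) :=
  MerGerm.comp (moeb g) (analyticAt_moeb g τ₀)
    (MerGerm.not_eventuallyConst_of_deriv_ne_zero (deriv_moeb_ne_zero g τ₀))
    (by rw [moeb_coe, h])

lemma ord_moebGerm (g : SL(2, ℤ)) {τ₀ τ₁ : ℍ} (h : g • τ₀ = τ₁) (a : MerGerm (τ₁ : ℂ)) :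
    (moebGerm g h a).ord = a.ord :=
  MerGerm.ord_comp_of_deriv_ne_zero (analyticAt_moeb g τ₀) (deriv_moeb_ne_zero g τ₀) _ a

lemma eventually_im_pos (τ₀ : ℍ) : ∀ᶠ z in 𝓝 (τ₀ : ℂ), 0 < z.im :=
  isOpen_upperHalfPlaneSet.mem_nhds τ₀.im_pos

/-- `germ_{τ₀} (F ∘ g) = (germ_{g τ₀} F) ∘ g` -/
lemma holGerm_actHol (γ : SL(2, ℤ)) {τ₀ τ₁ : ℍ} (h : γ⁻¹ • τ₀ = τ₁) (F : Hol) :
    holGerm τ₀ (actHol γ F) = moebGerm γ⁻¹ h (holGerm τ₁ F) := by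
  rw [holGerm_apply, holGerm_apply, moebGerm, MerGerm.comp_mk, MerGerm.mk_eq_mk_iff]
  have h1 := (eventually_im_pos τ₀).filter_mono (nhdsWithin_le_nhds (s := {(τ₀ : ℂ)}ᶜ))
  filter_upwards [h1] with z hz
  simp only [Function.comp_apply, actHol_apply]
  have h2 : moeb γ⁻¹ z = ((γ⁻¹ • (⟨z, hz⟩ : ℍ) : ℍ) : ℂ) := moeb_coe γ⁻¹ ⟨z, hz⟩
  rw [h2, ofComplex_apply, ofComplex_apply_of_im_pos hz]

lemma germAt_act (γ : SL(2, ℤ)) {τ₀ τ₁ : ℍ} (h : γ⁻¹ • τ₀ = τ₁) (x : Mer) :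
    germAt τ₀ (act γ x) = moebGerm γ⁻¹ h (germAt τ₁ x) := by
  have : (germAt τ₀).comp (act γ) = (moebGerm γ⁻¹ h).comp (germAt τ₁) := by
    apply Mer_ringHom_ext
    intro F
    simp only [RingHom.comp_apply, act_toMer, germAt_toMer]
    exact holGerm_actHol γ h F
  exact congrArg (fun φ : Mer →+* MerGerm (τ₀ : ℂ) => φ x) this

/-- A germ invariant under an element `g` of the stabiliser of `τ₀`. -/
theorem denom_zpow_ord_eq_one (g : SL(2, ℤ)) {τ₀ : ℍ} (h : g • τ₀ = τ₀) {a : MerGerm (τ₀ : ℂ)}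
    (ha : a ≠ 0) (hinv : moebGerm g h a = a) : (1 / (denom g τ₀) ^ 2) ^ a.ord = 1 := by
  rw [← deriv_moeb]
  exact MerGerm.deriv_zpow_ord_eq_one (analyticAt_moeb g τ₀) (deriv_moeb_ne_zero g τ₀)
    (by rw [moeb_coe, h]) ha hinv

lemma denom_mul (a b : SL(2, ℤ)) (τ : ℍ) :
    denom (a * b : SL(2, ℤ)) τ = denom a ((b • τ : ℍ) : ℂ) * denom b τ := by
  have hne := denom_ne b τ
  rw [denom_eq, denom_eq, denom_eq, ← moeb_coe, moeb, Matrix.SpecialLinearGroup.coe_mul,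
    Matrix.mul_apply, Matrix.mul_apply]
  simp only [Fin.sum_univ_two]
  push_cast
  field_simp
  ring

lemma denom_pow_of_fixed (g : SL(2, ℤ)) {τ₀ : ℍ} (h : g • τ₀ = τ₀) (n : ℕ) :
    (g ^ n) • τ₀ = τ₀ ∧ denom (g ^ n : SL(2, ℤ)) τ₀ = (denom g τ₀) ^ n := by
  induction n with
  | zero => simp [denom_eq]
  | succ n ih =>
    constructor
    · rw [pow_succ, mul_smul, h, ih.1]
    · rw [pow_succ, denom_mul, h, ih.2, pow_succ]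

end Loc

end

end Fermat.Agent.S24
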