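import Fermat.Agent.S24.Count1
import Fermat.Agent.S24.Count2

set_option autoImplicit false

/-!
# S24 : counting the places above a point from a full family of local embeddings

Abstract form of "every place above `u = 0` is analytic" and of the counting trick
`e_v ≤ orbit size`, `∑ e_v = n = ∑ orbit sizes`.
-/

namespace Fermat.Agent.S24

open AlgebraicCurve IntermediateField

namespace Count

section

variable {K F M X : Type*} [Field K] [Field F] [Algebra K F] [Field M]

lemma w_one {w : M → ℤ} (w_mul : ∀ a b : M, a ≠ 0 → b ≠ 0 → w (a * b) = w a + w b) : w 1 = 0 := by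
  have := w_mul 1 1 one_ne_zero one_ne_zero
  rw [mul_one] at this
  omega

lemma w_prod {w : M → ℤ} (w_mul : ∀ a b : M, a ≠ 0 → b ≠ 0 → w (a * b) = w a + w b)
    (s : Finset X) (a : X → M) (ha : ∀ i ∈ s, a i ≠ 0) :
    w (∏ i ∈ s, a i) = ∑ i ∈ s, w (a i) := by
  classical
  induction s using Finset.induction_on with
  | empty => simpa using w_one w_mul
  | insert j s hj ih =>
    rw [Finset.prod_insert hj, Finset.sum_insert hj,
      w_mul _ _ (ha j (Finset.mem_insert_self j s))
        (Finset.prod_ne_zero_iff.2 fun i hi => ha i (Finset.mem_insert_of_mem hi)),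
      ih fun i hi => ha i (Finset.mem_insert_of_mem hi)]

lemma isOrd_comp {w : M → ℤ} (w_mul : ∀ a b : M, a ≠ 0 → b ≠ 0 → w (a * b) = w a + w b)
    (w_add : ∀ a b : M, a ≠ 0 → b ≠ 0 → a + b ≠ 0 → min (w a) (w b) ≤ w (a + b))
    (τ : F →+* M) (w_K : ∀ c : K, c ≠ 0 → w (τ (algebraMap K F c)) = 0) :
    IsOrd K (fun f => w (τ f)) where
  mul a b ha hb := by
    simp only [map_mul]
    exact w_mul _ _ ((map_ne_zero τ).2 ha) ((map_ne_zero τ).2 hb)
  add a b ha hb hab := by
    simp only [map_add]
    exact w_add _ _ ((map_ne_zero τ).2 ha) ((map_ne_zero τ).2 hb)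
      (by rw [← map_add]; exact (map_ne_zero τ).2 hab)
  const := w_K

/-- permutations preserving a function -/
def stabFun {α : Type*} (W : X → α) : Subgroup (Equiv.Perm X) where
  carrier := {g | ∀ i, W (g i) = W i}
  mul_mem' := fun {a b} ha hb i => by rw [Equiv.Perm.mul_apply, ha, hb]
  one_mem' := fun _ => rfl
  inv_mem' := fun {a} ha i => by
    have := ha (a⁻¹ i)
    rw [← Equiv.Perm.mul_apply, mul_inv_cancel, Equiv.Perm.one_apply] at this
    exact this.symm

end

section main

variable {K F M X : Type*} [Field K] [CharZero K] [Field F] [Algebra K F] [Field M] [Fintype X]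
  (u : F) (hu0 : u ≠ 0) [FiniteDimensional K⟮u⟯ F]
  (w : M → ℤ) (w_mul : ∀ a b : M, a ≠ 0 → b ≠ 0 → w (a * b) = w a + w b)
  (w_add : ∀ a b : M, a ≠ 0 → b ≠ 0 → a + b ≠ 0 → min (w a) (w b) ≤ w (a + b))
  (σ : X → (F →+* M)) (σ_inj : Function.Injective σ)
  (σ_K : ∀ i i' (c : K), σ i (algebraMap K F c) = σ i' (algebraMap K F c))
  (σ_u : ∀ i i', σ i u = σ i' u)
  (hcard : Fintype.card X = Module.finrank K⟮u⟯ F)
  (w_K : ∀ i (c : K), c ≠ 0 → w (σ i (algebraMap K F c)) = 0)
  (e : ℤ) (e_pos : 0 < e) (w_u : ∀ i, w (σ i u) = e)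
  (hA5 : ∀ v : Place K F, 0 < v.ord u → ∀ s : Finset (Place K F), (∀ v' ∈ s, 0 < v'.ord u) →
    v ∉ s → ∃ f : F, f ≠ 0 ∧ 0 < v.ord f ∧ (∀ v' ∈ s, v'.ord f = 0) ∧
      ∀ v' : Place K F, 0 < v'.ord u →
        0 < v'.ord (algebraMap K⟮u⟯ F (Algebra.norm K⟮u⟯ f)))

omit [CharZero K] [Fintype X] [FiniteDimensional K⟮u⟯ F] in
include hu0 w_mul w_add w_K e_pos w_u in
/-- each index gives a place above `u = 0` -/
lemma exists_place_of_index (i : X) :
    ∃ (v : Place K F) (m : ℤ), 0 < m ∧ 0 < v.ord u ∧ ∀ f : F, f ≠ 0 → w (σ i f) = m * v.ord f := by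
  obtain ⟨v, m, hm, hv⟩ := (isOrd_comp (K := K) w_mul w_add (σ i) (w_K i)).exists_place
    ⟨u, hu0, by simp only [w_u]; exact e_pos.ne'⟩
  refine ⟨v, m, hm, ?_, hv⟩
  have := hv u hu0
  simp only [w_u] at this
  by_contra hcon
  push Not at hcon
  have : m * v.ord u ≤ 0 := mul_nonpos_of_nonneg_of_nonpos hm.le hcon
  omega

include hu0 w_mul w_add σ_inj σ_K σ_u hcard w_K e_pos w_u hA5 in
/-- every place above `u = 0` comes from an index -/
theorem exists_index_of_place (v : Place K F) (hv : 0 < v.ord u) :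
    ∃ (i : X) (m : ℤ), 0 < m ∧ ∀ f : F, f ≠ 0 → w (σ i f) = m * v.ord f := by
  classical
  choose κ m hm hκu hκ using exists_place_of_index (K := K) u hu0 w w_mul w_add σ w_K e e_pos w_u
  by_cases hmem : v ∈ Finset.univ.image κ
  · obtain ⟨i, -, rfl⟩ := Finset.mem_image.1 hmem
    exact ⟨i, m i, hm i, hκ i⟩
  exfalso
  obtain ⟨f, hf0, -, hf, hN⟩ := hA5 v hv (Finset.univ.image κ) (by
    intro v' hv'
    obtain ⟨i, -, rfl⟩ := Finset.mem_image.1 hv'
    exact hκu i) hmem
  have hX : Nonempty X := by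
    rw [← Fintype.card_pos_iff, hcard]
    exact Module.finrank_pos
  obtain ⟨i₀⟩ := hX
  have h1 := norm_eq_prod u σ σ_inj σ_K σ_u hcard i₀ f
  have h2 : w (∏ i, σ i f) = 0 := by
    rw [w_prod w_mul _ _ fun i _ => (map_ne_zero (σ i)).2 hf0]
    refine Finset.sum_eq_zero fun i _ => ?_
    rw [hκ i f hf0, hf (κ i) (Finset.mem_image_of_mem κ (Finset.mem_univ i)), mul_zero]
  have h3 := hN (κ i₀) (hκu i₀)
  have hN0 : algebraMap K⟮u⟯ F (Algebra.norm K⟮u⟯ f) ≠ 0 := by
    intro h0
    rw [h0, Place.ord_zero] at h3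
    exact lt_irrefl _ h3
  have h4 := hκ i₀ _ hN0
  rw [h1, h2] at h4
  have := mul_pos (hm i₀) h3
  omega

variable (ε : Equiv.Perm X) (w_ε : ∀ i f, w (σ (ε i) f) = w (σ i f))
  (hdvd : ∀ i (f : F), f ≠ 0 → e ∣ w (σ i f) * (Function.minimalPeriod ε i : ℤ))
  (hfin : Finite {v : Place K F // 0 < v.ord u})
  (hsum : ∑ᶠ v : {v : Place K F // 0 < v.ord u}, v.1.ord u = (Module.finrank K⟮u⟯ F : ℤ))

include hu0 w_mul w_add σ_inj σ_K σ_u hcard w_K e_pos w_u hA5 w_ε hdvd hfin hsum in
/-- the number of places above `u = 0` is the number of orbits -/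
theorem card_places :
    Nat.card {v : Place K F // 0 < v.ord u}
      = Nat.card (MulAction.orbitRel.Quotient (Subgroup.zpowers ε) X) := by
  classical
  choose κ m hm hκu hκ using exists_place_of_index (K := K) u hu0 w w_mul w_add σ w_K e e_pos w_u
  let P := {v : Place K F // 0 < v.ord u}
  let Q := MulAction.orbitRel.Quotient (Subgroup.zpowers ε) X
  have : Fintype P := Fintype.ofFinite P
  have : Fintype Q := Fintype.ofFinite Q
  -- `κ` only depends on the order function
  have hκext : ∀ i i', (∀ f, w (σ i f) = w (σ i' f)) → κ i = κ i' := by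
    intro i i' h
    apply place_ext
    intro f hf
    have h1 := hκ i f hf
    have h2 := hκ i' f hf
    rw [h f] at h1
    constructor
    · intro h3
      by_contra h4
      push Not at h4
      have h5 := mul_nonneg (hm i).le h3
      have h6 := mul_neg_of_pos_of_neg (hm i') h4
      omega
    · intro h3
      by_contra h4
      push Not at h4
      have h5 := mul_nonneg (hm i').le h3
      have h6 := mul_neg_of_pos_of_neg (hm i) h4
      omega
  have hstab : Subgroup.zpowers ε ≤ stabFun (fun i => fun f => w (σ i f)) := by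
    rw [Subgroup.zpowers_le]
    intro i
    funext f
    exact w_ε i f
  let κP : X → P := fun i => ⟨κ i, hκu i⟩
  have hκorb : ∀ i i' : X, (MulAction.orbitRel (Subgroup.zpowers ε) X) i i' → κP i = κP i' := by
    intro i i' h
    rw [MulAction.orbitRel_apply] at h
    obtain ⟨g, rfl⟩ := h
    apply Subtype.ext
    apply hκext
    intro f
    exact congrFun (hstab g.2 i') f
  let κQ : Q → P := Quotient.lift κP hκorb
  have hsurj : Function.Surjective κQ := by
    rintro ⟨v, hv⟩
    obtain ⟨i, m', hm', hi⟩ := exists_index_of_place u hu0 w w_mul w_add σ σ_inj σ_K σ_u hcard w_K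
      e e_pos w_u hA5 v hv
    refine ⟨Quotient.mk _ i, ?_⟩
    apply Subtype.ext
    change κ i = v
    apply place_ext
    intro f hf
    have h1 := hκ i f hf
    have h2 := hi f hf
    constructor
    · intro h3
      by_contra h4
      push Not at h4
      have h5 := mul_nonneg (hm i).le h3
      have h6 := mul_neg_of_pos_of_neg hm' h4
      omega
    · intro h3
      by_contra h4
      push Not at h4
      have h5 := mul_nonneg hm'.le h3
      have h6 := mul_neg_of_pos_of_neg (hm i) h4
      omega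
  -- sizes of the orbits
  let size : Q → ℕ := fun O => Fintype.card {i : X // (Quotient.mk _ i : Q) = O}
  have hsize_sum : ∑ O, size O = Fintype.card X := by
    rw [← Fintype.card_sigma]
    exact Fintype.card_congr (Equiv.sigmaFiberEquiv (fun i : X => (Quotient.mk _ i : Q)))
  have hsize : ∀ i : X, size (Quotient.mk _ i) = Function.minimalPeriod ε i := by
    intro i
    have h1 := MulAction.minimalPeriod_eq_card (a := ε) (b := i)
    have h2 : Function.minimalPeriod (ε • ·) i = Function.minimalPeriod ε i := rfl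
    rw [← h2, h1]
    apply Fintype.card_congr
    refine Equiv.subtypeEquivRight fun i' => ?_
    rw [Quotient.eq]
    exact MulAction.orbitRel_apply
  have hle : ∀ i : X, (κ i).ord u ≤ size (Quotient.mk _ i) := by
    intro i
    rw [hsize]
    obtain ⟨π, -, hπ⟩ := exists_uniformizer (κ i)
    have hπ0 : (π : F) ≠ 0 := by
      intro h0
      rw [h0, Place.ord_zero] at hπ
      exact zero_ne_one hπ
    have h1 := hdvd i π hπ0
    rw [hκ i π hπ0, hπ, mul_one] at h1
    have h2 := hκ i u hu0
    rw [w_u] at h2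
    have hper : 0 < Function.minimalPeriod ε i :=
      Function.IsPeriodicPt.minimalPeriod_pos (orderOf_pos ε) (by
        rw [Function.IsPeriodicPt, Function.IsFixedPt, ← Equiv.Perm.coe_pow, pow_orderOf_eq_one]
        rfl)
    have h3 : e ≤ m i * (Function.minimalPeriod ε i : ℤ) :=
      Int.le_of_dvd (mul_pos (hm i) (by exact_mod_cast hper)) h1
    rw [h2] at h3
    exact le_of_mul_le_mul_left h3 (hm i)
  -- a section
  let s : P → Q := Function.surjInv hsurj
  have hs : ∀ v, κQ (s v) = v := Function.surjInv_eq hsurj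
  have hsinj : Function.Injective s := Function.injective_surjInv hsurj
  have hle' : ∀ v : P, v.1.ord u ≤ size (s v) := by
    intro v
    obtain ⟨i, hi⟩ := Quotient.exists_rep (s v)
    have h1 : κP i = v := by
      have := hs v
      rw [← hi] at this
      exact this
    have h2 := hle i
    rw [hi] at h2
    have h3 : κ i = v.1 := congrArg Subtype.val h1
    rwa [h3] at h2
  have hssurj : Function.Surjective s := by
    by_contra hns
    rw [Function.Surjective] at hns
    push Not at hns
    obtain ⟨O₀, hO₀⟩ := hns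
    have h1 : (∑ v : P, v.1.ord u) ≤ ∑ v : P, (size (s v) : ℤ) :=
      Finset.sum_le_sum fun v _ => hle' v
    have h2 : ∑ v : P, (size (s v) : ℤ) = ∑ O ∈ Finset.univ.image s, (size O : ℤ) := by
      rw [Finset.sum_image fun a _ b _ h => hsinj h]
    have h3 : ∑ O ∈ Finset.univ.image s, (size O : ℤ) + size O₀ ≤ ∑ O, (size O : ℤ) := by
      have hnot : O₀ ∉ Finset.univ.image s := by
        intro h
        obtain ⟨v, -, hv⟩ := Finset.mem_image.1 h
        exact hO₀ v hv
      rw [add_comm, ← Finset.sum_insert (f := fun O => (size O : ℤ)) hnot]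
      exact Finset.sum_le_sum_of_subset_of_nonneg (Finset.subset_univ _)
        fun _ _ _ => by positivity
    have h4 : 0 < size O₀ := by
      obtain ⟨i, hi⟩ := Quotient.exists_rep O₀
      exact Fintype.card_pos_iff.2 ⟨⟨i, hi⟩⟩
    have hsum' : ∑ v : P, v.1.ord u = (Module.finrank K⟮u⟯ F : ℤ) := by
      rw [← hsum, finsum_eq_sum_of_fintype]
    have h5 : (∑ O, (size O : ℤ)) = Fintype.card X := by exact_mod_cast hsize_sum
    rw [hcard] at h5
    have h6 : (0 : ℤ) < size O₀ := by exact_mod_cast h4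
    omega
  exact Nat.card_congr (Equiv.ofBijective s ⟨hsinj, hssurj⟩)

end main

end Count

end Fermat.Agent.S24
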