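import Fermat.Agent.S20.PartC2
import Fermat.Agent.S20.PartC4

set_option autoImplicit false
set_option linter.style.haveILetI false

/-!
# S24, package ORB: orbits of `S`, `U`, `T` on `SL(2,ℤ) ⧸ Γ₀(N)` versus `finrank AS, AU, AT`
-/

namespace Fermat.Agent.S24

open scoped MatrixGroups
open CongruenceSubgroup Fermat.Agent.S21 Fermat.Agent.S20

namespace Orbits

variable {X : Type*}

lemma apply_zpow_of_invariant (ε : Equiv.Perm X) {u : X → ℂ} (hu : ∀ x, u (ε x) = u x) (i : ℤ)
    (x : X) : u ((ε ^ i) x) = u x := by
  induction i using Int.induction_on generalizing x with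
  | zero => simp
  | succ n ih =>
    rw [zpow_add, zpow_one, Equiv.Perm.mul_apply, ih, hu]
  | pred n ih =>
    rw [zpow_sub, zpow_one, Equiv.Perm.mul_apply, ih]
    have := hu (ε⁻¹ x)
    rw [← Equiv.Perm.mul_apply, mul_inv_cancel, Equiv.Perm.one_apply] at this
    exact this.symm

variable [Finite X]

/-- the dimension of the invariant functions is the number of cycles -/
theorem finrank_inv_sameCycle (ε : Equiv.Perm X) (W : Submodule ℂ (X → ℂ))
    (hW : ∀ u, u ∈ W ↔ ∀ x, u (ε x) = u x) :
    Module.finrank ℂ W = Nat.card (Quotient (Equiv.Perm.SameCycle.setoid ε)) := by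
  have h := PartC4.finrank_invariant_eq_card_range (X := X) ε
    (fun x => (Quotient.mk (Equiv.Perm.SameCycle.setoid ε) x)) W hW
    (fun x => Quotient.sound (by
      show Equiv.Perm.SameCycle ε (ε x) x
      exact ⟨-1, by simp⟩))
    (fun x y hxy u hu => by
      obtain ⟨i, hi⟩ : Equiv.Perm.SameCycle ε x y := Quotient.exact hxy
      rw [← hi, apply_zpow_of_invariant ε ((hW u).mp hu)])
  rw [h]
  have hsurj : Set.range (fun x => (Quotient.mk (Equiv.Perm.SameCycle.setoid ε) x)) = Set.univ :=
    Set.range_eq_univ.mpr Quotient.mk_surjective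
  rw [hsurj, Nat.card_univ]

/-- the dimension of the invariant functions is the number of orbits -/
theorem finrank_inv_orbitRel (ε : Equiv.Perm X) (W : Submodule ℂ (X → ℂ))
    (hW : ∀ u, u ∈ W ↔ ∀ x, u (ε x) = u x) :
    Module.finrank ℂ W = Nat.card (MulAction.orbitRel.Quotient (Subgroup.zpowers ε) X) := by
  have h := PartC4.finrank_invariant_eq_card_range (X := X) ε
    (fun x => (Quotient.mk (MulAction.orbitRel (Subgroup.zpowers ε) X) x)) W hW
    (fun x => Quotient.sound (by
      show ε x ∈ MulAction.orbit (Subgroup.zpowers ε) x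
      exact ⟨⟨ε, Subgroup.mem_zpowers ε⟩, rfl⟩))
    (fun x y hxy u hu => by
      have : x ∈ MulAction.orbit (Subgroup.zpowers ε) y := Quotient.exact hxy
      obtain ⟨⟨g, i, rfl⟩, hg⟩ := this
      rw [← hg]
      exact apply_zpow_of_invariant ε ((hW u).mp hu) i y)
  rw [h]
  have hsurj : Set.range (fun x => (Quotient.mk (MulAction.orbitRel (Subgroup.zpowers ε) X) x))
      = Set.univ := Set.range_eq_univ.mpr Quotient.mk_surjective
  rw [hsurj, Nat.card_univ]

/-- kernel and image of the averaging operator -/
theorem finrank_anti_add_finrank_inv (ε : Equiv.Perm X) (p : ℕ) (hp : 0 < p) (hε : ε ^ p = 1)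
    (A W : Submodule ℂ (X → ℂ))
    (hA : ∀ u, u ∈ A ↔ ∀ x, ∑ k ∈ Finset.range p, u ((ε ^ k) x) = 0)
    (hW : ∀ u, u ∈ W ↔ ∀ x, u (ε x) = u x) :
    Module.finrank ℂ A + Module.finrank ℂ W = Nat.card X := by
  classical
  haveI : Fintype X := Fintype.ofFinite X
  let L : (X → ℂ) →ₗ[ℂ] (X → ℂ) :=
    { toFun := fun u x => ∑ k ∈ Finset.range p, u ((ε ^ k) x)
      map_add' := fun u v => by
        funext x
        simp [Finset.sum_add_distrib]
      map_smul' := fun c u => by
        funext x
        simp [Finset.mul_sum] }
  have hker : LinearMap.ker L = A := by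
    ext u
    rw [LinearMap.mem_ker, hA]
    constructor
    · intro h x
      exact congrFun h x
    · intro h
      funext x
      exact h x
  have hrange : LinearMap.range L = W := by
    ext u
    rw [hW]
    constructor
    · rintro ⟨w, rfl⟩ x
      show ∑ k ∈ Finset.range p, w ((ε ^ k) (ε x)) = ∑ k ∈ Finset.range p, w ((ε ^ k) x)
      have h1 : ∀ k, w ((ε ^ k) (ε x)) = w ((ε ^ (k + 1)) x) := by
        intro k
        rw [pow_succ, Equiv.Perm.mul_apply]
      simp only [h1]
      have e1 := Finset.sum_range_succ' (fun k => w ((ε ^ k) x)) p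
      have e2 := Finset.sum_range_succ (fun k => w ((ε ^ k) x)) p
      simp only [hε, pow_zero] at e1 e2
      linear_combination e2 - e1
    · intro h
      refine ⟨fun x => u x / p, ?_⟩
      funext x
      show ∑ k ∈ Finset.range p, u ((ε ^ k) x) / p = u x
      have h1 : ∀ k : ℕ, u ((ε ^ k) x) = u x := by
        intro k
        have := apply_zpow_of_invariant ε h k x
        simpa using this
      simp only [h1, Finset.sum_const, Finset.card_range, nsmul_eq_mul]
      have : (p : ℂ) ≠ 0 := by exact_mod_cast hp.ne'
      field_simp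
  have h := LinearMap.finrank_range_add_finrank_ker L
  rw [hker, hrange, Module.finrank_fintype_fun_eq_card] at h
  rw [Nat.card_eq_fintype_card]
  omega

/-- the space of invariant functions of a permutation -/
def invSub (ε : Equiv.Perm X) : Submodule ℂ (X → ℂ) where
  carrier := {u | ∀ x, u (ε x) = u x}
  add_mem' := by
    intro a b ha hb x
    simp only [Pi.add_apply, ha x, hb x]
  zero_mem' := by intro x; simp
  smul_mem' := by
    intro c a ha x
    simp only [Pi.smul_apply, ha x]

omit [Finite X] in
lemma mem_invSub (ε : Equiv.Perm X) (u : X → ℂ) : u ∈ invSub ε ↔ ∀ x, u (ε x) = u x := Iff.rfl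

/-- cycles and orbits are counted by the same number -/
theorem card_sameCycle_eq_card_orbitRel (ε : Equiv.Perm X) :
    Nat.card (Quotient (Equiv.Perm.SameCycle.setoid ε))
      = Nat.card (MulAction.orbitRel.Quotient (Subgroup.zpowers ε) X) := by
  rw [← finrank_inv_sameCycle ε (invSub ε) (mem_invSub ε),
    finrank_inv_orbitRel ε (invSub ε) (mem_invSub ε)]

end Orbits

open Orbits

section

variable (N : ℕ) [NeZero N]

local notation "XN" => SL(2, ℤ) ⧸ Gamma0 N

theorem card_orbits_S :
    Nat.card (MulAction.orbitRel.Quotient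
        (Subgroup.zpowers (MulAction.toPerm ModularGroup.S : Equiv.Perm XN)) XN)
      + Module.finrank ℂ (AS (Gamma0 N)) = (Gamma0 N).index := by
  have h := finrank_anti_add_finrank_inv (MulAction.toPerm ModularGroup.S : Equiv.Perm XN) 2
    (by norm_num) (by
      ext q
      simp only [pow_two, Equiv.Perm.mul_apply, MulAction.toPerm_apply, Equiv.Perm.one_apply]
      rw [PartC2.S_S_smul]) (AS (Gamma0 N)) (invSub _) (fun u => by
      simp only [Finset.sum_range_succ, Finset.sum_range_zero, pow_zero, pow_one,
        Equiv.Perm.one_apply, MulAction.toPerm_apply, zero_add]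
      constructor
      · intro hu x
        have := hu x
        linear_combination this
      · intro hu x
        have := hu x
        linear_combination this) (mem_invSub _)
  rw [finrank_inv_orbitRel _ (invSub _) (mem_invSub _)] at h
  rw [Subgroup.index]
  omega

theorem card_orbits_U :
    Nat.card (MulAction.orbitRel.Quotient
        (Subgroup.zpowers (MulAction.toPerm Umat : Equiv.Perm XN)) XN)
      + Module.finrank ℂ (AU (Gamma0 N)) = (Gamma0 N).index := by
  have h := finrank_anti_add_finrank_inv (MulAction.toPerm Umat : Equiv.Perm XN) 3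
    (by norm_num) (by
      ext q
      simp only [pow_succ, pow_zero, one_mul, Equiv.Perm.mul_apply, MulAction.toPerm_apply,
        Equiv.Perm.one_apply]
      rw [PartC2.U_U_U_smul]) (AU (Gamma0 N)) (invSub _) (fun u => by
      simp only [Finset.sum_range_succ, Finset.sum_range_zero, pow_zero, pow_one, pow_two,
        Equiv.Perm.one_apply, Equiv.Perm.mul_apply, MulAction.toPerm_apply, zero_add]
      constructor
      · intro hu x
        have := hu x
        linear_combination this
      · intro hu x
        have := hu x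
        linear_combination this) (mem_invSub _)
  rw [finrank_inv_orbitRel _ (invSub _) (mem_invSub _)] at h
  rw [Subgroup.index]
  omega

theorem card_orbits_T :
    Nat.card (MulAction.orbitRel.Quotient
        (Subgroup.zpowers (MulAction.toPerm ModularGroup.T : Equiv.Perm XN)) XN)
      = Module.finrank ℂ (AT (Gamma0 N)) :=
  (finrank_inv_orbitRel (MulAction.toPerm ModularGroup.T : Equiv.Perm XN) (AT (Gamma0 N))
    (fun _ => Iff.rfl)).symm

theorem card_orbits_one :
    Nat.card (MulAction.orbitRel.Quotient (Subgroup.zpowers (1 : Equiv.Perm XN)) XN)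
      = (Gamma0 N).index := by
  rw [← finrank_inv_orbitRel (1 : Equiv.Perm XN) ⊤ (fun u => by simp), finrank_top,
    Subgroup.index]
  haveI : Fintype XN := Fintype.ofFinite _
  rw [Module.finrank_fintype_fun_eq_card, Nat.card_eq_fintype_card]

/-! the same statements for the number of cycles (`numOrbits` of the plan) -/

theorem card_cycles_S :
    Nat.card (Quotient (Equiv.Perm.SameCycle.setoid
        (MulAction.toPerm ModularGroup.S : Equiv.Perm XN)))
      + Module.finrank ℂ (AS (Gamma0 N)) = (Gamma0 N).index := by
  rw [card_sameCycle_eq_card_orbitRel]; exact card_orbits_S N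

theorem card_cycles_U :
    Nat.card (Quotient (Equiv.Perm.SameCycle.setoid (MulAction.toPerm Umat : Equiv.Perm XN)))
      + Module.finrank ℂ (AU (Gamma0 N)) = (Gamma0 N).index := by
  rw [card_sameCycle_eq_card_orbitRel]; exact card_orbits_U N

theorem card_cycles_T :
    Nat.card (Quotient (Equiv.Perm.SameCycle.setoid
        (MulAction.toPerm ModularGroup.T : Equiv.Perm XN)))
      = Module.finrank ℂ (AT (Gamma0 N)) := by
  rw [card_sameCycle_eq_card_orbitRel]; exact card_orbits_T N

theorem card_cycles_one :
    Nat.card (Quotient (Equiv.Perm.SameCycle.setoid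
        (MulAction.toPerm (1 : SL(2, ℤ)) : Equiv.Perm XN))) = (Gamma0 N).index := by
  rw [card_sameCycle_eq_card_orbitRel]
  have : (MulAction.toPerm (1 : SL(2, ℤ)) : Equiv.Perm XN) = 1 := by
    ext q; simp
  rw [this]
  exact card_orbits_one N

end

end Fermat.Agent.S24
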