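import Fermat.Agent.S24.Assembly
import Fermat.Agent.S24.Orbits
import Fermat.Agent.S24.Gen
import Fermat.Agent.S20

set_option autoImplicit false
set_option linter.unusedSectionVars false
set_option linter.style.haveILetI false

/-!
# S24: the final assembly, from the degree, the number of points of the fibres of `j` and the
local formula for the order of a differential
-/

namespace Fermat.Agent.S24

open AlgebraicCurve IntermediateField KaehlerDifferential
open scoped MatrixGroups
open CongruenceSubgroup Fermat.Agent.S21 Fermat.Agent.S20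

namespace Final

section abstract

variable {K F : Type*} [Field K] [IsAlgClosed K] [CharZero K] [Field F] [Algebra K F]
  (x : F) (hx : Transcendental K x) [FiniteDimensional K⟮x⟯ F]
  (hdiff : ∀ (v : AlgebraicCurve.Place K F) (u : F), v.ord u ≠ 0 → ∀ g : F, g ≠ 0 →
    v.ordDifferential (g • D K F u) = v.ord g + v.ord u - 1)

include hx hdiff

lemma D_ne_zero : D K F x ≠ 0 := by
  intro h0
  obtain ⟨s, hs, hsum⟩ := exists_poles x hx
  have hpos : 0 < Module.finrank K⟮x⟯ F := Module.finrank_pos
  have hne : s.Nonempty := by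
    rw [Finset.nonempty_iff_ne_empty]
    rintro rfl
    simp at hsum
    omega
  obtain ⟨v, hv⟩ := hne
  have hv' := (hs v).mp hv
  have hx0 : x ≠ 0 := fun h0 => hx (h0 ▸ isAlgebraic_zero)
  have h1 := hdiff v x hv'.ne 1 one_ne_zero
  have h2 := hdiff v x hv'.ne x hx0
  rw [h0, smul_zero] at h1 h2
  rw [h1, AlgebraicCurve.Place.ord_one] at h2
  omega

lemma ordDifferential_D_of_zero (c : K) (v : AlgebraicCurve.Place K F)
    (hv : 0 < v.ord (x - algebraMap K F c)) :
    v.ordDifferential (D K F x) = v.ord (x - algebraMap K F c) - 1 := by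
  have h1 := hdiff v (x - algebraMap K F c) hv.ne' 1 one_ne_zero
  rw [one_smul, map_sub, Derivation.map_algebraMap, sub_zero, AlgebraicCurve.Place.ord_one] at h1
  omega

lemma ordDifferential_D_of_pole (v : AlgebraicCurve.Place K F) (hv : 0 < v.ord x⁻¹) :
    v.ordDifferential (D K F x) = v.ord x - 1 := by
  rw [AlgebraicCurve.Place.ord_inv] at hv
  have h1 := hdiff v x (by omega) 1 one_ne_zero
  rw [one_smul, AlgebraicCurve.Place.ord_one] at h1
  omega

/-- **Riemann–Hurwitz** for a function `x` with three branch values `c₁, c₂, ∞`. -/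
theorem genus_eq [HasCanonicalDivisor (K := K) (F := F)] (c₁ c₂ : K) (hc : c₁ ≠ c₂)
    (hgen : ∀ a : K, a ≠ c₁ → a ≠ c₂ →
      Nat.card {v : AlgebraicCurve.Place K F // 0 < v.ord (x - algebraMap K F a)}
        = Module.finrank K⟮x⟯ F) :
    genus K F = ((Module.finrank K⟮x⟯ F : ℤ)
      - (Nat.card {v : AlgebraicCurve.Place K F // 0 < v.ord (x - algebraMap K F c₁)} : ℤ)
      - (Nat.card {v : AlgebraicCurve.Place K F // 0 < v.ord (x - algebraMap K F c₂)} : ℤ)
      - (Nat.card {v : AlgebraicCurve.Place K F // 0 < v.ord x⁻¹} : ℤ) + 2).toNat / 2 := by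
  have hD0 := D_ne_zero x hx hdiff
  apply genus_eq_of_degree x hx hD0
  intro ω hω
  rw [degree_canonicalDivisorOf x hx hD0 c₁ c₂ hc ?_ hω,
    sum_ordDifferential_zeros x hx c₁ (ordDifferential_D_of_zero x hx hdiff c₁),
    sum_ordDifferential_zeros x hx c₂ (ordDifferential_D_of_zero x hx hdiff c₂),
    sum_ordDifferential_poles x hx (ordDifferential_D_of_pole x hx hdiff)]
  · rw [← Nat.card_coe_set_eq, ← Nat.card_coe_set_eq, ← Nat.card_coe_set_eq]
    simp only [Set.coe_ofPred]
    ring
  · intro a h1 h2 v hv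
    rw [ordDifferential_D_of_zero x hx hdiff a v hv,
      ord_eq_one_of_ncard x hx a (by rw [← hgen a h1 h2, ← Nat.card_coe_set_eq]; rfl) v hv]
    rfl

end abstract

section concrete

variable (N : ℕ) [NeZero N]

local notation "XN" => SL(2, ℤ) ⧸ Gamma0 N

/-- **Final assembly of S24**, from the degree of `j`, the number of points in the fibres of `j`
and the local formula for the order of differentials. -/
theorem genus_eq_genusFormula [HasCanonicalDivisor (K := Kb) (F := FF N)]
    [FiniteDimensional Kb⟮jF N⟯ (FF N)]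
    (hdeg : Module.finrank Kb⟮jF N⟯ (FF N) = (Gamma0 N).index)
    (hdiff : ∀ (v : AlgebraicCurve.Place Kb (FF N)) (u : FF N), v.ord u ≠ 0 → ∀ g : FF N, g ≠ 0 →
      v.ordDifferential (g • D Kb (FF N) u) = v.ord g + v.ord u - 1)
    (hgen : ∀ a : Kb, a ≠ 0 → a ≠ 1728 →
      Nat.card {v : AlgebraicCurve.Place Kb (FF N) // 0 < v.ord (jF N - algebraMap Kb (FF N) a)}
        = (Gamma0 N).index)
    (hU : Nat.card {v : AlgebraicCurve.Place Kb (FF N) // 0 < v.ord (jF N - algebraMap Kb (FF N) 0)}
      = Nat.card (MulAction.orbitRel.Quotient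
        (Subgroup.zpowers (MulAction.toPerm Umat : Equiv.Perm XN)) XN))
    (hS : Nat.card
        {v : AlgebraicCurve.Place Kb (FF N) // 0 < v.ord (jF N - algebraMap Kb (FF N) 1728)}
      = Nat.card (MulAction.orbitRel.Quotient
        (Subgroup.zpowers (MulAction.toPerm ModularGroup.S : Equiv.Perm XN)) XN))
    (hT : Nat.card {v : AlgebraicCurve.Place Kb (FF N) // 0 < v.ord (jF N)⁻¹}
      = Nat.card (MulAction.orbitRel.Quotient
        (Subgroup.zpowers (MulAction.toPerm ModularGroup.T : Equiv.Perm XN)) XN)) :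
    (genus Kb (FF N) : ℚ) = ModularCurve.genusFormula N := by
  rw [genus_eq (jF N) (transcendental_jF N) hdiff 0 1728 (by norm_num)
    (fun a h1 h2 => by rw [hgen a h1 h2, hdeg]), hU, hS, hT, hdeg, ← S20.result N]
  have h1 := S20.PartD.main_nat N
  have h2 := card_orbits_S N
  have h3 := card_orbits_U N
  have h4 := card_orbits_T N
  have h5 := S20.finrank_AT N
  congr 1
  omega

end concrete

end Final

end Fermat.Agent.S24
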