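import Fermat.Agent.S24.FFMain
import Fermat.Agent.S24.FFOmega
import Fermat.Prelude.Def_AlgebraicCurve_CanonicalDivisor

set_option autoImplicit false
set_option linter.unusedSectionVars false
set_option linter.style.haveILetI false

/-!
# S24: abstract final assembly (degree of the canonical divisor from the fibres of `x`)
-/

namespace Fermat.Agent.S24

open AlgebraicCurve IntermediateField KaehlerDifferential

variable {K F : Type*} [Field K] [IsAlgClosed K] [CharZero K] [Field F] [Algebra K F]

namespace Assembly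

variable (x : F) (hx : Transcendental K x) [FiniteDimensional K⟮x⟯ F]

include hx

lemma not_mem_range_of_ord_ne_zero (v : AlgebraicCurve.Place K F) {t : F} (ht : v.ord t ≠ 0) :
    t ∉ Set.range (algebraMap K F) := by
  rintro ⟨c, rfl⟩
  exact ht (FF.ord_algebraMap v c)

lemma dCoordGenerates (v : AlgebraicCurve.Place K F) : v.DCoordGenerates := by
  obtain ⟨π, hπ, hd⟩ := Place.exists_dCoord v
  constructor
  rw [hd]
  exact span_D_eq_top x hx π (not_mem_range_of_ord_ne_zero x hx v (by omega))

lemma x_not_mem_range : x ∉ Set.range (algebraMap K F) := by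
  rintro ⟨c, rfl⟩
  exact hx (isAlgebraic_algebraMap c)

lemma exists_eq_smul_D (ω : Ω[F⁄K]) : ∃ g : F, ω = g • D K F x := by
  have h : ω ∈ Submodule.span F {D K F x} := by
    rw [span_D_eq_top x hx x (x_not_mem_range x hx)]; trivial
  obtain ⟨g, hg⟩ := Submodule.mem_span_singleton.mp h
  exact ⟨g, hg.symm⟩

lemma ordDifferential_smul_D (hD0 : D K F x ≠ 0) (v : AlgebraicCurve.Place K F) {g : F}
    (hg : g ≠ 0) : v.ordDifferential (g • D K F x) = v.ord g + v.ordDifferential (D K F x) := by
  haveI := dCoordGenerates x hx v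
  haveI : Nontrivial Ω[F⁄K] := ⟨D K F x, 0, hD0⟩
  apply v.ordDifferential_smul hg
  intro h0
  apply hD0
  rw [← v.differentialCoeff_smul_dCoord (D K F x), h0, zero_smul]

lemma ord_nonneg_of_zero {c : K} {v : AlgebraicCurve.Place K F}
    (hv : 0 < v.ord (x - algebraMap K F c)) : 0 ≤ v.ord x := by
  have hx0 : x ≠ 0 := fun h0 => hx (h0 ▸ isAlgebraic_zero)
  have h := Place.ord_add_ge v (f := x - algebraMap K F c) (g := algebraMap K F c)
    (by rwa [sub_add_cancel])
  rw [sub_add_cancel, FF.ord_algebraMap] at h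
  have := le_min hv.le (le_refl (0 : ℤ))
  omega

end Assembly

open Assembly

section

variable (x : F) (hx : Transcendental K x) [FiniteDimensional K⟮x⟯ F]

include hx

/-- **Abstract assembly**: the degree of a canonical divisor is the sum of the contributions of the
two special fibres and of the fibre at infinity, if `D x` has order `0` on all other fibres. -/
theorem degree_canonicalDivisorOf [HasCanonicalDivisor (K := K) (F := F)] (hD0 : D K F x ≠ 0)
    (c₁ c₂ : K) (hc : c₁ ≠ c₂)
    (hgen : ∀ a : K, a ≠ c₁ → a ≠ c₂ → ∀ v : AlgebraicCurve.Place K F,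
      0 < v.ord (x - algebraMap K F a) → v.ordDifferential (D K F x) = 0)
    {ω : Ω[F⁄K]} (hω : ω ≠ 0) :
    Divisor.degree (canonicalDivisorOf hω) =
      (∑ᶠ v ∈ {v : AlgebraicCurve.Place K F | 0 < v.ord (x - algebraMap K F c₁)},
          v.ordDifferential (D K F x))
      + (∑ᶠ v ∈ {v : AlgebraicCurve.Place K F | 0 < v.ord (x - algebraMap K F c₂)},
          v.ordDifferential (D K F x))
      + ∑ᶠ v ∈ {v : AlgebraicCurve.Place K F | 0 < v.ord x⁻¹},
          v.ordDifferential (D K F x) := by
  classical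
  haveI := isFF x hx
  obtain ⟨g, rfl⟩ := exists_eq_smul_D x hx ω
  have hg : g ≠ 0 := by
    rintro rfl; simp at hω
  obtain ⟨Dg, hDg, hDg0⟩ := (hasPrincipalDivisors x hx).exists_divisor g hg
  set D₀ := canonicalDivisorOf hω with hD₀
  have hD₁ : ∀ v, (D₀ - Dg) v = v.ordDifferential (D K F x) := by
    intro v
    rw [Finsupp.sub_apply, hDg, hD₀, canonicalDivisorOf_apply,
      ordDifferential_smul_D x hx hD0 v hg]
    ring
  have hdeg : Divisor.degree D₀ = Divisor.degree (D₀ - Dg) := by
    rw [map_sub, hDg0, sub_zero]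
  have hdeg2 : Divisor.degree (D₀ - Dg)
      = ∑ v ∈ (D₀ - Dg).support, v.ordDifferential (D K F x) := by
    rw [Divisor.degree, Finsupp.liftAddHom_apply, Finsupp.sum]
    refine Finset.sum_congr rfl fun v _ => ?_
    simp [FF.deg_eq_one v, hD₁ v]
  obtain ⟨s₁, hs₁, -⟩ := exists_zeros_sub x hx c₁
  obtain ⟨s₂, hs₂, -⟩ := exists_zeros_sub x hx c₂
  obtain ⟨sp, hsp, -⟩ := exists_poles x hx
  have e₁ : {v : AlgebraicCurve.Place K F | 0 < v.ord (x - algebraMap K F c₁)} = ↑s₁ := by
    ext v; simp [hs₁]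
  have e₂ : {v : AlgebraicCurve.Place K F | 0 < v.ord (x - algebraMap K F c₂)} = ↑s₂ := by
    ext v; simp [hs₂]
  have ep : {v : AlgebraicCurve.Place K F | 0 < v.ord x⁻¹} = ↑sp := by
    ext v; simp [hsp, AlgebraicCurve.Place.ord_inv]
  rw [e₁, e₂, ep, finsum_mem_coe_finset, finsum_mem_coe_finset, finsum_mem_coe_finset, hdeg, hdeg2]
  have hd12 : Disjoint s₁ s₂ := by
    rw [Finset.disjoint_left]
    intro v h1 h2
    rw [hs₁] at h1
    rw [hs₂] at h2
    exact hc ((exists_sub_ord_pos x hx v (ord_nonneg_of_zero x hx h1)).unique h1 h2)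
  have hd12p : Disjoint (s₁ ∪ s₂) sp := by
    rw [Finset.disjoint_left]
    intro v h1 h2
    rw [hsp] at h2
    rw [Finset.mem_union, hs₁, hs₂] at h1
    rcases h1 with h1 | h1
    · have := ord_nonneg_of_zero x hx h1; omega
    · have := ord_nonneg_of_zero x hx h1; omega
  rw [← Finset.sum_union hd12, ← Finset.sum_union hd12p]
  apply Finset.sum_subset
  · intro v hv
    rw [Finsupp.mem_support_iff, hD₁] at hv
    rw [Finset.mem_union, Finset.mem_union, hs₁, hs₂, hsp]
    by_cases hneg : v.ord x < 0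
    · exact Or.inr hneg
    · left
      obtain ⟨a, ha⟩ := (exists_sub_ord_pos x hx v (not_lt.mp hneg)).exists
      by_cases h1 : a = c₁
      · left; rw [← h1]; exact ha
      by_cases h2 : a = c₂
      · right; rw [← h2]; exact ha
      exact absurd (hgen a h1 h2 v ha) hv
  · intro v _ hv
    rw [Finsupp.mem_support_iff, hD₁, not_not] at hv
    exact hv

/-- the genus, once the degree of all canonical divisors is known -/
theorem genus_eq_of_degree [HasCanonicalDivisor (K := K) (F := F)] (hD0 : D K F x ≠ 0) (d : ℤ)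
    (hd : ∀ {ω : Ω[F⁄K]} (hω : ω ≠ 0), Divisor.degree (canonicalDivisorOf hω) = d) :
    genus K F = (d + 2).toNat / 2 := by
  have h : ∃ ω : Ω[F⁄K], ω ≠ 0 := ⟨_, hD0⟩
  rw [genus, dif_pos h, hd]

/-- contribution of a fibre over a finite value -/
theorem sum_ordDifferential_zeros (c : K)
    (hdiff : ∀ v : AlgebraicCurve.Place K F, 0 < v.ord (x - algebraMap K F c) →
      v.ordDifferential (D K F x) = v.ord (x - algebraMap K F c) - 1) :
    ∑ᶠ v ∈ {v : AlgebraicCurve.Place K F | 0 < v.ord (x - algebraMap K F c)},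
        v.ordDifferential (D K F x)
      = (Module.finrank K⟮x⟯ F : ℤ)
        - ({v : AlgebraicCurve.Place K F | 0 < v.ord (x - algebraMap K F c)}.ncard : ℤ) := by
  obtain ⟨s, hs, hsum⟩ := exists_zeros_sub x hx c
  have e : {v : AlgebraicCurve.Place K F | 0 < v.ord (x - algebraMap K F c)} = ↑s := by
    ext v; simp [hs]
  rw [e, finsum_mem_coe_finset, Set.ncard_coe_finset, ← hsum]
  rw [Finset.sum_congr rfl fun v hv => hdiff v ((hs v).mp hv), Finset.sum_sub_distrib]
  simp

/-- contribution of the fibre at infinity -/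
theorem sum_ordDifferential_poles
    (hdiff : ∀ v : AlgebraicCurve.Place K F, 0 < v.ord x⁻¹ →
      v.ordDifferential (D K F x) = v.ord x - 1) :
    ∑ᶠ v ∈ {v : AlgebraicCurve.Place K F | 0 < v.ord x⁻¹}, v.ordDifferential (D K F x)
      = - (Module.finrank K⟮x⟯ F : ℤ)
        - ({v : AlgebraicCurve.Place K F | 0 < v.ord x⁻¹}.ncard : ℤ) := by
  obtain ⟨s, hs, hsum⟩ := exists_poles x hx
  have e : {v : AlgebraicCurve.Place K F | 0 < v.ord x⁻¹} = ↑s := by
    ext v; simp [hs, AlgebraicCurve.Place.ord_inv]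
  rw [e, finsum_mem_coe_finset, Set.ncard_coe_finset, ← hsum]
  rw [Finset.sum_congr rfl fun v hv => hdiff v (by
    rw [AlgebraicCurve.Place.ord_inv]; have := (hs v).mp hv; omega), Finset.sum_sub_distrib]
  simp

/-- if a fibre has `[F : K(x)]` points, `x - c` has order one at each of them -/
theorem ord_eq_one_of_ncard (c : K)
    (hcard : {v : AlgebraicCurve.Place K F | 0 < v.ord (x - algebraMap K F c)}.ncard
      = Module.finrank K⟮x⟯ F) (v : AlgebraicCurve.Place K F)
    (hv : 0 < v.ord (x - algebraMap K F c)) : v.ord (x - algebraMap K F c) = 1 := by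
  obtain ⟨s, hs, hsum⟩ := exists_zeros_sub x hx c
  have e : {v : AlgebraicCurve.Place K F | 0 < v.ord (x - algebraMap K F c)} = ↑s := by
    ext v; simp [hs]
  rw [e, Set.ncard_coe_finset] at hcard
  by_contra hne
  have h1 : ∑ w ∈ s, (1 : ℤ) < ∑ w ∈ s, w.ord (x - algebraMap K F c) := by
    apply Finset.sum_lt_sum
    · intro w hw
      have := (hs w).mp hw
      omega
    · exact ⟨v, (hs v).mpr hv, by omega⟩
  rw [hsum, ← hcard] at h1
  simp at h1

end

end Fermat.Agent.S24
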