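import Mathlib
import Fermat.Prelude.Def_AlgebraicCurve_DivisorClassGroup

set_option autoImplicit false

/-!
# S24 : places attached to integer valued order functions
-/

namespace Fermat.Agent.S24

open AlgebraicCurve

namespace Count

variable {K F : Type*} [Field K] [Field F] [Algebra K F]

/-! ### a small API for places -/

lemma exists_uniformizer (v : Place K F) :
    ∃ π : v.toValuationSubring, Irreducible π ∧ v.ord (π : F) = 1 := by
  obtain ⟨π, hπ⟩ := IsDiscreteValuationRing.exists_irreducible v.toValuationSubring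
  exact ⟨π, hπ, v.ord_coe_irreducible hπ⟩

lemma mem_iff_ord_nonneg (v : Place K F) {f : F} (hf : f ≠ 0) :
    f ∈ v.toValuationSubring ↔ 0 ≤ v.ord f := by
  obtain ⟨π, hπ, -⟩ := exists_uniformizer v
  obtain ⟨u, hu⟩ := v.exists_unit_mul_zpow hf hπ
  have hπ0 : (π : F) ≠ 0 := by
    simpa [ne_eq, ZeroMemClass.coe_eq_zero] using hπ.ne_zero
  constructor
  · intro hmem
    by_contra hneg
    push Not at hneg
    -- then `π ^ (-ord f) * f = u` so `π` is a unit
    obtain ⟨n, hn⟩ : ∃ n : ℕ, v.ord f = -((n : ℤ) + 1) := ⟨(-(v.ord f) - 1).toNat, by omega⟩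
    have h1 : (π : F) ^ (n + 1) * f = (u : v.toValuationSubring) := by
      rw [hu, hn, zpow_neg, ← zpow_natCast]
      push_cast
      field_simp
    have h2 : π ^ (n + 1) * ⟨f, hmem⟩ = (u : v.toValuationSubring) := by
      apply Subtype.ext
      simpa using h1
    have h3 : IsUnit (π ^ (n + 1)) := isUnit_of_mul_isUnit_left (h2 ▸ u.isUnit)
    exact hπ.not_isUnit ((isUnit_pow_iff (Nat.succ_ne_zero n)).1 h3)
  · intro h
    obtain ⟨n, hn⟩ := Int.eq_ofNat_of_zero_le h
    rw [hu, hn, zpow_natCast]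
    exact v.toValuationSubring.mul_mem _ _ (u : v.toValuationSubring).2
      (v.toValuationSubring.pow_mem π.2 n)

lemma place_ext {v v' : Place K F} (h : ∀ f : F, f ≠ 0 → (0 ≤ v.ord f ↔ 0 ≤ v'.ord f)) :
    v = v' := by
  apply Place.ext
  ext f
  by_cases hf : f = 0
  · simp [hf]
  · rw [mem_iff_ord_nonneg v hf, mem_iff_ord_nonneg v' hf, h f hf]

/-! ### order functions -/

/-- An integer valued order function on `F`, trivial on `K`. -/
structure IsOrd (K : Type*) {F : Type*} [Field K] [Field F] [Algebra K F] (ω : F → ℤ) : Prop where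
  mul : ∀ a b : F, a ≠ 0 → b ≠ 0 → ω (a * b) = ω a + ω b
  add : ∀ a b : F, a ≠ 0 → b ≠ 0 → a + b ≠ 0 → min (ω a) (ω b) ≤ ω (a + b)
  const : ∀ c : K, c ≠ 0 → ω (algebraMap K F c) = 0

namespace IsOrd

variable {ω : F → ℤ} (h : IsOrd K ω)
include h

lemma one : ω 1 = 0 := by
  have := h.mul 1 1 one_ne_zero one_ne_zero
  rw [mul_one] at this
  omega

lemma neg_one : ω (-1) = 0 := by
  have := h.mul (-1) (-1) (neg_ne_zero.2 one_ne_zero) (neg_ne_zero.2 one_ne_zero)
  rw [neg_mul_neg, mul_one, h.one] at this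
  omega

lemma neg {a : F} (ha : a ≠ 0) : ω (-a) = ω a := by
  have := h.mul (-1) a (neg_ne_zero.2 one_ne_zero) ha
  rw [neg_one_mul, h.neg_one, zero_add] at this
  exact this

lemma inv {a : F} (ha : a ≠ 0) : ω a⁻¹ = -ω a := by
  have := h.mul a a⁻¹ ha (inv_ne_zero ha)
  rw [mul_inv_cancel₀ ha, h.one] at this
  omega

lemma pow {a : F} (ha : a ≠ 0) (n : ℕ) : ω (a ^ n) = n * ω a := by
  induction n with
  | zero => simp [h.one]
  | succ n ih =>
    rw [pow_succ, h.mul _ _ (pow_ne_zero n ha) ha, ih]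
    push_cast
    ring

lemma zpow {a : F} (ha : a ≠ 0) (n : ℤ) : ω (a ^ n) = n * ω a := by
  obtain ⟨m, rfl | rfl⟩ := n.eq_nat_or_neg
  · rw [zpow_natCast, h.pow ha]
  · rw [zpow_neg, zpow_natCast, h.inv (pow_ne_zero m ha), h.pow ha]
    ring

/-- the valuation subring of an order function -/
def subring : ValuationSubring F where
  carrier := {f | f = 0 ∨ 0 ≤ ω f}
  mul_mem' := by
    rintro a b (rfl | ha) (rfl | hb)
    · left; simp
    · left; simp
    · left; simp
    · by_cases ha0 : a = 0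
      · left; simp [ha0]
      by_cases hb0 : b = 0
      · left; simp [hb0]
      right
      rw [h.mul a b ha0 hb0]
      omega
  one_mem' := Or.inr h.one.ge
  add_mem' := by
    rintro a b ha hb
    by_cases ha0 : a = 0
    · simpa [ha0] using hb
    by_cases hb0 : b = 0
    · simpa [hb0] using ha
    by_cases hab : a + b = 0
    · left; exact hab
    right
    have := h.add a b ha0 hb0 hab
    have ha' := ha.resolve_left ha0
    have hb' := hb.resolve_left hb0
    exact le_trans (le_min ha' hb') this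
  zero_mem' := Or.inl rfl
  neg_mem' := by
    rintro a ha
    by_cases ha0 : a = 0
    · left; simp [ha0]
    right
    rw [h.neg ha0]
    exact ha.resolve_left ha0
  mem_or_inv_mem' := by
    intro a
    by_cases ha0 : a = 0
    · left; left; exact ha0
    rcases le_total 0 (ω a) with h1 | h1
    · left; right; exact h1
    · right; right
      rw [h.inv ha0]
      omega

lemma mem_subring {f : F} : f ∈ h.subring ↔ f = 0 ∨ 0 ≤ ω f := Iff.rfl

lemma mem_subring_of_ne {f : F} (hf : f ≠ 0) : f ∈ h.subring ↔ 0 ≤ ω f := by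
  rw [h.mem_subring]
  exact ⟨fun h' => h'.resolve_left hf, Or.inr⟩

lemma isUnit_iff (a : h.subring) : IsUnit a ↔ (a : F) ≠ 0 ∧ ω (a : F) = 0 := by
  constructor
  · rintro ⟨u, rfl⟩
    have h1 : ((u : h.subring) : F) * ((u⁻¹ : (h.subring)ˣ) : h.subring) = 1 := by
      have h0 : ((u : h.subring) * ((u⁻¹ : (h.subring)ˣ) : h.subring) : h.subring) = 1 := u.mul_inv
      have := congrArg (Subtype.val) h0
      exact this
    have hu0 : ((u : h.subring) : F) ≠ 0 := left_ne_zero_of_mul_eq_one h1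
    have hv0 : (((u⁻¹ : (h.subring)ˣ) : h.subring) : F) ≠ 0 := right_ne_zero_of_mul_eq_one h1
    have h2 := h.mul _ _ hu0 hv0
    rw [h1, h.one] at h2
    have h3 := (h.mem_subring_of_ne hu0).1 (u : h.subring).2
    have h4 := (h.mem_subring_of_ne hv0).1 ((u⁻¹ : (h.subring)ˣ) : h.subring).2
    exact ⟨hu0, by omega⟩
  · rintro ⟨h0, h1⟩
    have hinv : (a : F)⁻¹ ∈ h.subring := by
      rw [h.mem_subring_of_ne (inv_ne_zero h0), h.inv h0, h1]
      simp
    refine IsUnit.of_mul_eq_one ⟨(a : F)⁻¹, hinv⟩ ?_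
    apply Subtype.ext
    simpa using mul_inv_cancel₀ h0

/-- A non trivial order function is a positive multiple of the order function of a place. -/
theorem exists_place (hnt : ∃ f : F, f ≠ 0 ∧ ω f ≠ 0) :
    ∃ (v : Place K F) (m : ℤ), 0 < m ∧ ∀ f : F, f ≠ 0 → ω f = m * v.ord f := by
  classical
  -- the least positive value
  have hpos : ∃ n : ℕ, 0 < n ∧ ∃ f : F, f ≠ 0 ∧ ω f = n := by
    obtain ⟨f, hf, hωf⟩ := hnt
    rcases lt_or_gt_of_ne hωf with h1 | h1
    · exact ⟨(-ω f).toNat, by omega, f⁻¹, inv_ne_zero hf, by rw [h.inv hf]; omega⟩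
    · exact ⟨(ω f).toNat, by omega, f, hf, by omega⟩
  obtain ⟨hm0, t, ht0, htm⟩ := Nat.find_spec hpos
  set m := Nat.find hpos with hm
  have hmin : ∀ f : F, f ≠ 0 → 0 < ω f → (m : ℤ) ≤ ω f := by
    intro f hf hω
    have := Nat.find_min' hpos (m := (ω f).toNat) ⟨by omega, f, hf, by omega⟩
    omega
  have hdvd : ∀ f : F, f ≠ 0 → ω f = m * (ω f / m) := by
    intro f hf
    have h1 := h.mul f (t ^ (-(ω f / m))) hf (zpow_ne_zero _ ht0)
    rw [h.zpow ht0, htm] at h1
    have h2 := Int.emod_add_mul_ediv (ω f) m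
    have h3 := Int.emod_nonneg (ω f) (b := (m : ℤ)) (by omega)
    have h4 := Int.emod_lt_of_pos (ω f) (b := (m : ℤ)) (by omega)
    by_contra hne
    have h5 : 0 < ω f % m := by
      rcases h3.lt_or_eq with h6 | h6
      · exact h6
      · exfalso; apply hne; rw [← h6] at h2; omega
    have h6 := hmin _ (mul_ne_zero hf (zpow_ne_zero (-(ω f / m)) ht0)) (by
      rw [h1]
      have : -(ω f / ↑m) * (m : ℤ) = -(m * (ω f / m)) := by ring
      rw [this]
      omega)
    rw [h1] at h6
    have : -(ω f / ↑m) * (m : ℤ) = -(m * (ω f / m)) := by ring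
    rw [this] at h6
    omega
  have htmem : t ∈ h.subring := (h.mem_subring_of_ne ht0).2 (by omega)
  let π : h.subring := ⟨t, htmem⟩
  have hπirr : Irreducible π := by
    refine ⟨fun hu => ?_, fun a b hab => ?_⟩
    · have := ((h.isUnit_iff π).1 hu).2
      change ω t = 0 at this
      omega
    · have hab' : t = (a : F) * (b : F) := by
        have := congrArg Subtype.val hab
        simpa using this
      have ha0 : (a : F) ≠ 0 := fun h0 => ht0 (by rw [hab', h0, zero_mul])
      have hb0 : (b : F) ≠ 0 := fun h0 => ht0 (by rw [hab', h0, mul_zero])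
      have h1 := h.mul _ _ ha0 hb0
      rw [← hab', htm] at h1
      have ha1 := (h.mem_subring_of_ne ha0).1 a.2
      have hb1 := (h.mem_subring_of_ne hb0).1 b.2
      rw [h.isUnit_iff, h.isUnit_iff]
      by_contra hcon
      push Not at hcon
      have ha2 := hmin _ ha0 (lt_of_le_of_ne ha1 (Ne.symm (hcon.1 ha0)))
      have hb2 := hmin _ hb0 (lt_of_le_of_ne hb1 (Ne.symm (hcon.2 hb0)))
      omega
  -- decomposition
  have hdec : ∀ f : F, f ≠ 0 → ∃ u : (h.subring)ˣ,
      f = ((u : h.subring) : F) * (π : F) ^ (ω f / m) := by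
    intro f hf
    have hne : f * t ^ (-(ω f / m)) ≠ 0 := mul_ne_zero hf (zpow_ne_zero _ ht0)
    have h1 : ω (f * t ^ (-(ω f / m))) = 0 := by
      rw [h.mul f _ hf (zpow_ne_zero _ ht0), h.zpow ht0, htm]
      have := hdvd f hf
      have h2 : -(ω f / ↑m) * (m : ℤ) = -(m * (ω f / m)) := by ring
      rw [h2]
      omega
    have hmem : f * t ^ (-(ω f / m)) ∈ h.subring := (h.mem_subring_of_ne hne).2 h1.ge
    obtain ⟨u, hu⟩ := (h.isUnit_iff ⟨_, hmem⟩).2 ⟨hne, h1⟩
    refine ⟨u, ?_⟩
    rw [hu]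
    change f = f * t ^ (-(ω f / m)) * t ^ (ω f / m)
    rw [mul_assoc, ← zpow_add₀ ht0]
    simp
  have hfact : IsDiscreteValuationRing.HasUnitMulPowIrreducibleFactorization h.subring := by
    refine ⟨π, hπirr, fun {x} hx => ?_⟩
    have hx0 : (x : F) ≠ 0 := by simpa using hx
    obtain ⟨u, hu⟩ := hdec x hx0
    have hnn : 0 ≤ ω (x : F) / m :=
      Int.ediv_nonneg ((h.mem_subring_of_ne hx0).1 x.2) (by omega)
    obtain ⟨n, hn⟩ := Int.eq_ofNat_of_zero_le hnn
    refine ⟨n, u, ?_⟩
    apply Subtype.ext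
    rw [hu, hn, zpow_natCast]
    simp [mul_comm]
  have hdvr := IsDiscreteValuationRing.ofHasUnitMulPowIrreducibleFactorization hfact
  let v : Place K F :=
    { toValuationSubring := h.subring
      algebraMap_mem' := fun a => by
        by_cases ha : a = 0
        · left; simp [ha]
        · right; rw [h.const a ha]
      ne_top' := fun htop => by
        have : t⁻¹ ∈ h.subring := by rw [htop]; exact ValuationSubring.mem_top _
        rw [h.mem_subring_of_ne (inv_ne_zero ht0), h.inv ht0] at this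
        omega
      isPrincipalIdealRing' := inferInstance }
  refine ⟨v, m, by omega, fun f hf => ?_⟩
  obtain ⟨u, hu⟩ := hdec f hf
  have h1 : v.ord f = ω f / m := by
    conv_lhs => rw [hu]
    exact v.ord_unit_smul_zpow u hπirr _
  rw [h1]
  exact hdvd f hf

end IsOrd

end Count

end Fermat.Agent.S24
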