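import Fermat.Agent.S24.Sigma

/-!
# S24 / DEG-P4 : `index Γ₀(N) ≤ [FF N : Kb(j)]`
-/

set_option autoImplicit false

open UpperHalfPlane ModularForm ModularCurve
open scoped MatrixGroups Manifold IntermediateField

namespace Fermat.Agent.S24

namespace DegLower

/-- All the `sigmaQ N c` agree on `Kb(j)`. -/
lemma sigmaQ_eq_on (N : ℕ) (c c' : SL(2, ℤ) ⧸ CongruenceSubgroup.Gamma0 N) (x : FF N)
    (hx : x ∈ Kb⟮jF N⟯) : sigmaQ N c x = sigmaQ N c' x := by
  induction hx using IntermediateField.adjoin_induction with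
  | mem x hx =>
    rw [Set.mem_singleton_iff] at hx
    rw [hx, sigmaQ_jF, sigmaQ_jF]
  | algebraMap a => rw [sigmaQ_const, sigmaQ_const]
  | add x y _ _ hx hy => rw [map_add, map_add, hx, hy]
  | inv x _ hx => rw [map_inv₀, map_inv₀, hx]
  | mul x y _ _ hx hy => rw [map_mul, map_mul, hx, hy]

end DegLower

/-- [DEG-P4] -/
theorem index_le_finrank (N : ℕ) [NeZero N] [FiniteDimensional Kb⟮jF N⟯ (FF N)] :
    (CongruenceSubgroup.Gamma0 N).index ≤ Module.finrank Kb⟮jF N⟯ (FF N) := by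
  let c₀ : SL(2, ℤ) ⧸ CongruenceSubgroup.Gamma0 N := ((1 : SL(2, ℤ)) : _)
  let _ : Algebra Kb⟮jF N⟯ Mer := ((sigmaQ N c₀).comp (algebraMap Kb⟮jF N⟯ (FF N))).toAlgebra
  let f : (SL(2, ℤ) ⧸ CongruenceSubgroup.Gamma0 N) → (FF N →ₐ[Kb⟮jF N⟯] Mer) := fun c =>
    { sigmaQ N c with
      commutes' := fun x => DegLower.sigmaQ_eq_on N c c₀ _ x.2 }
  have hf : Function.Injective f := by
    intro c c' h
    apply sigmaQ_injective N
    ext x
    exact DFunLike.congr_fun h x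
  calc (CongruenceSubgroup.Gamma0 N).index
      = Nat.card (SL(2, ℤ) ⧸ CongruenceSubgroup.Gamma0 N) := rfl
    _ ≤ Nat.card (FF N →ₐ[Kb⟮jF N⟯] Mer) := Nat.card_le_card_of_injective f hf
    _ ≤ Module.finrank Kb⟮jF N⟯ (FF N) := card_algHom_le_finrank Kb⟮jF N⟯ (FF N) Mer

end Fermat.Agent.S24
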