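import Mathlib
import Fermat.Prelude.Def_AlgebraicCurve_DivisorClassGroup

set_option autoImplicit false

/-!
# S24, general function fields: basic API for `AlgebraicCurve.Place`
-/

namespace Fermat.Agent.S24

open AlgebraicCurve IsDedekindDomain WithZero

variable {K F : Type*} [Field K] [Field F] [Algebra K F]

namespace FF

variable (v : Place K F)

/-- a nonzero element lies in the valuation ring iff its order is nonnegative -/
lemma mem_iff_ord_nonneg {f : F} (hf : f ≠ 0) : f ∈ v.toValuationSubring ↔ 0 ≤ v.ord f := by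
  obtain ⟨π, hπ⟩ := IsDiscreteValuationRing.exists_irreducible v.toValuationSubring
  constructor
  · intro hmem
    have hne : (⟨f, hmem⟩ : v.toValuationSubring) ≠ 0 := by
      intro h; exact hf (congrArg Subtype.val h)
    obtain ⟨n, u, hu⟩ := IsDiscreteValuationRing.eq_unit_mul_pow_irreducible hne hπ
    have : f = ((u : v.toValuationSubring) : F) * ((π : F) ^ (n : ℤ)) := by
      have := congrArg Subtype.val hu
      simpa using this
    rw [this, v.ord_unit_smul_zpow u hπ]
    positivity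
  · intro h
    obtain ⟨u, hu⟩ := v.exists_unit_mul_zpow hf hπ
    rw [hu]
    obtain ⟨n, hn⟩ := Int.eq_ofNat_of_zero_le h
    rw [hn, zpow_natCast]
    exact v.toValuationSubring.mul_mem _ _ u.1.2 (v.toValuationSubring.pow_mem π.2 n)

lemma ord_nonneg_of_mem {f : F} (hf : f ∈ v.toValuationSubring) : 0 ≤ v.ord f := by
  rcases eq_or_ne f 0 with rfl | h0
  · simp
  · exact (mem_iff_ord_nonneg v h0).mp hf

/-- an element of the valuation ring is a non-unit iff its order is positive (or it is zero) -/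
lemma mem_maximalIdeal_iff {a : v.toValuationSubring} (ha : a ≠ 0) :
    a ∈ IsLocalRing.maximalIdeal v.toValuationSubring ↔ 0 < v.ord (a : F) := by
  obtain ⟨π, hπ⟩ := IsDiscreteValuationRing.exists_irreducible v.toValuationSubring
  obtain ⟨n, u, hu⟩ := IsDiscreteValuationRing.eq_unit_mul_pow_irreducible ha hπ
  have h1 : (a : F) = ((u : v.toValuationSubring) : F) * ((π : F) ^ (n : ℤ)) := by
    have := congrArg Subtype.val hu
    simpa using this
  rw [h1, v.ord_unit_smul_zpow u hπ, hu]
  constructor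
  · intro h
    rcases Nat.eq_zero_or_pos n with rfl | hn
    · exfalso
      rw [pow_zero, mul_one] at h
      exact (IsLocalRing.mem_maximalIdeal _).mp h u.isUnit
    · exact_mod_cast hn
  · intro h
    have hn : n ≠ 0 := by
      rintro rfl; simp at h
    apply Ideal.mul_mem_left
    exact Ideal.pow_mem_of_mem _ ((IsLocalRing.mem_maximalIdeal _).mpr hπ.not_isUnit) n
      (Nat.pos_of_ne_zero hn)

lemma ord_algebraMap (a : K) : v.ord (algebraMap K F a) = 0 := by
  rcases eq_or_ne a 0 with rfl | ha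
  · simp
  have h1 : 0 ≤ v.ord (algebraMap K F a) := ord_nonneg_of_mem v (v.algebraMap_mem' a)
  have h2 : 0 ≤ v.ord (algebraMap K F a⁻¹) := ord_nonneg_of_mem v (v.algebraMap_mem' a⁻¹)
  rw [map_inv₀, v.ord_inv] at h2
  omega

lemma ord_add_ge {f g : F} (hfg : f + g ≠ 0) : min (v.ord f) (v.ord g) ≤ v.ord (f + g) := by
  rcases eq_or_ne f 0 with rfl | hf
  · simp
  rcases eq_or_ne g 0 with rfl | hg
  · simp
  obtain ⟨π, hπ⟩ := IsDiscreteValuationRing.exists_irreducible v.toValuationSubring
  have hπ0 : (π : F) ≠ 0 := by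
    simpa [ne_eq, ZeroMemClass.coe_eq_zero] using hπ.ne_zero
  have hπ1 : v.ord (π : F) = 1 := v.ord_coe_irreducible hπ
  set m := min (v.ord f) (v.ord g) with hm
  have hz : ((π : F) ^ (-m)) ≠ 0 := zpow_ne_zero _ hπ0
  have h1 : f * (π : F) ^ (-m) ∈ v.toValuationSubring := by
    rw [mem_iff_ord_nonneg v (mul_ne_zero hf hz), v.ord_mul hf hz, v.ord_zpow, hπ1]
    have := min_le_left (v.ord f) (v.ord g)
    omega
  have h2 : g * (π : F) ^ (-m) ∈ v.toValuationSubring := by
    rw [mem_iff_ord_nonneg v (mul_ne_zero hg hz), v.ord_mul hg hz, v.ord_zpow, hπ1]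
    have := min_le_right (v.ord f) (v.ord g)
    omega
  have h3 : (f + g) * (π : F) ^ (-m) ∈ v.toValuationSubring := by
    rw [add_mul]; exact v.toValuationSubring.add_mem _ _ h1 h2
  rw [mem_iff_ord_nonneg v (mul_ne_zero hfg hz), v.ord_mul hfg hz, v.ord_zpow, hπ1] at h3
  omega

lemma ord_pow (f : F) (n : ℕ) : v.ord (f ^ n) = n * v.ord f := by
  have := v.ord_zpow f n
  simpa using this

lemma ord_neg (f : F) : v.ord (-f) = v.ord f := by
  rcases eq_or_ne f 0 with rfl | hf
  · simp
  have h : v.ord (-1 : F) = 0 := by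
    have := ord_algebraMap v (-1 : K)
    simpa using this
  rw [neg_eq_neg_one_mul, v.ord_mul (by simp) hf, h, zero_add]

/-- two places with comparable valuation rings are equal -/
lemma eq_of_le {v w : Place K F} (h : v.toValuationSubring ≤ w.toValuationSubring) : v = w := by
  apply Place.ext
  apply le_antisymm h
  intro f hf
  by_contra hfv
  have hf0 : f ≠ 0 := fun h0 => hfv (h0 ▸ v.toValuationSubring.zero_mem)
  -- `w ≠ ⊤`
  apply w.ne_top'
  rw [eq_top_iff]
  intro g _
  rcases eq_or_ne g 0 with rfl | hg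
  · exact w.toValuationSubring.zero_mem
  have hneg : v.ord f < 0 := by
    by_contra hge
    exact hfv ((mem_iff_ord_nonneg v hf0).mpr (not_lt.mp hge))
  -- `g = (g * f ^ (-n)) * f ^ n` with `n` large
  obtain ⟨n, hn⟩ : ∃ n : ℕ, 0 ≤ v.ord g + n * (- v.ord f) := by
    refine ⟨(- v.ord g).toNat, ?_⟩
    have h1 : (- v.ord g) ≤ ((- v.ord g).toNat : ℤ) := Int.self_le_toNat _
    have h2 : (0 : ℤ) ≤ ((- v.ord g).toNat : ℤ) := Int.natCast_nonneg _
    nlinarith
  have hfn : (f⁻¹) ^ n ≠ 0 := pow_ne_zero _ (inv_ne_zero hf0)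
  have h1 : g * (f⁻¹) ^ n ∈ v.toValuationSubring := by
    rw [mem_iff_ord_nonneg v (mul_ne_zero hg hfn), v.ord_mul hg hfn, ord_pow, v.ord_inv]
    exact hn
  have h2 : g = (g * (f⁻¹) ^ n) * f ^ n := by
    rw [mul_assoc, ← mul_pow, inv_mul_cancel₀ hf0, one_pow, mul_one]
  rw [h2]
  exact w.toValuationSubring.mul_mem _ _ (h h1) (w.toValuationSubring.pow_mem hf n)

end FF

end Fermat.Agent.S24
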