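import Fermat.Agent.S24.MerGerm

set_option autoImplicit false

/-!
# S24 : composition of meromorphic germs with analytic local maps
-/

namespace Fermat.Agent.S24

open Filter Topology

noncomputable section

namespace MerGerm

variable {x y : ℂ}

lemma tendsto_nhdsNE {φ : ℂ → ℂ} (hφ : AnalyticAt ℂ φ x) (hnc : ¬ EventuallyConst φ (𝓝 x))
    (hy : φ x = y) : Tendsto φ (𝓝[≠] x) (𝓝[≠] y) := by
  subst hy
  exact hφ.map_nhdsNE hnc

lemma meromorphicAt_comp {φ : ℂ → ℂ} (hφ : AnalyticAt ℂ φ x) (hy : φ x = y) {f : ℂ → ℂ}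
    (hf : MeromorphicAt f y) : MeromorphicAt (f ∘ φ) x := by
  subst hy
  exact hf.comp_analyticAt hφ

/-- underlying function of `MerGerm.comp` -/
def compFun (φ : ℂ → ℂ) (hφ : AnalyticAt ℂ φ x) (hy : φ x = y) (a : MerGerm y) : MerGerm x :=
  mk (a.2.choose ∘ φ) (meromorphicAt_comp hφ hy a.2.choose_spec.1)

lemma compFun_mk {φ : ℂ → ℂ} (hφ : AnalyticAt ℂ φ x) (hnc : ¬ EventuallyConst φ (𝓝 x))
    (hy : φ x = y) {f : ℂ → ℂ} (hf : MeromorphicAt f y) :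
    compFun φ hφ hy (mk f hf) = mk (f ∘ φ) (meromorphicAt_comp hφ hy hf) := by
  unfold compFun
  rw [mk_eq_mk_iff]
  exact (Germ.coe_eq.1 (mk f hf).2.choose_spec.2).comp_tendsto (tendsto_nhdsNE hφ hnc hy)

/-- Composition of germs with a non constant analytic map `φ : (ℂ, x) → (ℂ, y)`. -/
def comp (φ : ℂ → ℂ) (hφ : AnalyticAt ℂ φ x) (hnc : ¬ EventuallyConst φ (𝓝 x)) (hy : φ x = y) :
    MerGerm y →+* MerGerm x where
  toFun := compFun φ hφ hy
  map_one' := by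
    rw [one_eq_mk, compFun_mk hφ hnc hy, one_eq_mk, mk_eq_mk_iff]
    rfl
  map_mul' a b := by
    obtain ⟨f, hf, rfl⟩ := exists_mk a
    obtain ⟨g, hg, rfl⟩ := exists_mk b
    rw [mk_mul, compFun_mk hφ hnc hy, compFun_mk hφ hnc hy, compFun_mk hφ hnc hy, mk_mul,
      mk_eq_mk_iff]
    rfl
  map_zero' := by
    rw [zero_eq_mk, compFun_mk hφ hnc hy, zero_eq_mk, mk_eq_mk_iff]
    rfl
  map_add' a b := by
    obtain ⟨f, hf, rfl⟩ := exists_mk a
    obtain ⟨g, hg, rfl⟩ := exists_mk b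
    rw [mk_add, compFun_mk hφ hnc hy, compFun_mk hφ hnc hy, compFun_mk hφ hnc hy, mk_add,
      mk_eq_mk_iff]
    rfl

lemma comp_mk {φ : ℂ → ℂ} (hφ : AnalyticAt ℂ φ x) (hnc : ¬ EventuallyConst φ (𝓝 x))
    (hy : φ x = y) {f : ℂ → ℂ} (hf : MeromorphicAt f y) :
    comp φ hφ hnc hy (mk f hf) = mk (f ∘ φ) (meromorphicAt_comp hφ hy hf) :=
  compFun_mk hφ hnc hy hf

lemma not_eventuallyConst_of_deriv_ne_zero {φ : ℂ → ℂ} (hd : _root_.deriv φ x ≠ 0) :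
    ¬ EventuallyConst φ (𝓝 x) := by
  intro h
  apply hd
  obtain ⟨c, hc⟩ := eventuallyConst_iff_exists_eventuallyEq.1 h
  rw [hc.deriv_eq]
  simp

lemma ord_comp_of_deriv_ne_zero {φ : ℂ → ℂ} (hφ : AnalyticAt ℂ φ x)
    (hd : _root_.deriv φ x ≠ 0) (hy : φ x = y) (a : MerGerm y) :
    (comp φ hφ (not_eventuallyConst_of_deriv_ne_zero hd) hy a).ord = a.ord := by
  obtain ⟨f, hf, rfl⟩ := exists_mk a
  rw [comp_mk, ord_mk, ord_mk, meromorphicOrderAt_comp_of_deriv_ne_zero hφ hd, hy]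

/-- general formula for the order of a composition -/
lemma ord_comp {φ : ℂ → ℂ} (hφ : AnalyticAt ℂ φ x) (hnc : ¬ EventuallyConst φ (𝓝 x))
    (hy : φ x = y) {k : ℕ} (hk : analyticOrderAt (φ · - y) x = k) (a : MerGerm y) :
    (comp φ hφ hnc hy a).ord = a.ord * k := by
  subst hy
  by_cases ha : a = 0
  · simp [ha]
  obtain ⟨f, hf, rfl⟩ := exists_mk a
  have h1 := hf.meromorphicOrderAt_comp hφ hnc
  rw [hk, ← coe_ord_mk ha] at h1
  rw [comp_mk, ord_mk, h1]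
  rfl

/-- A germ invariant under a local map `ψ` fixing `x` with multiplier `μ = ψ'(x)` has an order `n`
with `μ ^ n = 1`. -/
theorem deriv_zpow_ord_eq_one {ψ : ℂ → ℂ} (hψ : AnalyticAt ℂ ψ x) (hd : _root_.deriv ψ x ≠ 0)
    (hx : ψ x = x) {a : MerGerm x} (ha : a ≠ 0)
    (hinv : comp ψ hψ (not_eventuallyConst_of_deriv_ne_zero hd) hx a = a) :
    _root_.deriv ψ x ^ a.ord = 1 := by
  obtain ⟨f, hf, rfl⟩ := exists_mk a
  have hnc := not_eventuallyConst_of_deriv_ne_zero hd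
  rw [comp_mk, mk_eq_mk_iff] at hinv
  obtain ⟨g, hg, hg0, hfg⟩ := (meromorphicOrderAt_eq_int_iff hf).1 (coe_ord_mk ha).symm
  set n := (mk f hf).ord
  have ht := tendsto_nhdsNE hψ hnc hx
  have h1 : ∀ᶠ z in 𝓝[≠] x, f (ψ z) = (ψ z - x) ^ n • g (ψ z) := ht.eventually hfg
  have h2 : ∀ᶠ z in 𝓝[≠] x, (slope ψ x z) ^ n * g (ψ z) = g z := by
    filter_upwards [h1, hfg, hinv, eventually_mem_nhdsWithin] with z h1 h2 h3 h4
    have hz : z - x ≠ 0 := sub_ne_zero.2 h4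
    simp only [Function.comp_apply] at h3
    rw [h1, h2, smul_eq_mul, smul_eq_mul] at h3
    rw [slope_def_field, hx, div_zpow, div_mul_eq_mul_div, h3]
    field_simp
  have h3 : Tendsto (fun z => (slope ψ x z) ^ n * g (ψ z)) (𝓝[≠] x) (𝓝 (_root_.deriv ψ x ^ n * g x)) := by
    have hs : Tendsto (slope ψ x) (𝓝[≠] x) (𝓝 (_root_.deriv ψ x)) :=
      hasDerivAt_iff_tendsto_slope.1 hψ.differentiableAt.hasDerivAt
    have hgψ : Tendsto (fun z => g (ψ z)) (𝓝[≠] x) (𝓝 (g x)) := by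
      have h5 : Tendsto ψ (𝓝[≠] x) (𝓝 x) := ht.mono_right nhdsWithin_le_nhds
      exact hg.continuousAt.tendsto.comp h5
    exact (hs.zpow₀ n (Or.inl hd)).mul hgψ
  have h4 : Tendsto g (𝓝[≠] x) (𝓝 (g x)) := hg.continuousAt.tendsto.mono_left nhdsWithin_le_nhds
  have h5 := tendsto_nhds_unique (h3.congr' h2) h4
  exact mul_right_cancel₀ hg0 (by rw [h5, one_mul])

end MerGerm

end

end Fermat.Agent.S24
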