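import Fermat.Agent.S24.Loc3
import Fermat.Agent.S24.Shift
import Fermat.Agent.S24.FFMain

set_option autoImplicit false

/-!
# S24 : the fibre of `j` over infinity (the cusps)
-/

namespace Fermat.Agent.S24

open AlgebraicCurve IntermediateField KaehlerDifferential UpperHalfPlane CongruenceSubgroup
open Filter Topology
open scoped MatrixGroups

noncomputable section

namespace Loc

section

variable (h : ℕ) [NeZero h]

omit [NeZero h] in
lemma cuspFunction_const_of_ne (c : ℂ) {q : ℂ} (hq : q ≠ 0) :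
    cuspFunction (h : ℝ) (fun _ : ℍ => c) q = c := by
  simp [cuspFunction, Function.Periodic.cuspFunction_eq_of_nonzero _ _ hq]

/-- the germ at `q = 0` of the cusp function -/
def niceGerm : nice h →+* MerGerm (0 : ℂ) where
  toFun F := MerGerm.mk (cuspFunction (h : ℝ) (F : ℍ → ℂ))
    (analyticAt_of_mem_nice h F.2).meromorphicAt
  map_one' := by
    rw [MerGerm.one_eq_mk, MerGerm.mk_eq_mk_iff]
    filter_upwards [self_mem_nhdsWithin] with q hq
    exact cuspFunction_const_of_ne h 1 hq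
  map_mul' a b := by
    rw [MerGerm.mk_mul, MerGerm.mk_eq_mk_iff, Subalgebra.coe_mul,
      cuspFunction_mul (analyticAt_of_mem_nice h a.2).continuousAt
        (analyticAt_of_mem_nice h b.2).continuousAt]
  map_zero' := by
    rw [MerGerm.zero_eq_mk, MerGerm.mk_eq_mk_iff]
    filter_upwards [self_mem_nhdsWithin] with q hq
    exact cuspFunction_const_of_ne h 0 hq
  map_add' a b := by
    rw [MerGerm.mk_add, MerGerm.mk_eq_mk_iff, Subalgebra.coe_add,
      cuspFunction_add (analyticAt_of_mem_nice h a.2).continuousAt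
        (analyticAt_of_mem_nice h b.2).continuousAt]

lemma niceGerm_apply (F : nice h) : niceGerm h F = MerGerm.mk (cuspFunction (h : ℝ) (F : ℍ → ℂ))
    (analyticAt_of_mem_nice h F.2).meromorphicAt := rfl

lemma niceGerm_injective : Function.Injective (niceGerm h) := by
  rw [injective_iff_map_eq_zero]
  intro F hF
  rw [niceGerm_apply, MerGerm.zero_eq_mk, MerGerm.mk_eq_mk_iff] at hF
  have h1 : ∀ᶠ z in 𝓝 (0 : ℂ), cuspFunction (h : ℝ) (F : ℍ → ℂ) z = 0 :=
    (analyticAt_of_mem_nice h F.2).frequently_zero_iff_eventually_zero.1 hF.frequently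
  apply qHom_injective h
  rw [map_zero]
  ext n
  have h2 : cuspFunction (h : ℝ) (F : ℍ → ℂ) =ᶠ[𝓝 0] fun _ => (0 : ℂ) := h1
  rw [qHom_apply, qExpansion_coeff, h2.iteratedDeriv_eq n]
  simp

lemma niceGerm_const (c : ℂ) : niceGerm h (algebraMap ℂ (nice h) c) = MerGerm.const 0 c := by
  rw [niceGerm_apply, MerGerm.const_apply, MerGerm.mk_eq_mk_iff]
  filter_upwards [self_mem_nhdsWithin] with q hq
  exact cuspFunction_const_of_ne h c hq

lemma ord_niceGerm (F : nice h) {n : ℕ}
    (hn : analyticOrderAt (cuspFunction (h : ℝ) (F : ℍ → ℂ)) 0 = n) : (niceGerm h F).ord = n := by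
  rw [niceGerm_apply, MerGerm.ord_mk, (analyticAt_of_mem_nice h F.2).meromorphicOrderAt_eq, hn]
  rfl

/-- the germ at the cusp of an element of `Frac (nice h)` -/
def germCusp : FractionRing (nice h) →+* MerGerm (0 : ℂ) :=
  IsFractionRing.lift (g := niceGerm h) (niceGerm_injective h)

@[simp] lemma germCusp_toFr (F : nice h) : germCusp h (toFr h F) = niceGerm h F :=
  IsFractionRing.lift_algebraMap _ _

/-- the rotation `q ↦ ζ⁻¹ q` -/
def rot (q : ℂ) : ℂ := zetaInv h * q

omit [NeZero h] in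
lemma hasDerivAt_rot (q : ℂ) : HasDerivAt (rot h) (zetaInv h) q := by
  have h1 : HasDerivAt (fun y : ℂ => zetaInv h * y) (zetaInv h * 1) q :=
    (hasDerivAt_id q).const_mul (zetaInv h)
  rw [mul_one] at h1
  exact h1

omit [NeZero h] in
lemma analyticAt_rot (q : ℂ) : AnalyticAt ℂ (rot h) q := by
  unfold rot
  fun_prop

omit [NeZero h] in
lemma deriv_rot (q : ℂ) : deriv (rot h) q = zetaInv h := (hasDerivAt_rot h q).deriv

omit [NeZero h] in
lemma deriv_rot_ne_zero (q : ℂ) : deriv (rot h) q ≠ 0 := by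
  rw [deriv_rot]
  exact zetaInv_ne_zero h

omit [NeZero h] in
lemma rot_zero : rot h 0 = 0 := mul_zero _

/-- composition of germs with the rotation -/
def rotGerm : MerGerm (0 : ℂ) →+* MerGerm (0 : ℂ) :=
  MerGerm.comp (rot h) (analyticAt_rot h 0)
    (MerGerm.not_eventuallyConst_of_deriv_ne_zero (deriv_rot_ne_zero h 0)) (rot_zero h)

lemma niceGerm_shiftNice (F : nice h) : niceGerm h (shiftNice h F) = rotGerm h (niceGerm h F) := by
  rw [niceGerm_apply, niceGerm_apply, rotGerm, MerGerm.comp_mk, MerGerm.mk_eq_mk_iff]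
  exact (cuspFunction_shiftNice_eventually h F).filter_mono nhdsWithin_le_nhds

lemma germCusp_shiftFrac (x : FractionRing (nice h)) :
    germCusp h (shiftFrac h x) = rotGerm h (germCusp h x) := by
  obtain ⟨a, b, -, rfl⟩ := exists_toFr_div h x
  simp only [map_div₀, shiftFrac_toFr, germCusp_toFr, niceGerm_shiftNice]

lemma isPrimitiveRoot_zetaInv : IsPrimitiveRoot (zetaInv h) h := by
  have h1 := Complex.isPrimitiveRoot_exp h (NeZero.ne h)
  have h2 : zetaInv h = (Complex.exp (2 * Real.pi * Complex.I / h))⁻¹ := by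
    rw [zetaInv, Complex.exp_neg]
  rw [h2]
  exact h1.inv

end

/-- the embeddings `FF N → MerGerm 0` attached to the cosets -/
def sigmaInf (N : ℕ) [NeZero N] (c : SL(2, ℤ) ⧸ Gamma0 N) : FF N →+* MerGerm (0 : ℂ) :=
  (germCusp N).comp (sigmaCuspQ N c)

section

variable (N : ℕ) [NeZero N]

lemma sigmaInf_apply (c : SL(2, ℤ) ⧸ Gamma0 N) (x : FF N) :
    sigmaInf N c x = germCusp N (sigmaCuspQ N c x) := rfl

lemma sigmaInf_injective : Function.Injective (sigmaInf N) := by
  intro c c' h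
  apply sigmaQ_injective N
  ext x
  rw [← niceToMer_sigmaCuspQ, ← niceToMer_sigmaCuspQ]
  congr 1
  apply (germCusp N).injective
  exact congrArg (fun φ : FF N →+* MerGerm (0 : ℂ) => φ x) h

lemma sigmaInf_const (c : SL(2, ℤ) ⧸ Gamma0 N) (a : Kb) :
    sigmaInf N c (algebraMap Kb (FF N) a) = MerGerm.const 0 (iotaC a) := by
  rw [sigmaInf_apply, sigmaCuspQ, sigmaCusp_const, germCusp_toFr, niceGerm_const]

lemma sigmaInf_jF (c : SL(2, ℤ) ⧸ Gamma0 N) :
    sigmaInf N c (jF N) = niceGerm N (utNice 1 0 1 one_pos one_pos N (one_dvd _) E4n) ^ 3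
      / niceGerm N (utNice 1 0 1 one_pos one_pos N (one_dvd _) Dn) := by
  rw [sigmaInf_apply, sigmaCuspQ, sigmaCusp_jF, jutFrac, map_div₀, map_pow, germCusp_toFr,
    germCusp_toFr]

lemma sigmaInf_smul (c : SL(2, ℤ) ⧸ Gamma0 N) (x : FF N) :
    sigmaInf N (ModularGroup.T • c) x = rotGerm N (sigmaInf N c x) := by
  rw [sigmaInf_apply, sigmaCuspQ_smul, germCusp_shiftFrac]
  rfl

lemma ord_sigmaInf_jF_inv (c : SL(2, ℤ) ⧸ Gamma0 N) : (sigmaInf N c (jF N)⁻¹).ord = N := by
  set A := niceGerm N (utNice 1 0 1 one_pos one_pos N (one_dvd _) E4n) with hA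
  set B := niceGerm N (utNice 1 0 1 one_pos one_pos N (one_dvd _) Dn) with hB
  have hA0 : A.ord = 0 := by
    have := ord_niceGerm N (utNice 1 0 1 one_pos one_pos N (one_dvd _) E4n) (n := 0) (by
      rw [Nat.cast_zero, (analyticAt_of_mem_nice N (utNice 1 0 1 one_pos one_pos N (one_dvd _)
        E4n).2).analyticOrderAt_eq_zero]
      exact cuspFunction_E4n_zero_ne N)
    simpa using this
  have hB0 : B.ord = N := ord_niceGerm N _ (analyticOrderAt_cuspFunction_Dn N)
  have hAne : A ≠ 0 := by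
    rw [hA, Ne, map_eq_zero_iff _ (niceGerm_injective N)]
    intro h0
    have := cuspFunction_E4n_zero N
    rw [h0] at this
    have h1 : cuspFunction (N : ℝ) ((0 : nice N) : ℍ → ℂ) 0 = 0 := by
      rw [cuspFunction_zero_eq_coeff, map_zero]
      simp
    rw [h1] at this
    exact zero_ne_one this
  have hBne : B ≠ 0 := by
    intro h0
    rw [h0, MerGerm.ord_zero] at hB0
    exact NeZero.ne N (by exact_mod_cast hB0.symm)
  rw [map_inv₀, sigmaInf_jF, MerGerm.ord_inv, div_eq_mul_inv,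
    MerGerm.ord_mul (pow_ne_zero 3 hAne) (inv_ne_zero hBne), MerGerm.ord_inv, hB0, pow_succ,
    pow_succ, pow_one, MerGerm.ord_mul (mul_ne_zero hAne hAne) hAne, MerGerm.ord_mul hAne hAne, hA0]
  ring

variable [FiniteDimensional Kb⟮jF N⟯ (FF N)]
  (hdeg : Module.finrank Kb⟮jF N⟯ (FF N) = (Gamma0 N).index)

instance finiteDimensional_inv : FiniteDimensional Kb⟮(jF N)⁻¹⟯ (FF N) := by
  rw [FF.adjoin_inv]
  infer_instance

local instance fintypeCosets' : Fintype (SL(2, ℤ) ⧸ Gamma0 N) := Fintype.ofFinite _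

include hdeg

omit [FiniteDimensional Kb⟮jF N⟯ (FF N)] in
lemma card_cosets_inv : Fintype.card (SL(2, ℤ) ⧸ Gamma0 N)
    = Module.finrank Kb⟮(jF N)⁻¹⟯ (FF N) := by
  rw [FF.finrank_congr (FF.adjoin_inv (jF N)), hdeg, Subgroup.index, Nat.card_eq_fintype_card]

theorem infty_ord_dvd (v : Place Kb (FF N)) (hv : 0 < v.ord (jF N)⁻¹) :
    v.ord (jF N)⁻¹ ∣ (N : ℤ) :=
  ord_dvd (jF N)⁻¹ (FF.transcendental_inv (transcendental_jF N))
    (sigmaInf N) (sigmaInf_injective N) iotaC (sigmaInf_const N)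
    (fun i i' => by rw [map_inv₀, map_inv₀, sigmaInf_jF, sigmaInf_jF]) (card_cosets_inv N hdeg)
    N (Nat.pos_of_ne_zero (NeZero.ne N)) (ord_sigmaInf_jF_inv N) v hv

theorem infty_ordDifferential (v : Place Kb (FF N)) (hv : 0 < v.ord (jF N)⁻¹) (t : FF N)
    (ht : v.ord t ≠ 0) (g : FF N) (hg : g ≠ 0) :
    v.ordDifferential (g • D Kb (FF N) t) = v.ord g + v.ord t - 1 :=
  ordDifferential_eq (jF N)⁻¹ (FF.transcendental_inv (transcendental_jF N))
    (sigmaInf N) (sigmaInf_injective N) iotaC (sigmaInf_const N)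
    (fun i i' => by rw [map_inv₀, map_inv₀, sigmaInf_jF, sigmaInf_jF]) (card_cosets_inv N hdeg)
    N (Nat.pos_of_ne_zero (NeZero.ne N)) (ord_sigmaInf_jF_inv N) v hv t ht g hg

/-- (H3) at the places above infinity -/
theorem ordDifferential_D_jF_infty (v : Place Kb (FF N)) (hv : 0 < v.ord (jF N)⁻¹) :
    v.ordDifferential (D Kb (FF N) (jF N)) = v.ord (jF N) - 1 := by
  have h1 : v.ord (jF N) ≠ 0 := by
    rw [Place.ord_inv] at hv
    omega
  have := infty_ordDifferential N hdeg v hv (jF N) h1 1 one_ne_zero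
  rw [one_smul, Place.ord_one, zero_add] at this
  exact this

/-- (H2) the fibre over `j = ∞` -/
theorem card_places_infty :
    Nat.card {v : Place Kb (FF N) // 0 < v.ord (jF N)⁻¹}
      = Nat.card (MulAction.orbitRel.Quotient
          (Subgroup.zpowers (MulAction.toPerm ModularGroup.T : Equiv.Perm (SL(2, ℤ) ⧸ Gamma0 N)))
          (SL(2, ℤ) ⧸ Gamma0 N)) :=
  card_places (jF N)⁻¹ (FF.transcendental_inv (transcendental_jF N))
    (sigmaInf N) (sigmaInf_injective N) iotaC (sigmaInf_const N)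
    (fun i i' => by rw [map_inv₀, map_inv₀, sigmaInf_jF, sigmaInf_jF]) (card_cosets_inv N hdeg)
    N (Nat.pos_of_ne_zero (NeZero.ne N)) (ord_sigmaInf_jF_inv N)
    (rot N) (analyticAt_rot N 0) (deriv_rot_ne_zero N 0) (rot_zero N)
    (by rw [deriv_rot]; exact isPrimitiveRoot_zetaInv N) (MulAction.toPerm ModularGroup.T)
    (fun i f => sigmaInf_smul N i f)

end

end Loc

end

end Fermat.Agent.S24
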