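import Mathlib

set_option autoImplicit false

/-!
# S24 : the field of germs of meromorphic functions at a point of `ℂ`

`MerGerm x` is a field, with an integer valued order function `MerGerm.ord` and a derivation
`MerGerm.deriv`.
-/

namespace Fermat.Agent.S24

open Filter Topology

noncomputable section

/-- The subring of germs (on punctured neighbourhoods of `x`) of meromorphic functions. -/
def merSubring (x : ℂ) : Subring (Germ (𝓝[≠] x) ℂ) where
  carrier := {g | ∃ f : ℂ → ℂ, MeromorphicAt f x ∧ (f : Germ (𝓝[≠] x) ℂ) = g}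
  mul_mem' := by
    rintro _ _ ⟨f, hf, rfl⟩ ⟨g, hg, rfl⟩
    exact ⟨f * g, hf.mul hg, rfl⟩
  one_mem' := ⟨fun _ => 1, MeromorphicAt.const 1 x, rfl⟩
  add_mem' := by
    rintro _ _ ⟨f, hf, rfl⟩ ⟨g, hg, rfl⟩
    exact ⟨f + g, hf.add hg, rfl⟩
  zero_mem' := ⟨fun _ => 0, MeromorphicAt.const 0 x, rfl⟩
  neg_mem' := by
    rintro _ ⟨f, hf, rfl⟩
    exact ⟨-f, hf.neg, rfl⟩

/-- Germs of meromorphic functions at `x`. -/
def MerGerm (x : ℂ) : Type := merSubring x

namespace MerGerm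

variable {x : ℂ}

instance : CommRing (MerGerm x) := inferInstanceAs (CommRing (merSubring x))

/-- The germ of a meromorphic function. -/
def mk (f : ℂ → ℂ) (hf : MeromorphicAt f x) : MerGerm x := ⟨(f : Germ (𝓝[≠] x) ℂ), f, hf, rfl⟩

lemma mk_eq_mk_iff {f g : ℂ → ℂ} {hf : MeromorphicAt f x} {hg : MeromorphicAt g x} :
    mk f hf = mk g hg ↔ f =ᶠ[𝓝[≠] x] g := by
  constructor
  · intro h
    exact Germ.coe_eq.1 (congrArg Subtype.val h)
  · intro h
    exact Subtype.ext (Germ.coe_eq.2 h)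

lemma exists_mk (g : MerGerm x) : ∃ (f : ℂ → ℂ) (hf : MeromorphicAt f x), g = mk f hf := by
  obtain ⟨g, f, hf, rfl⟩ := g
  exact ⟨f, hf, rfl⟩

lemma mk_add {f g : ℂ → ℂ} (hf : MeromorphicAt f x) (hg : MeromorphicAt g x) :
    mk f hf + mk g hg = mk (f + g) (hf.add hg) := rfl

lemma mk_mul {f g : ℂ → ℂ} (hf : MeromorphicAt f x) (hg : MeromorphicAt g x) :
    mk f hf * mk g hg = mk (f * g) (hf.mul hg) := rfl

lemma mk_neg {f : ℂ → ℂ} (hf : MeromorphicAt f x) : -mk f hf = mk (-f) hf.neg := rfl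

lemma mk_sub {f g : ℂ → ℂ} (hf : MeromorphicAt f x) (hg : MeromorphicAt g x) :
    mk f hf - mk g hg = mk (f - g) (hf.sub hg) := by
  rw [sub_eq_add_neg, mk_neg, mk_add, mk_eq_mk_iff, sub_eq_add_neg]

lemma zero_eq_mk : (0 : MerGerm x) = mk (fun _ => 0) (MeromorphicAt.const 0 x) := rfl

lemma one_eq_mk : (1 : MerGerm x) = mk (fun _ => 1) (MeromorphicAt.const 1 x) := rfl

lemma mk_eq_zero_iff {f : ℂ → ℂ} {hf : MeromorphicAt f x} :
    mk f hf = 0 ↔ meromorphicOrderAt f x = ⊤ := by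
  rw [zero_eq_mk, mk_eq_mk_iff, meromorphicOrderAt_eq_top_iff]
  rfl

lemma mk_ne_zero_iff {f : ℂ → ℂ} {hf : MeromorphicAt f x} :
    mk f hf ≠ 0 ↔ ∀ᶠ z in 𝓝[≠] x, f z ≠ 0 := by
  rw [Ne, mk_eq_zero_iff, ← Ne, meromorphicOrderAt_ne_top_iff_eventually_ne_zero hf]

lemma isField : IsField (MerGerm x) where
  exists_pair_ne := by
    refine ⟨0, 1, fun h => ?_⟩
    rw [zero_eq_mk, one_eq_mk, mk_eq_mk_iff] at h
    obtain ⟨z, hz⟩ := h.exists
    exact zero_ne_one hz
  mul_comm := mul_comm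
  mul_inv_cancel := by
    intro a ha
    obtain ⟨f, hf, rfl⟩ := exists_mk a
    refine ⟨mk f⁻¹ hf.inv, ?_⟩
    rw [mk_mul, one_eq_mk, mk_eq_mk_iff]
    filter_upwards [mk_ne_zero_iff.1 ha] with z hz
    simp [hz]

instance : Field (MerGerm x) := isField.toField

lemma mk_inv {f : ℂ → ℂ} (hf : MeromorphicAt f x) : (mk f hf)⁻¹ = mk f⁻¹ hf.inv := by
  by_cases h0 : mk f hf = 0
  · rw [h0, inv_zero, eq_comm, mk_eq_zero_iff, meromorphicOrderAt_inv, mk_eq_zero_iff.1 h0]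
    rfl
  · apply inv_eq_of_mul_eq_one_right
    rw [mk_mul, one_eq_mk, mk_eq_mk_iff]
    filter_upwards [mk_ne_zero_iff.1 h0] with z hz
    simp [hz]

/-- constants -/
def const (x : ℂ) : ℂ →+* MerGerm x where
  toFun c := mk (fun _ => c) (MeromorphicAt.const c x)
  map_one' := rfl
  map_mul' _ _ := rfl
  map_zero' := rfl
  map_add' _ _ := rfl

lemma const_apply (c : ℂ) : const x c = mk (fun _ => c) (MeromorphicAt.const c x) := rfl

/-- The order of a germ (`0` for the zero germ). -/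
def ord (g : MerGerm x) : ℤ := (meromorphicOrderAt g.2.choose x).untop₀

lemma ord_mk {f : ℂ → ℂ} (hf : MeromorphicAt f x) :
    (mk f hf).ord = (meromorphicOrderAt f x).untop₀ := by
  unfold ord
  congr 1
  apply meromorphicOrderAt_congr
  exact Germ.coe_eq.1 (mk f hf).2.choose_spec.2

lemma coe_ord_mk {f : ℂ → ℂ} {hf : MeromorphicAt f x} (h : mk f hf ≠ 0) :
    ((mk f hf).ord : WithTop ℤ) = meromorphicOrderAt f x := by
  rw [ord_mk, WithTop.coe_untop₀_of_ne_top]
  rwa [Ne, ← mk_eq_zero_iff (hf := hf)]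

@[simp] lemma ord_zero : (0 : MerGerm x).ord = 0 := by
  rw [zero_eq_mk, ord_mk, mk_eq_zero_iff (hf := MeromorphicAt.const 0 x) |>.1 rfl]
  rfl

lemma ord_mul {a b : MerGerm x} (ha : a ≠ 0) (hb : b ≠ 0) : (a * b).ord = a.ord + b.ord := by
  obtain ⟨f, hf, rfl⟩ := exists_mk a
  obtain ⟨g, hg, rfl⟩ := exists_mk b
  have hab := mul_ne_zero ha hb
  rw [mk_mul] at hab ⊢
  have h := meromorphicOrderAt_mul hf hg
  rw [← coe_ord_mk ha, ← coe_ord_mk hb, ← coe_ord_mk hab] at h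
  exact_mod_cast h

lemma ord_add {a b : MerGerm x} (ha : a ≠ 0) (hb : b ≠ 0) (hab : a + b ≠ 0) :
    min a.ord b.ord ≤ (a + b).ord := by
  obtain ⟨f, hf, rfl⟩ := exists_mk a
  obtain ⟨g, hg, rfl⟩ := exists_mk b
  rw [mk_add] at hab ⊢
  have h := meromorphicOrderAt_add hf hg
  rw [← coe_ord_mk ha, ← coe_ord_mk hb, ← coe_ord_mk hab] at h
  exact_mod_cast h

lemma ord_const {c : ℂ} : (const x c).ord = 0 := by
  classical
  rw [const_apply, ord_mk, meromorphicOrderAt_const]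
  split_ifs <;> rfl

@[simp] lemma ord_one : (1 : MerGerm x).ord = 0 := by
  rw [← map_one (const x)]
  exact ord_const

lemma ord_inv (a : MerGerm x) : a⁻¹.ord = -a.ord := by
  by_cases ha : a = 0
  · simp [ha]
  · have := ord_mul ha (inv_ne_zero ha)
    rw [mul_inv_cancel₀ ha, ord_one] at this
    omega

/-- The derivative of a germ. -/
def deriv (g : MerGerm x) : MerGerm x :=
  mk (_root_.deriv g.2.choose) g.2.choose_spec.1.deriv

lemma deriv_mk {f : ℂ → ℂ} (hf : MeromorphicAt f x) :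
    (mk f hf).deriv = mk (_root_.deriv f) hf.deriv := by
  unfold deriv
  rw [mk_eq_mk_iff]
  exact (Germ.coe_eq.1 (mk f hf).2.choose_spec.2).nhdsNE_deriv

lemma deriv_add (a b : MerGerm x) : (a + b).deriv = a.deriv + b.deriv := by
  obtain ⟨f, hf, rfl⟩ := exists_mk a
  obtain ⟨g, hg, rfl⟩ := exists_mk b
  rw [mk_add, deriv_mk, deriv_mk, deriv_mk, mk_add, mk_eq_mk_iff]
  filter_upwards [hf.eventually_analyticAt, hg.eventually_analyticAt] with z h1 h2
  exact _root_.deriv_add h1.differentiableAt h2.differentiableAt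

lemma deriv_mul (a b : MerGerm x) : (a * b).deriv = a.deriv * b + a * b.deriv := by
  obtain ⟨f, hf, rfl⟩ := exists_mk a
  obtain ⟨g, hg, rfl⟩ := exists_mk b
  rw [mk_mul, deriv_mk, deriv_mk, deriv_mk, mk_mul, mk_mul, mk_add, mk_eq_mk_iff]
  filter_upwards [hf.eventually_analyticAt, hg.eventually_analyticAt] with z h1 h2
  exact _root_.deriv_mul h1.differentiableAt h2.differentiableAt

lemma deriv_const (c : ℂ) : (const x c).deriv = 0 := by
  rw [const_apply, deriv_mk, zero_eq_mk, mk_eq_mk_iff]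
  filter_upwards with z
  simp

lemma ord_deriv {a : MerGerm x} (ha : a.ord ≠ 0) : a.deriv.ord = a.ord - 1 := by
  have ha0 : a ≠ 0 := by
    rintro rfl
    simp at ha
  obtain ⟨f, hf, rfl⟩ := exists_mk a
  have h := meromorphicOrderAt_deriv_eq_sub_one (f := f) (x := x) (n := (mk f hf).ord)
    (by exact_mod_cast ha) (coe_ord_mk ha0).symm
  rw [deriv_mk, ord_mk, h]
  rfl

lemma deriv_ne_zero {a : MerGerm x} (ha : a.ord ≠ 0) : a.deriv ≠ 0 := by
  have ha0 : a ≠ 0 := by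
    rintro rfl
    simp at ha
  obtain ⟨f, hf, rfl⟩ := exists_mk a
  have h := meromorphicOrderAt_deriv_eq_sub_one (f := f) (x := x) (n := (mk f hf).ord)
    (by exact_mod_cast ha) (coe_ord_mk ha0).symm
  rw [deriv_mk, Ne, mk_eq_zero_iff, h]
  exact WithTop.coe_ne_top

end MerGerm

end

end Fermat.Agent.S24
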